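/-
S59lib / BigImg / AuxGroup (helper4): **the group theory behind the auxiliary prime `r ≡ -1 (mod 12 p)`**
(abstract form, Mathlib only).

`m : Γ →* M₂(F)`, `F` algebraically closed.  `CommonEig m S v` : `v ≠ 0` is a common eigenvector of `m(S)`.

* `exists_index_le_two_of_preserves` : if `Γ` preserves the set of eigenvectors of a NON-SCALAR matrix `n'`, then the
  stabiliser of an eigenline of `n'` has index `≤ 2` (a non-scalar `2 × 2` matrix has at most two eigenlines);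
* `exists_commonEig_of_comm` : if `H ≥ [Γ, Γ]` and `m(H)` is commutative, some subgroup of index `≤ 2` has a common
  eigenvector;
* **`exists_diag_ne`** : if `m` has no common eigenvector on `Γ` nor on any subgroup of index `2`, and `H ≥ [Γ, Γ]`,
  then some `h ∈ H` has `m(h)₀₀ ≠ m(h)₁₁` (otherwise `m(H)` is commutative).
-/
import Mathlib

set_option autoImplicit false
set_option linter.unusedSectionVars false
set_option linter.unusedVariables false
set_option linter.style.haveILetI false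

noncomputable section

namespace Fermat.Agent.S59lib.BigImg

open Matrix

variable {Γ : Type*} [Group Γ] {F : Type*} [Field F]

/-! ### `2 × 2` linear algebra in coordinates -/

/-- the determinant of two vectors -/
def det2 (v w : Fin 2 → F) : F := v 0 * w 1 - v 1 * w 0

theorem mulVec_eq_smul_iff (n : Matrix (Fin 2) (Fin 2) F) (v : Fin 2 → F) (μ : F) :
    n *ᵥ v = μ • v ↔
      n 0 0 * v 0 + n 0 1 * v 1 = μ * v 0 ∧ n 1 0 * v 0 + n 1 1 * v 1 = μ * v 1 := by
  constructor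
  · intro h
    have h0 := congrFun h 0
    have h1 := congrFun h 1
    simp only [Matrix.mulVec, dotProduct, Fin.sum_univ_two, Pi.smul_apply, smul_eq_mul] at h0 h1
    exact ⟨h0, h1⟩
  · rintro ⟨h0, h1⟩
    funext i
    fin_cases i
    · simpa [Matrix.mulVec, dotProduct, Fin.sum_univ_two] using h0
    · simpa [Matrix.mulVec, dotProduct, Fin.sum_univ_two] using h1

theorem vec_ne_zero_iff (v : Fin 2 → F) : v ≠ 0 ↔ v 0 ≠ 0 ∨ v 1 ≠ 0 := by
  constructor
  · intro h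
    by_contra hcon
    push Not at hcon
    apply h
    funext i
    fin_cases i
    · exact hcon.1
    · exact hcon.2
  · rintro (h | h) h0
    · exact h (by rw [h0]; rfl)
    · exact h (by rw [h0]; rfl)

/-- two vectors with vanishing determinant are proportional -/
theorem exists_smul_of_det2_eq_zero {v w : Fin 2 → F} (hv : v ≠ 0) (h : det2 v w = 0) :
    ∃ κ : F, w = κ • v := by
  rw [det2] at h
  rcases (vec_ne_zero_iff v).1 hv with h0 | h1
  · refine ⟨w 0 / v 0, ?_⟩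
    funext i
    fin_cases i
    · show w 0 = w 0 / v 0 * v 0
      field_simp
    · show w 1 = w 0 / v 0 * v 1
      field_simp
      linear_combination h
  · refine ⟨w 1 / v 1, ?_⟩
    funext i
    fin_cases i
    · show w 0 = w 1 / v 1 * v 0
      field_simp
      linear_combination -h
    · show w 1 = w 1 / v 1 * v 1
      field_simp

theorem det2_smul_right (v : Fin 2 → F) (κ : F) : det2 v (κ • v) = 0 := by
  simp only [det2, Pi.smul_apply, smul_eq_mul]
  ring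

/-- `v` is an eigenvector of `n` -/
def IsEig (n : Matrix (Fin 2) (Fin 2) F) (v : Fin 2 → F) : Prop :=
  v ≠ 0 ∧ ∃ μ : F, n *ᵥ v = μ • v

/-- the quadratic form whose zeros are the eigenvectors -/
theorem eig_quad {n : Matrix (Fin 2) (Fin 2) F} {v : Fin 2 → F} (h : IsEig n v) :
    n 1 0 * v 0 ^ 2 + (n 1 1 - n 0 0) * (v 0 * v 1) - n 0 1 * v 1 ^ 2 = 0 := by
  obtain ⟨-, μ, hμ⟩ := h
  obtain ⟨h0, h1⟩ := (mulVec_eq_smul_iff n v μ).1 hμ
  linear_combination v 0 * h1 - v 1 * h0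

/-- a matrix with three pairwise non-proportional eigenvectors is scalar -/
theorem scalar_of_three_eig {n : Matrix (Fin 2) (Fin 2) F} {v w u : Fin 2 → F}
    (hv : IsEig n v) (hw : IsEig n w) (hu : IsEig n u)
    (hvw : det2 v w ≠ 0) (hvu : det2 v u ≠ 0) (hwu : det2 w u ≠ 0) :
    n = n 0 0 • (1 : Matrix (Fin 2) (Fin 2) F) := by
  have qv := eig_quad hv
  have qw := eig_quad hw
  have qu := eig_quad hu
  rw [det2] at hvw hvu hwu
  have hD : (v 0 * w 1 - v 1 * w 0) * (v 0 * u 1 - v 1 * u 0) * (w 0 * u 1 - w 1 * u 0) ≠ 0 :=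
    mul_ne_zero (mul_ne_zero hvw hvu) hwu
  have e1 : n 1 0 * ((v 0 * w 1 - v 1 * w 0) * (v 0 * u 1 - v 1 * u 0) *
      (w 0 * u 1 - w 1 * u 0)) = 0 := by
    linear_combination (w 1 * u 1 * (w 0 * u 1 - w 1 * u 0)) * qv -
      (v 1 * u 1 * (v 0 * u 1 - v 1 * u 0)) * qw + (v 1 * w 1 * (v 0 * w 1 - v 1 * w 0)) * qu
  have e2 : (n 1 1 - n 0 0) * ((v 0 * w 1 - v 1 * w 0) * (v 0 * u 1 - v 1 * u 0) *
      (w 0 * u 1 - w 1 * u 0)) = 0 := by
    linear_combination (-(w 0 * u 1 - w 1 * u 0) * (w 0 * u 1 + w 1 * u 0)) * qv +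
      ((v 0 * u 1 - v 1 * u 0) * (v 0 * u 1 + v 1 * u 0)) * qw -
      ((v 0 * w 1 - v 1 * w 0) * (v 0 * w 1 + v 1 * w 0)) * qu
  have e3 : n 0 1 * ((v 0 * w 1 - v 1 * w 0) * (v 0 * u 1 - v 1 * u 0) *
      (w 0 * u 1 - w 1 * u 0)) = 0 := by
    linear_combination (-(w 0 * u 0 * (w 0 * u 1 - w 1 * u 0))) * qv +
      (v 0 * u 0 * (v 0 * u 1 - v 1 * u 0)) * qw - (v 0 * w 0 * (v 0 * w 1 - v 1 * w 0)) * qu
  have f1 : n 1 0 = 0 := (mul_eq_zero.1 e1).resolve_right hD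
  have f2 : n 1 1 = n 0 0 := sub_eq_zero.1 ((mul_eq_zero.1 e2).resolve_right hD)
  have f3 : n 0 1 = 0 := (mul_eq_zero.1 e3).resolve_right hD
  ext i j
  fin_cases i <;> fin_cases j <;> simp [f1, f2, f3]


/-- two independent eigenvectors with the same eigenvalue: the matrix is scalar -/
theorem scalar_of_two_eig {n : Matrix (Fin 2) (Fin 2) F} {v w : Fin 2 → F} {μ : F}
    (hv : n *ᵥ v = μ • v) (hw : n *ᵥ w = μ • w) (hvw : det2 v w ≠ 0) :
    n = μ • (1 : Matrix (Fin 2) (Fin 2) F) := by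
  obtain ⟨a0, a1⟩ := (mulVec_eq_smul_iff n v μ).1 hv
  obtain ⟨b0, b1⟩ := (mulVec_eq_smul_iff n w μ).1 hw
  rw [det2] at hvw
  have e1 : (n 0 0 - μ) * (v 0 * w 1 - v 1 * w 0) = 0 := by
    linear_combination w 1 * a0 - v 1 * b0
  have e2 : n 0 1 * (v 0 * w 1 - v 1 * w 0) = 0 := by
    linear_combination v 0 * b0 - w 0 * a0
  have e3 : n 1 0 * (v 0 * w 1 - v 1 * w 0) = 0 := by
    linear_combination w 1 * a1 - v 1 * b1
  have e4 : (n 1 1 - μ) * (v 0 * w 1 - v 1 * w 0) = 0 := by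
    linear_combination v 0 * b1 - w 0 * a1
  have f1 : n 0 0 = μ := sub_eq_zero.1 ((mul_eq_zero.1 e1).resolve_right hvw)
  have f2 : n 0 1 = 0 := (mul_eq_zero.1 e2).resolve_right hvw
  have f3 : n 1 0 = 0 := (mul_eq_zero.1 e3).resolve_right hvw
  have f4 : n 1 1 = μ := sub_eq_zero.1 ((mul_eq_zero.1 e4).resolve_right hvw)
  ext i j
  fin_cases i <;> fin_cases j <;> simp [f1, f2, f3, f4]

/-! ### common eigenvectors and stabilisers of lines -/

/-- `v ≠ 0` is a common eigenvector of `m(S)` -/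
def CommonEig (m : Γ →* Matrix (Fin 2) (Fin 2) F) (S : Subgroup Γ) (v : Fin 2 → F) : Prop :=
  v ≠ 0 ∧ ∀ g ∈ S, ∃ μ : F, m g *ᵥ v = μ • v

theorem inv_mulVec_mulVec (m : Γ →* Matrix (Fin 2) (Fin 2) F) (g : Γ) (v : Fin 2 → F) :
    m g⁻¹ *ᵥ (m g *ᵥ v) = v := by
  rw [Matrix.mulVec_mulVec, ← map_mul, inv_mul_cancel, map_one, Matrix.one_mulVec]

theorem mulVec_ne_zero' (m : Γ →* Matrix (Fin 2) (Fin 2) F) (g : Γ) {v : Fin 2 → F}
    (hv : v ≠ 0) : m g *ᵥ v ≠ 0 := by
  intro h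
  apply hv
  rw [← inv_mulVec_mulVec m g v, h, Matrix.mulVec_zero]

/-- the stabiliser of the line `F v` -/
def lineStab (m : Γ →* Matrix (Fin 2) (Fin 2) F) (v : Fin 2 → F) (hv : v ≠ 0) : Subgroup Γ where
  carrier := {g | ∃ κ : F, m g *ᵥ v = κ • v}
  one_mem' := ⟨1, by rw [map_one, Matrix.one_mulVec, one_smul]⟩
  mul_mem' := by
    rintro a b ⟨κ, hκ⟩ ⟨κ', hκ'⟩
    refine ⟨κ' * κ, ?_⟩
    rw [map_mul, ← Matrix.mulVec_mulVec, hκ', Matrix.mulVec_smul, hκ, smul_smul]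
  inv_mem' := by
    rintro a ⟨κ, hκ⟩
    have hκ0 : κ ≠ 0 := by
      intro h0
      rw [h0, zero_smul] at hκ
      exact mulVec_ne_zero' m a hv hκ
    refine ⟨κ⁻¹, ?_⟩
    have h1 := inv_mulVec_mulVec m a v
    rw [hκ, Matrix.mulVec_smul] at h1
    calc m a⁻¹ *ᵥ v = κ⁻¹ • (κ • (m a⁻¹ *ᵥ v)) := by
          rw [smul_smul, inv_mul_cancel₀ hκ0, one_smul]
      _ = κ⁻¹ • v := by rw [h1]

theorem mem_lineStab {m : Γ →* Matrix (Fin 2) (Fin 2) F} {v : Fin 2 → F} {hv : v ≠ 0} {g : Γ} :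
    g ∈ lineStab m v hv ↔ ∃ κ : F, m g *ᵥ v = κ • v := Iff.rfl

/-- **at most two eigenlines**: if `Γ` preserves the eigenvectors of a non-scalar matrix `n'`, the stabiliser of an
eigenline has index `≤ 2` -/
theorem exists_index_le_two_of_preserves (m : Γ →* Matrix (Fin 2) (Fin 2) F)
    (n' : Matrix (Fin 2) (Fin 2) F) (hns : ∀ μ : F, n' ≠ μ • (1 : Matrix (Fin 2) (Fin 2) F))
    (hpres : ∀ (g : Γ) (w : Fin 2 → F), IsEig n' w → IsEig n' (m g *ᵥ w))
    {v : Fin 2 → F} (hv : IsEig n' v) :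
    ∃ S : Subgroup Γ, (S = ⊤ ∨ S.index = 2) ∧ CommonEig m S v := by
  classical
  refine ⟨lineStab m v hv.1, ?_, hv.1, fun g hg => hg⟩
  by_cases htop : lineStab m v hv.1 = ⊤
  · exact Or.inl htop
  right
  have hkey : ∀ a b : Γ, a ∉ lineStab m v hv.1 → b ∉ lineStab m v hv.1 →
      a⁻¹ * b ∈ lineStab m v hv.1 := by
    intro a b ha hb
    have hwa := hpres a v hv
    have hwb := hpres b v hv
    have d1 : det2 v (m a *ᵥ v) ≠ 0 := fun h0 => ha (exists_smul_of_det2_eq_zero hv.1 h0)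
    have d2 : det2 v (m b *ᵥ v) ≠ 0 := fun h0 => hb (exists_smul_of_det2_eq_zero hv.1 h0)
    have d3 : det2 (m a *ᵥ v) (m b *ᵥ v) = 0 := by
      by_contra h0
      exact hns _ (scalar_of_three_eig hv hwa hwb d1 d2 h0)
    obtain ⟨κ, hκ⟩ := exists_smul_of_det2_eq_zero hwa.1 d3
    refine ⟨κ, ?_⟩
    rw [map_mul, ← Matrix.mulVec_mulVec, hκ, Matrix.mulVec_smul, inv_mulVec_mulVec]
  obtain ⟨a, ha⟩ : ∃ a : Γ, a ∉ lineStab m v hv.1 := by
    by_contra hcon
    push Not at hcon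
    exact htop (eq_top_iff.2 fun g _ => hcon g)
  rw [Subgroup.index_eq_two_iff_exists_notMem_and]
  refine ⟨a, ha, fun b => ?_⟩
  by_cases hb : b ∈ lineStab m v hv.1
  · exact Or.inr hb
  · left
    have hb' : b⁻¹ ∉ lineStab m v hv.1 := fun h => hb (by simpa using (lineStab m v hv.1).inv_mem h)
    have := hkey b⁻¹ a hb' ha
    rwa [inv_inv] at this

/-! ### commutative normal subgroups -/

section AlgClosed

variable [IsAlgClosed F]

/-- every `2 × 2` matrix over an algebraically closed field has an eigenvector -/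
theorem exists_isEig (n : Matrix (Fin 2) (Fin 2) F) : ∃ v : Fin 2 → F, IsEig n v := by
  obtain ⟨μ, hμ⟩ := Module.End.exists_eigenvalue (Matrix.toLin' n)
  obtain ⟨v, hv⟩ := hμ.exists_hasEigenvector
  refine ⟨v, hv.2, μ, ?_⟩
  have := hv.apply_eq_smul
  rwa [Matrix.toLin'_apply] at this

/-- a subgroup containing the commutator subgroup is normal -/
theorem normal_of_commutator_le {H : Subgroup Γ} (hH : commutator Γ ≤ H) : H.Normal := by
  refine ⟨fun n hn g => ?_⟩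
  have hc : g * n * g⁻¹ * n⁻¹ ∈ H := by
    apply hH
    rw [← commutatorElement_def]
    exact Subgroup.commutator_mem_commutator (Subgroup.mem_top g) (Subgroup.mem_top n)
  have : g * n * g⁻¹ = (g * n * g⁻¹ * n⁻¹) * n := by group
  rw [this]
  exact H.mul_mem hc hn

/-- a normal subgroup with commutative image containing a non-scalar element: some subgroup of index `≤ 2` has a
common eigenvector -/
theorem exists_commonEig_of_nonscalar (m : Γ →* Matrix (Fin 2) (Fin 2) F) (N : Subgroup Γ)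
    [hN : N.Normal] (hcomm : ∀ a ∈ N, ∀ b ∈ N, m a * m b = m b * m a)
    {h₁ : Γ} (hh₁ : h₁ ∈ N) (hns : ∀ μ : F, m h₁ ≠ μ • (1 : Matrix (Fin 2) (Fin 2) F)) :
    ∃ (S : Subgroup Γ) (v : Fin 2 → F), (S = ⊤ ∨ S.index = 2) ∧ CommonEig m S v := by
  obtain ⟨v, hv⟩ := exists_isEig (m h₁)
  -- every eigenvector of `m h₁` is a common eigenvector of `m(N)`
  have hce : ∀ w : Fin 2 → F, IsEig (m h₁) w → ∀ a ∈ N, ∃ κ : F, m a *ᵥ w = κ • w := by
    rintro w ⟨hw0, μ, hμ⟩ a ha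
    have h1 : m h₁ *ᵥ (m a *ᵥ w) = μ • (m a *ᵥ w) := by
      rw [Matrix.mulVec_mulVec, hcomm h₁ hh₁ a ha, ← Matrix.mulVec_mulVec, hμ, Matrix.mulVec_smul]
    by_contra hcon
    have hd : det2 w (m a *ᵥ w) ≠ 0 := fun h0 => hcon (exists_smul_of_det2_eq_zero hw0 h0)
    exact hns μ (scalar_of_two_eig hμ h1 hd)
  have hpres : ∀ (g : Γ) (w : Fin 2 → F), IsEig (m h₁) w → IsEig (m h₁) (m g *ᵥ w) := by
    intro g w hw
    refine ⟨mulVec_ne_zero' m g hw.1, ?_⟩
    have hmem : g⁻¹ * h₁ * g ∈ N := by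
      have := hN.conj_mem h₁ hh₁ g⁻¹
      rwa [inv_inv] at this
    obtain ⟨κ, hκ⟩ := hce w hw _ hmem
    refine ⟨κ, ?_⟩
    have e : h₁ * g = g * (g⁻¹ * h₁ * g) := by group
    rw [Matrix.mulVec_mulVec, ← map_mul, e, map_mul, ← Matrix.mulVec_mulVec, hκ, Matrix.mulVec_smul]
  obtain ⟨S, hS, hSv⟩ := exists_index_le_two_of_preserves m (m h₁) hns hpres hv
  exact ⟨S, v, hS, hSv⟩

/-- **`H ≥ [Γ, Γ]` with commutative image**: some subgroup of index `≤ 2` has a common eigenvector -/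
theorem exists_commonEig_of_comm (m : Γ →* Matrix (Fin 2) (Fin 2) F) (H : Subgroup Γ)
    (hH : commutator Γ ≤ H) (hcomm : ∀ a ∈ H, ∀ b ∈ H, m a * m b = m b * m a) :
    ∃ (S : Subgroup Γ) (v : Fin 2 → F), (S = ⊤ ∨ S.index = 2) ∧ CommonEig m S v := by
  classical
  haveI : H.Normal := normal_of_commutator_le hH
  by_cases hsc : ∀ h ∈ H, ∃ μ : F, m h = μ • (1 : Matrix (Fin 2) (Fin 2) F)
  · -- `m(H)` is scalar
    by_cases hall : ∀ g : Γ, ∃ μ : F, m g = μ • (1 : Matrix (Fin 2) (Fin 2) F)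
    · refine ⟨⊤, ![1, 0], Or.inl rfl, ?_, fun g _ => ?_⟩
      · intro h0
        have := congrFun h0 0
        simp at this
      · obtain ⟨μ, hμ⟩ := hall g
        exact ⟨μ, by rw [hμ, Matrix.smul_mulVec, Matrix.one_mulVec]⟩
    · push Not at hall
      obtain ⟨g', hg'⟩ := hall
      obtain ⟨v, hv⟩ := exists_isEig (m g')
      have hpres : ∀ (g : Γ) (w : Fin 2 → F), IsEig (m g') w → IsEig (m g') (m g *ᵥ w) := by
        rintro g w ⟨hw0, μ, hμ⟩
        refine ⟨mulVec_ne_zero' m g hw0, ?_⟩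
        -- `g⁻¹ g' g g'⁻¹ ∈ H` is scalar
        have hc : g⁻¹ * g' * g⁻¹⁻¹ * g'⁻¹ ∈ H := by
          apply hH
          rw [← commutatorElement_def]
          exact Subgroup.commutator_mem_commutator (Subgroup.mem_top _) (Subgroup.mem_top _)
        obtain ⟨z, hz⟩ := hsc _ hc
        have e : g' * g = g * ((g⁻¹ * g' * g⁻¹⁻¹ * g'⁻¹) * g') := by group
        refine ⟨z * μ, ?_⟩
        rw [Matrix.mulVec_mulVec, ← map_mul, e, map_mul, map_mul, hz, ← Matrix.mulVec_mulVec,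
          ← Matrix.mulVec_mulVec, hμ, Matrix.mulVec_smul, Matrix.smul_mulVec, Matrix.one_mulVec,
          Matrix.mulVec_smul, Matrix.mulVec_smul, smul_smul, mul_comm]
      obtain ⟨S, hS, hSv⟩ := exists_index_le_two_of_preserves m (m g') hg' hpres hv
      exact ⟨S, v, hS, hSv⟩
  · push Not at hsc
    obtain ⟨h₁, hh₁, hns⟩ := hsc
    exact exists_commonEig_of_nonscalar m H hcomm hh₁ hns

/-- **the trace-zero coset lemma.**  If `m` has no common eigenvector on `Γ` nor on any subgroup of index `2`, and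
`H ≥ [Γ, Γ]`, then some `h ∈ H` has `m(h)₀₀ ≠ m(h)₁₁`. -/
theorem exists_diag_ne (m : Γ →* Matrix (Fin 2) (Fin 2) F) (H : Subgroup Γ)
    (hH : commutator Γ ≤ H)
    (hTW : ∀ S : Subgroup Γ, (S = ⊤ ∨ S.index = 2) → ∀ v : Fin 2 → F, ¬ CommonEig m S v) :
    ∃ h ∈ H, m h 0 0 ≠ m h 1 1 := by
  by_contra hcon
  push Not at hcon
  have hcomm : ∀ a ∈ H, ∀ b ∈ H, m a * m b = m b * m a := by
    intro a ha b hb
    have ea := hcon a ha
    have eb := hcon b hb
    have eab := hcon (a * b) (H.mul_mem ha hb)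
    rw [map_mul, Matrix.mul_apply, Matrix.mul_apply, Fin.sum_univ_two, Fin.sum_univ_two] at eab
    have hrel : m a 0 1 * m b 1 0 = m a 1 0 * m b 0 1 := by
      linear_combination eab - m b 0 0 * ea - m a 1 1 * eb
    ext i j
    fin_cases i <;> fin_cases j <;>
      simp only [Matrix.mul_apply, Fin.sum_univ_two, Fin.zero_eta, Fin.mk_one]
    · linear_combination hrel
    · linear_combination m b 0 1 * ea - m a 0 1 * eb
    · linear_combination m a 1 0 * eb - m b 1 0 * ea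
    · linear_combination -hrel
  obtain ⟨S, v, hS, hSv⟩ := exists_commonEig_of_comm m H hH hcomm
  exact hTW S hS v hSv

end AlgClosed

end Fermat.Agent.S59lib.BigImg
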