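/-
S59lib / BigImg / AuxLin (helper4): **the trace-zero coset lemma, linear form** (Mathlib only).

`ρ : Γ → GL(V)`, `dim V = 2` over an algebraically closed field of characteristic `≠ 2`, irreducible on `Γ` and on every
subgroup of index `2`; `c ∈ Γ` with `ρ(c)² = 1`, `det ρ(c) = -1`; `H ≥ [Γ, Γ]`.  Then some `h ∈ H` has
`tr ρ(c h) ≠ 0`.   (`AuxGroup.exists_diag_ne` in an eigenbasis of `ρ(c)`.)
-/
import Mathlib
import Fermat.Agent.S59lib.BigImg.AuxGroup

set_option autoImplicit false
set_option linter.unusedSectionVars false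
set_option linter.unusedVariables false
set_option linter.style.haveILetI false

noncomputable section

namespace Fermat.Agent.S59lib.BigImg

open Matrix

variable {Γ : Type*} [Group Γ] {K : Type*} [Field K] {V : Type*} [AddCommGroup V] [Module K V]

/-- an involution of determinant `-1` on a plane has an eigenbasis `(v₊, v₋)` -/
theorem exists_eigenbasis_of_involution (h2 : (2 : K) ≠ 0) (hV : Module.finrank K V = 2)
    (T : Module.End K V) (hT : T * T = 1) (hdet : LinearMap.det T = -1) :
    ∃ b : Module.Basis (Fin 2) K V, T (b 0) = b 0 ∧ T (b 1) = -b 1 := by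
  haveI : Module.Finite K V := Module.finite_of_finrank_eq_succ hV
  have hTT : ∀ x, T (T x) = x := fun x => by
    have := LinearMap.congr_fun hT x
    rwa [Module.End.mul_apply, Module.End.one_apply] at this
  have h11 : (1 : K) ≠ -1 := by
    intro h
    apply h2
    have : (2 : K) = 1 + 1 := by norm_num
    rw [this]
    nth_rewrite 2 [h]
    ring
  -- `T ≠ -1`
  obtain ⟨w, hw⟩ : ∃ w, T w + w ≠ 0 := by
    by_contra hcon
    push Not at hcon
    have hTm : T = (-1 : K) • (1 : Module.End K V) := by
      apply LinearMap.ext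
      intro x
      rw [LinearMap.smul_apply, Module.End.one_apply, neg_one_smul]
      exact eq_neg_of_add_eq_zero_left (hcon x)
    rw [hTm, LinearMap.det_smul, hV, map_one] at hdet
    apply h11
    rw [← hdet]
    ring
  -- `T ≠ 1`
  obtain ⟨w', hw'⟩ : ∃ w', T w' - w' ≠ 0 := by
    by_contra hcon
    push Not at hcon
    have hTm : T = 1 := by
      apply LinearMap.ext
      intro x
      rw [Module.End.one_apply]
      exact sub_eq_zero.1 (hcon x)
    rw [hTm, map_one] at hdet
    exact h11 hdet
  set vp : V := T w + w with hvp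
  set vm : V := T w' - w' with hvm
  have hTp : T vp = vp := by
    rw [hvp, map_add, hTT, add_comm]
  have hTm : T vm = -vm := by
    rw [hvm, map_sub, hTT, neg_sub]
  have hli : LinearIndependent K ![vp, vm] := by
    rw [LinearIndependent.pair_iff]
    intro s t hst
    have h1 : s • vp - t • vm = 0 := by
      have := congrArg T hst
      rwa [map_add, map_smul, map_smul, hTp, hTm, smul_neg, map_zero, ← sub_eq_add_neg] at this
    have hs : (2 * s) • vp = 0 := by
      have : (2 * s) • vp = (s • vp + t • vm) + (s • vp - t • vm) := by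
        rw [mul_smul, two_smul]; abel
      rw [this, hst, h1, add_zero]
    have ht : (2 * t) • vm = 0 := by
      have : (2 * t) • vm = (s • vp + t • vm) - (s • vp - t • vm) := by
        rw [mul_smul, two_smul]; abel
      rw [this, hst, h1, sub_zero]
    constructor
    · rcases smul_eq_zero.1 hs with h | h
      · exact (mul_eq_zero.1 h).resolve_left h2
      · exact absurd h hw
    · rcases smul_eq_zero.1 ht with h | h
      · exact (mul_eq_zero.1 h).resolve_left h2
      · exact absurd h hw'
  let b : Module.Basis (Fin 2) K V :=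
    basisOfLinearIndependentOfCardEqFinrank hli (by rw [hV]; rfl)
  have hb : ∀ i, b i = ![vp, vm] i := fun i => by
    simp only [b, coe_basisOfLinearIndependentOfCardEqFinrank]
  refine ⟨b, ?_, ?_⟩
  · rw [hb 0]; exact hTp
  · rw [hb 1]; exact hTm

/-- **the trace-zero coset lemma, linear form** -/
theorem exists_trace_ne_zero [IsAlgClosed K] (h2 : (2 : K) ≠ 0) (hV : Module.finrank K V = 2)
    (ρ : Γ →* Module.End K V) (c : Γ) (hc : ρ c * ρ c = 1) (hdet : LinearMap.det (ρ c) = -1)
    (H : Subgroup Γ) (hH : commutator Γ ≤ H)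
    (hTW : ∀ S : Subgroup Γ, (S = ⊤ ∨ S.index = 2) → ∀ U : Submodule K V,
      (∀ g ∈ S, ∀ x ∈ U, ρ g x ∈ U) → U = ⊥ ∨ U = ⊤) :
    ∃ h ∈ H, LinearMap.trace K V (ρ (c * h)) ≠ 0 := by
  classical
  haveI : Module.Finite K V := Module.finite_of_finrank_eq_succ hV
  obtain ⟨b, hb0, hb1⟩ := exists_eigenbasis_of_involution h2 hV (ρ c) hc hdet
  let m : Γ →* Matrix (Fin 2) (Fin 2) K :=
    ((LinearMap.toMatrixAlgEquiv b : Module.End K V ≃ₐ[K] Matrix (Fin 2) (Fin 2) K) :
      Module.End K V →* Matrix (Fin 2) (Fin 2) K).comp ρ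
  have hm : ∀ g, m g = LinearMap.toMatrix b b (ρ g) := fun g => rfl
  -- the matrix of `c`
  have hmc : m c = !![1, 0; 0, -1] := by
    ext i j
    rw [hm, LinearMap.toMatrix_apply]
    fin_cases j
    · show b.repr (ρ c (b 0)) i = _
      rw [hb0, b.repr_self]
      fin_cases i <;> simp
    · show b.repr (ρ c (b 1)) i = _
      rw [hb1, map_neg, b.repr_self]
      fin_cases i <;> simp
  -- no common eigenvectors
  have hno : ∀ S : Subgroup Γ, (S = ⊤ ∨ S.index = 2) → ∀ v : Fin 2 → K, ¬ CommonEig m S v := by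
    rintro S hS v ⟨hv0, hv⟩
    set x₀ : V := b.equivFun.symm v with hx₀
    have hrepr : (b.repr x₀ : Fin 2 → K) = v := by
      have := LinearEquiv.apply_symm_apply b.equivFun v
      rw [← hx₀] at this
      exact this
    have hx₀0 : x₀ ≠ 0 := by
      intro h
      apply hv0
      rw [← hrepr, h, map_zero]
      rfl
    have hfix : ∀ g ∈ S, ∃ μ : K, ρ g x₀ = μ • x₀ := by
      intro g hg
      obtain ⟨μ, hμ⟩ := hv g hg
      refine ⟨μ, ?_⟩
      apply b.equivFun.injective
      have h1 := LinearMap.toMatrix_mulVec_repr b b (ρ g) x₀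
      rw [hrepr, ← hm, hμ] at h1
      show (b.repr (ρ g x₀) : Fin 2 → K) = b.repr (μ • x₀)
      rw [← h1, map_smul, Finsupp.coe_smul, hrepr]
    have hstab : ∀ g ∈ S, ∀ x ∈ (K ∙ x₀), ρ g x ∈ (K ∙ x₀) := by
      intro g hg x hx
      obtain ⟨t, rfl⟩ := Submodule.mem_span_singleton.1 hx
      obtain ⟨μ, hμ⟩ := hfix g hg
      rw [map_smul, hμ]
      exact Submodule.smul_mem _ _ (Submodule.smul_mem _ _ (Submodule.mem_span_singleton_self x₀))
    rcases hTW S hS _ hstab with h | h
    · exact hx₀0 ((Submodule.span_singleton_eq_bot).1 h)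
    · have h1 := finrank_span_singleton (K := K) hx₀0
      rw [h, finrank_top, hV] at h1
      norm_num at h1
  obtain ⟨h, hh, hne⟩ := exists_diag_ne m H hH hno
  refine ⟨h, hh, ?_⟩
  rw [LinearMap.trace_eq_matrix_trace K b, ← hm, map_mul, hmc, Matrix.trace_fin_two]
  simp only [Matrix.mul_apply, Fin.sum_univ_two, Matrix.of_apply, Matrix.cons_val', Matrix.cons_val_zero,
    Matrix.cons_val_one, Matrix.cons_val_fin_one]
  intro h0
  apply hne
  linear_combination h0

end Fermat.Agent.S59lib.BigImg
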