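/-
S59lib / BigImg / Dihedral (helper4): **the dihedral case is impossible in characteristic `3`** (abstract form).

`ρ : Γ → GL(V)`, `dim V = 2` over a field `K` of characteristic `3`, irreducible over `K`; `H ≤ Γ` of index `2` with a
stable line `L`.  Then in a basis `e₁ ∈ L`, `e₂ = ρ(g₀) e₁` (`g₀ ∉ H`) the elements of `H` are diagonal and the elements
outside `H` antidiagonal.  If moreover `det ρ = 1` on `H`, `= -1` off `H` (i.e. the quadratic character of `H` is the
determinant — for `G_ℚ` and the mod `3` representation of a semistable curve this is QUAD), all traces lie in `𝔽₃`,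
and every character `κ : Γ → {±1}` which is trivial on `ker ρ`, on the unipotent elements and at some element outside
`H` is trivial (QUAD again), we get a contradiction:  `a + a⁻¹ ∈ 𝔽₃` forces `a⁴ = 1` for the eigenvalue `a` of
`h ∈ H`; `h ↦ a(h)²` extends to a character `κ` as above, so `a² = 1`, `ρ(H)` is scalar and `e₁ + e₂` spans a
stable line.
-/
import Mathlib

set_option autoImplicit false
set_option linter.unusedSectionVars false
set_option linter.unusedVariables false
set_option linter.style.haveILetI false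

noncomputable section

namespace Fermat.Agent.S59lib.BigImg

variable {Γ : Type*} [Group Γ] {K : Type*} [Field K] {V : Type*} [AddCommGroup V] [Module K V]

/-! ### index two -/

theorem exists_not_mem_of_index_two {H : Subgroup Γ} (hH : H.index = 2) : ∃ g₀ : Γ, g₀ ∉ H := by
  by_contra hcon
  push Not at hcon
  have : H = ⊤ := (Subgroup.eq_top_iff' H).2 hcon
  rw [this, Subgroup.index_top] at hH
  omega

theorem inv_mul_mem_of_index_two {H : Subgroup Γ} (hH : H.index = 2) {g₀ g : Γ} (hg₀ : g₀ ∉ H) (hg : g ∉ H) :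
    g₀⁻¹ * g ∈ H := by
  rw [Subgroup.mul_mem_iff_of_index_two hH]
  constructor
  · intro h; exact absurd (H.inv_mem_iff.1 h) hg₀
  · intro h; exact absurd h hg

theorem mul_self_mem_of_index_two {H : Subgroup Γ} (hH : H.index = 2) (g : Γ) : g * g ∈ H := by
  rw [Subgroup.mul_mem_iff_of_index_two hH]

theorem conj_mem_of_index_two {H : Subgroup Γ} (hH : H.index = 2) (g : Γ) {h : Γ} (hh : h ∈ H) :
    g⁻¹ * h * g ∈ H := by
  haveI := Subgroup.normal_of_index_eq_two hH
  have := (inferInstance : H.Normal).conj_mem h hh g⁻¹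
  rwa [inv_inv] at this

/-- the quadratic character of a subgroup of index two -/
def indexTwoChar (H : Subgroup Γ) (hH : H.index = 2) : Γ →* ℤˣ := by
  classical
  exact
  { toFun := fun g => if g ∈ H then 1 else -1
    map_one' := if_pos H.one_mem
    map_mul' := fun g g' => by
      by_cases hg : g ∈ H <;> by_cases hg' : g' ∈ H
      · rw [if_pos hg, if_pos hg', if_pos (H.mul_mem hg hg'), mul_one]
      · rw [if_pos hg, if_neg hg', if_neg (fun h => hg' ((H.mul_mem_cancel_left hg).1 h)), one_mul]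
      · rw [if_neg hg, if_pos hg', if_neg (fun h => hg ((H.mul_mem_cancel_right hg').1 h)), mul_one]
      · have : g * g' ∈ H := by
          rw [Subgroup.mul_mem_iff_of_index_two hH]
          exact ⟨fun h => absurd h hg, fun h => absurd h hg'⟩
        rw [if_neg hg, if_neg hg', if_pos this]
        rfl }

theorem indexTwoChar_of_mem {H : Subgroup Γ} (hH : H.index = 2) {g : Γ} (hg : g ∈ H) :
    indexTwoChar H hH g = 1 := by
  classical
  exact if_pos hg

theorem indexTwoChar_of_not_mem {H : Subgroup Γ} (hH : H.index = 2) {g : Γ} (hg : g ∉ H) :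
    indexTwoChar H hH g = -1 := by
  classical
  exact if_neg hg

/-! ### the sign of `±1` -/

/-- the sign of an element `x = ±1` of a field -/
def sgn (x : K) : ℤˣ := by
  classical
  exact if x = 1 then 1 else -1

theorem sgn_one : sgn (1 : K) = 1 := by
  classical
  rw [sgn, if_pos rfl]

theorem sgn_eq_one_iff {x : K} : sgn x = 1 ↔ x = 1 := by
  classical
  rw [sgn]
  split_ifs with h
  · exact ⟨fun _ => h, fun _ => rfl⟩
  · constructor
    · intro h1; exact absurd h1 (by decide)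
    · intro h1; exact absurd h1 h

theorem sgn_mul (h2 : (2 : K) ≠ 0) {x y : K} (hx : x * x = 1) (hy : y * y = 1) :
    sgn (x * y) = sgn x * sgn y := by
  classical
  have hne : (-1 : K) ≠ 1 := by
    intro h
    apply h2
    have : (2 : K) = 1 - (-1) := by ring
    rw [this, h, sub_self]
  have hcase : ∀ z : K, z * z = 1 → z = 1 ∨ z = -1 := by
    intro z hz
    have : (z - 1) * (z + 1) = 0 := by ring_nf; rw [← hz]; ring
    rcases mul_eq_zero.1 this with h | h
    · left; exact sub_eq_zero.1 h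
    · right; exact eq_neg_of_add_eq_zero_left h
  rcases hcase x hx with rfl | rfl <;> rcases hcase y hy with rfl | rfl
  · rw [mul_one, sgn_one, mul_one]
  · rw [one_mul, sgn_one, one_mul]
  · rw [mul_one, sgn_one, mul_one]
  · have h1 : sgn (-1 : K) = -1 := by rw [sgn, if_neg hne]
    rw [neg_mul_neg, mul_one, sgn_one, h1]
    rfl

/-! ### the dihedral basis -/

variable (ρ : Γ →* Module.End K V)

/-- **the dihedral basis.** -/
theorem exists_dihedral_basis (hV : Module.finrank K V = 2)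
    (hirr : ∀ W : Submodule K V, (∀ g, ∀ x ∈ W, ρ g x ∈ W) → W = ⊥ ∨ W = ⊤)
    (H : Subgroup Γ) (hH : H.index = 2) (L : Submodule K V) (hLbot : L ≠ ⊥) (hLtop : L ≠ ⊤)
    (hLH : ∀ h ∈ H, ∀ x ∈ L, ρ h x ∈ L) :
    ∃ (g₀ : Γ) (b : Module.Basis (Fin 2) K V) (a : Γ → K), g₀ ∉ H ∧
      (∀ h ∈ H, ρ h (b 0) = a h • b 0) ∧ ρ g₀ (b 0) = b 1 := by
  classical
  haveI : Module.Finite K V := Module.finite_of_finrank_eq_succ hV
  obtain ⟨g₀, hg₀⟩ := exists_not_mem_of_index_two hH
  obtain ⟨e₁, he₁L, he₁0⟩ := (Submodule.ne_bot_iff L).1 hLbot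
  -- `L` is the line through `e₁`
  have hfr : Module.finrank K L = 1 := by
    have h1 : Module.finrank K L < Module.finrank K V := Submodule.finrank_lt hLtop
    have h2 : 0 < Module.finrank K L := by
      rw [Module.finrank_pos_iff_exists_ne_zero]
      exact ⟨⟨e₁, he₁L⟩, fun h => he₁0 (congrArg Subtype.val h)⟩
    omega
  have hline : ∀ x ∈ L, ∃ r : K, x = r • e₁ := by
    intro x hx
    have h1 := (finrank_eq_one_iff_of_nonzero' (⟨e₁, he₁L⟩ : L)
      (fun h => he₁0 (congrArg Subtype.val h))).1 hfr ⟨x, hx⟩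
    obtain ⟨r, hr⟩ := h1
    exact ⟨r, by have := congrArg Subtype.val hr; simpa using this.symm⟩
  set e₂ : V := ρ g₀ e₁ with he₂
  -- `e₂ ∉ L`
  have he₂L : e₂ ∉ L := by
    intro h
    rcases hirr L (fun g x hx => by
      by_cases hg : g ∈ H
      · exact hLH g hg x hx
      · have hmem := inv_mul_mem_of_index_two hH hg₀ hg
        have h1 : ρ g x = ρ g₀ (ρ (g₀⁻¹ * g) x) := by
          rw [← Module.End.mul_apply, ← map_mul, mul_inv_cancel_left]
        rw [h1]
        obtain ⟨r, hr⟩ := hline _ (hLH _ hmem x hx)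
        rw [hr, map_smul]
        exact L.smul_mem r h) with h' | h'
    · exact hLbot h'
    · exact hLtop h'
  have hli : LinearIndependent K ![e₁, e₂] := by
    rw [LinearIndependent.pair_iff]
    intro s t hst
    by_cases ht : t = 0
    · rw [ht, zero_smul, add_zero] at hst
      rcases smul_eq_zero.1 hst with h | h
      · exact ⟨h, ht⟩
      · exact absurd h he₁0
    · exfalso
      apply he₂L
      have h1 : e₂ = (-(t⁻¹ * s)) • e₁ := by
        have h2 : t • e₂ = -(s • e₁) := eq_neg_of_add_eq_zero_right hst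
        calc e₂ = t⁻¹ • (t • e₂) := by rw [smul_smul, inv_mul_cancel₀ ht, one_smul]
          _ = (-(t⁻¹ * s)) • e₁ := by rw [h2, smul_neg, smul_smul, neg_smul]
      rw [h1]
      exact L.smul_mem _ he₁L
  let b : Module.Basis (Fin 2) K V := basisOfLinearIndependentOfCardEqFinrank hli
    (by rw [Fintype.card_fin, hV])
  have hb0 : b 0 = e₁ := by
    rw [coe_basisOfLinearIndependentOfCardEqFinrank]; rfl
  have hb1 : b 1 = e₂ := by
    rw [coe_basisOfLinearIndependentOfCardEqFinrank]; rfl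
  refine ⟨g₀, b, fun g => b.repr (ρ g (b 0)) 0, hg₀, fun h hh => ?_, ?_⟩
  · obtain ⟨r, hr⟩ := hline _ (hLH h hh e₁ he₁L)
    have h1 : b.repr (ρ h (b 0)) 0 = r := by
      rw [hb0, hr, ← hb0, map_smul, b.repr_self, Finsupp.smul_apply, Finsupp.single_eq_same, smul_eq_mul,
        mul_one]
    show ρ h (b 0) = b.repr (ρ h (b 0)) 0 • b 0
    rw [h1, hb0, hr]
  · rw [hb0, hb1]

/-! ### characteristic `3` -/

/-- `x + x⁻¹ ∈ 𝔽₃` forces `x⁴ = 1` in characteristic `3` -/
theorem pow_four_eq_one_of_trace (h3 : (3 : K) = 0) {x y : K} (hxy : x * y = 1)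
    (ht : (x + y) ^ 3 = x + y) : x ^ 4 = 1 := by
  have hx0 : x ≠ 0 := left_ne_zero_of_mul_eq_one hxy
  have hfrob : (x + y) ^ 3 = x ^ 3 + y ^ 3 := by
    have : (x + y) ^ 3 = x ^ 3 + y ^ 3 + 3 * (x * y * (x + y)) := by ring
    rw [this, h3, zero_mul, add_zero]
  rw [hfrob] at ht
  -- multiply by `x ^ 3`
  have h1 : x ^ 6 + 1 = x ^ 4 + x ^ 2 := by
    have e1 : x ^ 3 * (x ^ 3 + y ^ 3) = x ^ 6 + (x * y) ^ 3 := by ring
    have e2 : x ^ 3 * (x + y) = x ^ 4 + x ^ 2 * (x * y) := by ring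
    have := congrArg (fun z => x ^ 3 * z) ht
    simp only [e1, e2, hxy, one_pow, mul_one] at this
    exact this
  have h2 : (x ^ 4 - 1) * (x ^ 2 - 1) = 0 := by
    have : (x ^ 4 - 1) * (x ^ 2 - 1) = (x ^ 6 + 1) - (x ^ 4 + x ^ 2) := by ring
    rw [this, h1, sub_self]
  rcases mul_eq_zero.1 h2 with h | h
  · exact sub_eq_zero.1 h
  · have h5 : x ^ 2 = 1 := sub_eq_zero.1 h
    calc x ^ 4 = (x ^ 2) ^ 2 := by ring
      _ = 1 := by rw [h5, one_pow]

/-- **The dihedral case is impossible in characteristic `3`** (abstract form). -/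
theorem dihedral_false_three_aux (h3 : (3 : K) = 0) (hV : Module.finrank K V = 2)
    (hirr : ∀ W : Submodule K V, (∀ g, ∀ x ∈ W, ρ g x ∈ W) → W = ⊥ ∨ W = ⊤)
    (H : Subgroup Γ) (hH : H.index = 2) (L : Submodule K V) (hLbot : L ≠ ⊥) (hLtop : L ≠ ⊤)
    (hLH : ∀ h ∈ H, ∀ x ∈ L, ρ h x ∈ L)
    (hdetH : ∀ h ∈ H, LinearMap.det (ρ h) = 1) (hdetG : ∀ g, g ∉ H → LinearMap.det (ρ g) = -1)
    (htr : ∀ g, (LinearMap.trace K V (ρ g)) ^ 3 = LinearMap.trace K V (ρ g))
    (hQ : ∀ κ : Γ →* ℤˣ, (∀ g, ρ g = 1 → κ g = 1) →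
      (∀ u, (ρ u - 1) * (ρ u - 1) = 0 → κ u = 1) → (∃ g, g ∉ H ∧ κ g = 1) → κ = 1) : False := by
  classical
  haveI : Module.Finite K V := Module.finite_of_finrank_eq_succ hV
  have h2 : (2 : K) ≠ 0 := by
    intro h
    have : (1 : K) = 0 := by
      have e : (1 : K) = 3 - 2 := by norm_num
      rw [e, h3, h, sub_zero]
    exact one_ne_zero this
  obtain ⟨g₀, b, a, hg₀, ha, hb1⟩ := exists_dihedral_basis ρ hV hirr H hH L hLbot hLtop hLH
  have hb0ne : b 0 ≠ 0 := b.ne_zero 0
  have hb1ne : b 1 ≠ 0 := b.ne_zero 1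
  -- the second eigenvalue
  have ha' : ∀ h ∈ H, ρ h (b 1) = a (g₀⁻¹ * h * g₀) • b 1 := by
    intro h hh
    have hc := conj_mem_of_index_two hH g₀ hh
    have e : h * g₀ = g₀ * (g₀⁻¹ * h * g₀) := by group
    rw [← hb1, ← Module.End.mul_apply, ← map_mul, e, map_mul, Module.End.mul_apply, ha _ hc, map_smul]
  -- `a` is multiplicative on `H`
  have hamul : ∀ h ∈ H, ∀ h' ∈ H, a (h * h') = a h * a h' := by
    intro h hh h' hh'
    have h1 : ρ (h * h') (b 0) = (a h * a h') • b 0 := by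
      rw [map_mul, Module.End.mul_apply, ha h' hh', map_smul, ha h hh, smul_smul, mul_comm]
    rw [ha _ (H.mul_mem hh hh')] at h1
    exact smul_left_injective K hb0ne h1
  have haone : a 1 = 1 := by
    have h1 : ρ 1 (b 0) = (1 : K) • b 0 := by rw [map_one, Module.End.one_apply, one_smul]
    rw [ha 1 H.one_mem] at h1
    exact smul_left_injective K hb0ne h1
  -- matrices
  have hmatH : ∀ h ∈ H, LinearMap.toMatrix b b (ρ h) = !![a h, 0; 0, a (g₀⁻¹ * h * g₀)] := by
    intro h hh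
    ext i j
    rw [LinearMap.toMatrix_apply]
    fin_cases i <;> fin_cases j
    · simp [ha h hh]
    · simp [ha' h hh]
    · simp [ha h hh]
    · simp [ha' h hh]
  have hdetH' : ∀ h ∈ H, a h * a (g₀⁻¹ * h * g₀) = 1 := by
    intro h hh
    have h1 := hdetH h hh
    rw [← LinearMap.det_toMatrix b, hmatH h hh, Matrix.det_fin_two_of] at h1
    rw [mul_zero, sub_zero] at h1
    exact h1
  have htrH : ∀ h ∈ H, LinearMap.trace K V (ρ h) = a h + a (g₀⁻¹ * h * g₀) := by
    intro h hh
    rw [LinearMap.trace_eq_matrix_trace K b, hmatH h hh, Matrix.trace_fin_two_of]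
  have ha4 : ∀ h ∈ H, a h ^ 4 = 1 := by
    intro h hh
    have h1 := htr h
    rw [htrH h hh] at h1
    exact pow_four_eq_one_of_trace h3 (hdetH' h hh) h1
  have hane : ∀ h ∈ H, a h ≠ 0 := fun h hh => left_ne_zero_of_mul_eq_one (hdetH' h hh)
  -- `a² ` is conjugation invariant
  have hconj : ∀ h ∈ H, a (g₀⁻¹ * h * g₀) ^ 2 = a h ^ 2 := by
    intro h hh
    have h1 := hdetH' h hh
    have h4 := ha4 h hh
    have e : a (g₀⁻¹ * h * g₀) = (a h)⁻¹ := eq_inv_of_mul_eq_one_right h1
    rw [e, inv_pow]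
    rw [inv_eq_iff_eq_inv, ← one_div, eq_div_iff (pow_ne_zero 2 (hane h hh))]
    calc a h ^ 2 * a h ^ 2 = a h ^ 4 := by ring
      _ = 1 := h4
  -- `g₀`
  have hg₀sq : g₀ * g₀ ∈ H := mul_self_mem_of_index_two hH g₀
  have hg₀b1 : ρ g₀ (b 1) = a (g₀ * g₀) • b 0 := by
    rw [← hb1, ← Module.End.mul_apply, ← map_mul, ha _ hg₀sq]
  have hmatg : LinearMap.toMatrix b b (ρ g₀) = !![0, a (g₀ * g₀); 1, 0] := by
    ext i j
    rw [LinearMap.toMatrix_apply]
    fin_cases i <;> fin_cases j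
    · simp [hb1]
    · simp [hg₀b1]
    · simp [hb1]
    · simp [hg₀b1]
  have hc1 : a (g₀ * g₀) = 1 := by
    have h1 := hdetG g₀ hg₀
    rw [← LinearMap.det_toMatrix b, hmatg, Matrix.det_fin_two_of] at h1
    rw [zero_mul, zero_sub, mul_one] at h1
    exact neg_injective h1
  -- the function `α`
  set α : Γ → K := fun g => if g ∈ H then a g ^ 2 else a (g₀⁻¹ * g) ^ 2 with hα
  have hαH : ∀ h ∈ H, α h = a h ^ 2 := fun h hh => by rw [hα]; exact if_pos hh
  have hαG : ∀ g, g ∉ H → α g = a (g₀⁻¹ * g) ^ 2 := fun g hg => by rw [hα]; exact if_neg hg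
  have hsqH : ∀ h ∈ H, a h ^ 2 * a h ^ 2 = 1 := by
    intro h hh
    calc a h ^ 2 * a h ^ 2 = a h ^ 4 := by ring
      _ = 1 := ha4 h hh
  have hαsq : ∀ g, α g * α g = 1 := by
    intro g
    by_cases hg : g ∈ H
    · rw [hαH g hg]; exact hsqH g hg
    · rw [hαG g hg]; exact hsqH _ (inv_mul_mem_of_index_two hH hg₀ hg)
  have hαmul : ∀ g g', α (g * g') = α g * α g' := by
    intro g g'
    by_cases hg : g ∈ H <;> by_cases hg' : g' ∈ H
    · rw [hαH _ (H.mul_mem hg hg'), hαH g hg, hαH g' hg', hamul g hg g' hg', mul_pow]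
    · have hgg' : g * g' ∉ H := fun h => hg' ((H.mul_mem_cancel_left hg).1 h)
      have hm := inv_mul_mem_of_index_two hH hg₀ hg'
      have e : g₀⁻¹ * (g * g') = (g₀⁻¹ * g * g₀) * (g₀⁻¹ * g') := by group
      rw [hαG _ hgg', hαH g hg, hαG g' hg', e, hamul _ (conj_mem_of_index_two hH g₀ hg) _ hm, mul_pow,
        hconj g hg]
    · have hgg' : g * g' ∉ H := fun h => hg ((H.mul_mem_cancel_right hg').1 h)
      have hm := inv_mul_mem_of_index_two hH hg₀ hg
      have e : g₀⁻¹ * (g * g') = (g₀⁻¹ * g) * g' := by group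
      rw [hαG _ hgg', hαG g hg, hαH g' hg', e, hamul _ hm _ hg', mul_pow]
    · have hm := inv_mul_mem_of_index_two hH hg₀ hg
      have hm' := inv_mul_mem_of_index_two hH hg₀ hg'
      have hgg' : g * g' ∈ H := by
        rw [Subgroup.mul_mem_iff_of_index_two hH]
        exact ⟨fun h => absurd h hg, fun h => absurd h hg'⟩
      have e : g * g' = (g₀ * g₀) * ((g₀⁻¹ * (g₀⁻¹ * g) * g₀) * (g₀⁻¹ * g')) := by group
      rw [hαH _ hgg', hαG g hg, hαG g' hg', e,
        hamul _ hg₀sq _ (H.mul_mem (conj_mem_of_index_two hH g₀ hm) hm'), hc1, one_mul,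
        hamul _ (conj_mem_of_index_two hH g₀ hm) _ hm', mul_pow, hconj _ hm]
  have hαone : α 1 = 1 := by rw [hαH 1 H.one_mem, haone, one_pow]
  -- the character `κ`
  let κ : Γ →* ℤˣ :=
    { toFun := fun g => sgn (α g)
      map_one' := by rw [hαone, sgn_one]
      map_mul' := fun g g' => by rw [hαmul, sgn_mul h2 (hαsq g) (hαsq g')] }
  have hκ : ∀ g, κ g = sgn (α g) := fun _ => rfl
  -- elements outside `H` are antidiagonal
  have hanti : ∀ g, g ∉ H → ρ g (b 0) = a (g₀⁻¹ * g) • b 1 := by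
    intro g hg
    have hm := inv_mul_mem_of_index_two hH hg₀ hg
    have e : g = g₀ * (g₀⁻¹ * g) := by group
    conv_lhs => rw [e]
    rw [map_mul, Module.End.mul_apply, ha _ hm, map_smul, hb1]
  have hli : ∀ r s : K, r • b 0 + s • b 1 = 0 → r = 0 ∧ s = 0 := by
    intro r s h
    have h1 := b.linearIndependent
    rw [Fintype.linearIndependent_iff] at h1
    have h2' := h1 ![r, s] (by rw [Fin.sum_univ_two]; simpa using h)
    exact ⟨by simpa using h2' 0, by simpa using h2' 1⟩
  -- `κ` is trivial on `ker ρ`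
  have hκ1 : ∀ g, ρ g = 1 → κ g = 1 := by
    intro g hg1
    by_cases hg : g ∈ H
    · have h1 : a g = 1 := by
        have h5 := ha g hg
        rw [hg1, Module.End.one_apply] at h5
        have h6 : (1 : K) • b 0 = a g • b 0 := by rw [one_smul]; exact h5
        exact (smul_left_injective K hb0ne h6).symm
      rw [hκ, hαH g hg, h1, one_pow, sgn_one]
    · exfalso
      have h5 := hanti g hg
      rw [hg1, Module.End.one_apply] at h5
      have h6 : (1 : K) • b 0 + (-(a (g₀⁻¹ * g))) • b 1 = 0 := by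
        rw [one_smul, neg_smul, ← h5, add_neg_cancel]
      exact one_ne_zero (hli _ _ h6).1
  -- `κ` is trivial on unipotent elements
  have hκu : ∀ u, (ρ u - 1) * (ρ u - 1) = 0 → κ u = 1 := by
    intro u hu
    by_cases hg : u ∈ H
    · have e1 : (ρ u - 1) (b 0) = (a u - 1) • b 0 := by
        rw [LinearMap.sub_apply, Module.End.one_apply, ha u hg, sub_smul, one_smul]
      have h5 : ((ρ u - 1) * (ρ u - 1)) (b 0) = ((a u - 1) * (a u - 1)) • b 0 := by
        rw [Module.End.mul_apply, e1, map_smul, e1, smul_smul]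
      rw [hu, LinearMap.zero_apply] at h5
      have h6 : (a u - 1) * (a u - 1) = 0 := by
        rcases smul_eq_zero.1 h5.symm with h | h
        · exact h
        · exact absurd h hb0ne
      have h7 : a u = 1 := sub_eq_zero.1 (mul_self_eq_zero.1 h6)
      rw [hκ, hαH u hg, h7, one_pow, sgn_one]
    · exfalso
      have hm := inv_mul_mem_of_index_two hH hg₀ hg
      -- `ρ u (b 1)` is a multiple of `b 0`
      have hub1 : ∃ t : K, ρ u (b 1) = t • b 0 := by
        have e : u = g₀ * (g₀⁻¹ * u) := by group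
        refine ⟨a (g₀⁻¹ * (g₀⁻¹ * u) * g₀) * a (g₀ * g₀), ?_⟩
        conv_lhs => rw [e]
        rw [map_mul, Module.End.mul_apply, ha' _ hm, map_smul, hg₀b1, smul_smul]
      obtain ⟨t, ht⟩ := hub1
      have e1 : (ρ u - 1) (b 0) = a (g₀⁻¹ * u) • b 1 - b 0 := by
        rw [LinearMap.sub_apply, Module.End.one_apply, hanti u hg]
      have e2 : (ρ u - 1) (b 1) = t • b 0 - b 1 := by
        rw [LinearMap.sub_apply, Module.End.one_apply, ht]
      have h5 : ((ρ u - 1) * (ρ u - 1)) (b 0) =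
          (a (g₀⁻¹ * u) * t + 1) • b 0 + (-(2 * a (g₀⁻¹ * u))) • b 1 := by
        rw [Module.End.mul_apply, e1, map_sub, map_smul, e2, e1]
        module
      rw [hu, LinearMap.zero_apply] at h5
      have h6 := (hli _ _ h5.symm).2
      rw [neg_eq_zero] at h6
      rcases mul_eq_zero.1 h6 with h | h
      · exact h2 h
      · exact hane _ hm h
  -- `κ g₀ = 1`
  have hκg₀ : κ g₀ = 1 := by
    rw [hκ, hαG g₀ hg₀, inv_mul_cancel, haone, one_pow, sgn_one]
  have hκtriv := hQ κ hκ1 hκu ⟨g₀, hg₀, hκg₀⟩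
  -- so `a ^ 2 = 1` on `H`
  have ha2 : ∀ h ∈ H, a h ^ 2 = 1 := by
    intro h hh
    have h1 : κ h = 1 := by rw [hκtriv, MonoidHom.one_apply]
    rw [hκ, hαH h hh] at h1
    exact sgn_eq_one_iff.1 h1
  have haconj : ∀ h ∈ H, a (g₀⁻¹ * h * g₀) = a h := by
    intro h hh
    have h1 := hdetH' h hh
    have h5 : a h * a h = 1 := by rw [← pow_two]; exact ha2 h hh
    exact (eq_inv_of_mul_eq_one_right h1).trans (eq_inv_of_mul_eq_one_right h5).symm
  -- the stable line through `b 0 + b 1`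
  set v : V := b 0 + b 1 with hv
  have hv0 : v ≠ 0 := by
    intro h
    have h6 : (1 : K) • b 0 + (1 : K) • b 1 = 0 := by rw [one_smul, one_smul]; exact h
    exact one_ne_zero (hli _ _ h6).1
  have hvH : ∀ h ∈ H, ρ h v = a h • v := by
    intro h hh
    rw [hv, map_add, ha h hh, ha' h hh, haconj h hh, smul_add]
  have hvg₀ : ρ g₀ v = v := by
    rw [hv, map_add, hb1, hg₀b1, hc1, one_smul, add_comm]
  have hstab : ∀ g, ∀ x ∈ Submodule.span K {v}, ρ g x ∈ Submodule.span K {v} := by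
    intro g x hx
    obtain ⟨r, rfl⟩ := Submodule.mem_span_singleton.1 hx
    rw [map_smul]
    apply Submodule.smul_mem
    by_cases hg : g ∈ H
    · rw [hvH g hg]
      exact Submodule.smul_mem _ _ (Submodule.mem_span_singleton_self v)
    · have hm := inv_mul_mem_of_index_two hH hg₀ hg
      have e : g = g₀ * (g₀⁻¹ * g) := by group
      rw [e, map_mul, Module.End.mul_apply, hvH _ hm, map_smul, hvg₀]
      exact Submodule.smul_mem _ _ (Submodule.mem_span_singleton_self v)
  rcases hirr _ hstab with h | h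
  · exact hv0 ((Submodule.span_singleton_eq_bot).1 h)
  · have h5 : Module.finrank K (Submodule.span K {v}) = 1 := finrank_span_singleton hv0
    rw [h, finrank_top, hV] at h5
    omega

/-- in the dihedral situation every unipotent element (in particular every element of `ker ρ`) lies in `H` -/
theorem mem_of_unipotent_of_dihedral (h2 : (2 : K) ≠ 0) (hV : Module.finrank K V = 2)
    (hirr : ∀ W : Submodule K V, (∀ g, ∀ x ∈ W, ρ g x ∈ W) → W = ⊥ ∨ W = ⊤)
    (H : Subgroup Γ) (hH : H.index = 2) (L : Submodule K V) (hLbot : L ≠ ⊥) (hLtop : L ≠ ⊤)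
    (hLH : ∀ h ∈ H, ∀ x ∈ L, ρ h x ∈ L) (u : Γ) (hu : (ρ u - 1) * (ρ u - 1) = 0) : u ∈ H := by
  classical
  by_contra hg
  obtain ⟨g₀, b, a, hg₀, ha, hb1⟩ := exists_dihedral_basis ρ hV hirr H hH L hLbot hLtop hLH
  have hb0ne : b 0 ≠ 0 := b.ne_zero 0
  have ha' : ∀ h ∈ H, ρ h (b 1) = a (g₀⁻¹ * h * g₀) • b 1 := by
    intro h hh
    have hc := conj_mem_of_index_two hH g₀ hh
    have e : h * g₀ = g₀ * (g₀⁻¹ * h * g₀) := by group
    rw [← hb1, ← Module.End.mul_apply, ← map_mul, e, map_mul, Module.End.mul_apply, ha _ hc, map_smul]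
  have hane : ∀ h ∈ H, a h ≠ 0 := by
    intro h hh h0
    have h1 : ρ h⁻¹ (ρ h (b 0)) = b 0 := by
      rw [← Module.End.mul_apply, ← map_mul, inv_mul_cancel, map_one, Module.End.one_apply]
    rw [ha h hh, h0, zero_smul, map_zero] at h1
    exact hb0ne h1.symm
  have hg₀sq : g₀ * g₀ ∈ H := mul_self_mem_of_index_two hH g₀
  have hg₀b1 : ρ g₀ (b 1) = a (g₀ * g₀) • b 0 := by
    rw [← hb1, ← Module.End.mul_apply, ← map_mul, ha _ hg₀sq]
  have hm := inv_mul_mem_of_index_two hH hg₀ hg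
  have hanti : ρ u (b 0) = a (g₀⁻¹ * u) • b 1 := by
    have e : u = g₀ * (g₀⁻¹ * u) := by group
    conv_lhs => rw [e]
    rw [map_mul, Module.End.mul_apply, ha _ hm, map_smul, hb1]
  have hli : ∀ r s : K, r • b 0 + s • b 1 = 0 → r = 0 ∧ s = 0 := by
    intro r s h
    have h1 := b.linearIndependent
    rw [Fintype.linearIndependent_iff] at h1
    have h2' := h1 ![r, s] (by rw [Fin.sum_univ_two]; simpa using h)
    exact ⟨by simpa using h2' 0, by simpa using h2' 1⟩
  obtain ⟨t, ht⟩ : ∃ t : K, ρ u (b 1) = t • b 0 := by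
    have e : u = g₀ * (g₀⁻¹ * u) := by group
    refine ⟨a (g₀⁻¹ * (g₀⁻¹ * u) * g₀) * a (g₀ * g₀), ?_⟩
    conv_lhs => rw [e]
    rw [map_mul, Module.End.mul_apply, ha' _ hm, map_smul, hg₀b1, smul_smul]
  have e1 : (ρ u - 1) (b 0) = a (g₀⁻¹ * u) • b 1 - b 0 := by
    rw [LinearMap.sub_apply, Module.End.one_apply, hanti]
  have e2 : (ρ u - 1) (b 1) = t • b 0 - b 1 := by
    rw [LinearMap.sub_apply, Module.End.one_apply, ht]
  have h5 : ((ρ u - 1) * (ρ u - 1)) (b 0) =
      (a (g₀⁻¹ * u) * t + 1) • b 0 + (-(2 * a (g₀⁻¹ * u))) • b 1 := by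
    rw [Module.End.mul_apply, e1, map_sub, map_smul, e2, e1]
    module
  rw [hu, LinearMap.zero_apply] at h5
  have h6 := (hli _ _ h5.symm).2
  rw [neg_eq_zero] at h6
  rcases mul_eq_zero.1 h6 with h | h
  · exact h2 h
  · exact hane _ hm h

/-- **The dihedral case is impossible in characteristic `3`** (abstract form): `ρ` irreducible of dimension `2` over a
field of characteristic `3`, with traces in `𝔽₃`, determinant a character `δ ≠ 1` with values `±1`, such that QUAD holds
for the characters `Γ → {±1}` which are trivial on the unipotent elements (`hQ`), has no index-two subgroup with a stable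
line. -/
theorem dihedral_false_three (h3 : (3 : K) = 0) (hV : Module.finrank K V = 2)
    (hirr : ∀ W : Submodule K V, (∀ g, ∀ x ∈ W, ρ g x ∈ W) → W = ⊥ ∨ W = ⊤)
    (H : Subgroup Γ) (hH : H.index = 2) (L : Submodule K V) (hLbot : L ≠ ⊥) (hLtop : L ≠ ⊤)
    (hLH : ∀ h ∈ H, ∀ x ∈ L, ρ h x ∈ L)
    (δ : Γ →* ℤˣ) (hdet : ∀ g, LinearMap.det (ρ g) = (((δ g : ℤˣ) : ℤ) : K)) (hδ : ∃ g, δ g = -1)
    (htr : ∀ g, (LinearMap.trace K V (ρ g)) ^ 3 = LinearMap.trace K V (ρ g))
    (hQ : ∀ κ₁ κ₂ : Γ →* ℤˣ, (∀ u, (ρ u - 1) * (ρ u - 1) = 0 → κ₁ u = 1) →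
      (∀ u, (ρ u - 1) * (ρ u - 1) = 0 → κ₂ u = 1) → κ₁ = 1 ∨ κ₂ = 1 ∨ κ₁ = κ₂) : False := by
  classical
  have h2 : (2 : K) ≠ 0 := by
    intro h
    have : (1 : K) = 0 := by
      have e : (1 : K) = 3 - 2 := by norm_num
      rw [e, h3, h, sub_zero]
    exact one_ne_zero this
  have hne : ((-1 : ℤˣ) : ℤ) ≠ 1 := by decide
  have hneK : (-1 : K) ≠ 1 := by
    intro h
    apply h2
    have : (2 : K) = 1 - (-1) := by ring
    rw [this, h, sub_self]
  have hmem := mem_of_unipotent_of_dihedral ρ h2 hV hirr H hH L hLbot hLtop hLH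
  set ε : Γ →* ℤˣ := indexTwoChar H hH with hε
  have hεu : ∀ u, (ρ u - 1) * (ρ u - 1) = 0 → ε u = 1 := fun u hu =>
    indexTwoChar_of_mem hH (hmem u hu)
  -- `δ` is trivial on unipotent elements
  obtain ⟨g₀, b, a, hg₀, ha, hb1⟩ := exists_dihedral_basis ρ hV hirr H hH L hLbot hLtop hLH
  have hb0ne : b 0 ≠ 0 := b.ne_zero 0
  have hb1ne : b 1 ≠ 0 := b.ne_zero 1
  have ha' : ∀ h ∈ H, ρ h (b 1) = a (g₀⁻¹ * h * g₀) • b 1 := by
    intro h hh
    have hc := conj_mem_of_index_two hH g₀ hh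
    have e : h * g₀ = g₀ * (g₀⁻¹ * h * g₀) := by group
    rw [← hb1, ← Module.End.mul_apply, ← map_mul, e, map_mul, Module.End.mul_apply, ha _ hc, map_smul]
  have hδu : ∀ u, (ρ u - 1) * (ρ u - 1) = 0 → δ u = 1 := by
    intro u hu
    have huH := hmem u hu
    have hone : ∀ (c : K) (x : V), x ≠ 0 → ρ u x = c • x → c = 1 := by
      intro c x hx hcx
      have e1 : (ρ u - 1) x = (c - 1) • x := by
        rw [LinearMap.sub_apply, Module.End.one_apply, hcx, sub_smul, one_smul]
      have h5 : ((ρ u - 1) * (ρ u - 1)) x = ((c - 1) * (c - 1)) • x := by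
        rw [Module.End.mul_apply, e1, map_smul, e1, smul_smul]
      rw [hu, LinearMap.zero_apply] at h5
      rcases smul_eq_zero.1 h5.symm with h | h
      · exact sub_eq_zero.1 (mul_self_eq_zero.1 h)
      · exact absurd h hx
    have h0 : ρ u (b 0) = b 0 := by
      have := ha u huH
      rw [hone _ _ hb0ne this, one_smul] at this
      exact this
    have h1 : ρ u (b 1) = b 1 := by
      have := ha' u huH
      rw [hone _ _ hb1ne this, one_smul] at this
      exact this
    have hρ1 : ρ u = 1 := by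
      apply b.ext
      intro i
      fin_cases i
      · exact h0
      · exact h1
    have hdet1 : LinearMap.det (ρ u) = 1 := by rw [hρ1, map_one]
    rcases Int.units_eq_one_or (δ u) with h | h
    · exact h
    · exfalso
      have h5 := hdet u
      rw [hdet1, h] at h5
      have h6 : (((-1 : ℤˣ) : ℤ) : K) = -1 := by
        rw [Units.val_neg, Units.val_one, Int.cast_neg, Int.cast_one]
      rw [h6] at h5
      exact hneK h5.symm
  -- `ε = δ`
  have hεne : ε ≠ 1 := by
    intro h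
    have h5 : ε g₀ = -1 := indexTwoChar_of_not_mem hH hg₀
    rw [h, MonoidHom.one_apply] at h5
    exact absurd h5 (by decide)
  have hδne : δ ≠ 1 := by
    intro h
    obtain ⟨g, hg⟩ := hδ
    rw [h, MonoidHom.one_apply] at hg
    exact absurd hg (by decide)
  have hεδ : ε = δ := by
    rcases hQ ε δ hεu hδu with h | h | h
    · exact absurd h hεne
    · exact absurd h hδne
    · exact h
  have hdetH : ∀ h ∈ H, LinearMap.det (ρ h) = 1 := by
    intro h hh
    rw [hdet h, ← hεδ, hε, indexTwoChar_of_mem hH hh]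
    simp
  have hdetG : ∀ g, g ∉ H → LinearMap.det (ρ g) = -1 := by
    intro g hg
    rw [hdet g, ← hεδ, hε, indexTwoChar_of_not_mem hH hg]
    simp
  refine dihedral_false_three_aux ρ h3 hV hirr H hH L hLbot hLtop hLH hdetH hdetG htr ?_
  intro κ hκ1 hκu ⟨g, hgH, hκg⟩
  rcases hQ κ ε hκu hεu with h | h | h
  · exact h
  · exact absurd h hεne
  · exfalso
    have h5 : ε g = -1 := indexTwoChar_of_not_mem hH hgH
    rw [← h, hκg] at h5
    exact absurd h5 (by decide)

end Fermat.Agent.S59lib.BigImg
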