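/-
S59lib / BigImg / Dihedral5 (helper4): **the dihedral case is impossible for `p = 5`** (abstract form; no local analysis
at `5`, only the TAME RELATION at `5` for quotients of `2`-power order, and QUAD).

`ρ : Γ → GL(V)`, `dim V = 2`, irreducible, `H ≤ Γ` of index `2` with a stable line.  In the dihedral basis the elements of
`H` are diagonal and the others antidiagonal (`exists_dihedral_matrices`), and for every `e ≠ 0` the entrywise `e`-th
power `g ↦ m(g)^{∘e}` is again a homomorphism (`entryPow_mul`); if `ρ` has exponent `n = 2^k M`, `M` odd, then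
`f = m^{∘M}` has `2`-power order.  Let `σ₀ ∉ H` with `det ρ(σ₀)` of order `4` and `Φ` with the tame relation
`f(Φ) f(σ₀) = f(σ₀)⁵ f(Φ)`.  Since `f(σ₀)⁴ = -1`, some `h* ∈ H` has `f(h*) = diag(x, -x)`.  Let `j` be minimal with
`m(h)₀₀^{M 2^j} = m(h)₁₁^{M 2^j}` on `H` (`j ≥ 1`), `e = M 2^{j-1}`: then `g ↦ ±1`, the ratio of the two entries of
`m(g)^{∘e}` (divided by that of `σ₀` off `H`), is a nontrivial quadratic character of `Γ` which is trivial at `σ₀ ∉ H`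
— contradicting QUAD (`hQ`).
-/
import Mathlib
import Fermat.Agent.S59lib.BigImg.Dihedral

set_option autoImplicit false
set_option linter.unusedSectionVars false
set_option linter.unusedVariables false
set_option linter.style.haveILetI false

noncomputable section

namespace Fermat.Agent.S59lib.BigImg

variable {Γ : Type*} [Group Γ] {K : Type*} [Field K] {V : Type*} [AddCommGroup V] [Module K V]

/-! ### monomial `2 × 2` matrices -/

/-- diagonal or antidiagonal -/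
def IsMono (X : Matrix (Fin 2) (Fin 2) K) : Prop :=
  (X 0 1 = 0 ∧ X 1 0 = 0) ∨ (X 0 0 = 0 ∧ X 1 1 = 0)

/-- the entrywise power -/
def entryPow (e : ℕ) (X : Matrix (Fin 2) (Fin 2) K) : Matrix (Fin 2) (Fin 2) K :=
  Matrix.of fun i j => X i j ^ e

@[simp] theorem entryPow_apply (e : ℕ) (X : Matrix (Fin 2) (Fin 2) K) (i j : Fin 2) :
    entryPow e X i j = X i j ^ e := rfl

theorem entryPow_one {e : ℕ} (he : e ≠ 0) : entryPow e (1 : Matrix (Fin 2) (Fin 2) K) = 1 := by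
  ext i j
  fin_cases i <;> fin_cases j <;> simp [he]

/-- the entrywise power is multiplicative on monomial matrices -/
theorem entryPow_mul {e : ℕ} (he : e ≠ 0) {X : Matrix (Fin 2) (Fin 2) K} (hX : IsMono X)
    (Y : Matrix (Fin 2) (Fin 2) K) : entryPow e (X * Y) = entryPow e X * entryPow e Y := by
  ext i j
  rcases hX with ⟨h1, h2⟩ | ⟨h1, h2⟩
  · fin_cases i <;> fin_cases j <;>
      simp [Matrix.mul_apply, Fin.sum_univ_two, h1, h2, he, mul_pow]
  · fin_cases i <;> fin_cases j <;>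
      simp [Matrix.mul_apply, Fin.sum_univ_two, h1, h2, he, mul_pow]

/-- a matrix with zero off-diagonal entries is diagonal -/
theorem eq_diagonal_of_zero {X : Matrix (Fin 2) (Fin 2) K} (h1 : X 0 1 = 0) (h2 : X 1 0 = 0) :
    X = Matrix.diagonal (fun i => X i i) := by
  ext i j
  fin_cases i <;> fin_cases j <;> simp [h1, h2]

/-- powers of a diagonal matrix -/
theorem pow_apply_of_zero {X : Matrix (Fin 2) (Fin 2) K} (h1 : X 0 1 = 0) (h2 : X 1 0 = 0) (n : ℕ) :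
    (X ^ n) 0 1 = 0 ∧ (X ^ n) 1 0 = 0 ∧ ∀ i, (X ^ n) i i = X i i ^ n := by
  have e := eq_diagonal_of_zero h1 h2
  have e2 : X ^ n = Matrix.diagonal (fun i => X i i ^ n) := by
    conv_lhs => rw [e]
    rw [Matrix.diagonal_pow]
    rfl
  refine ⟨?_, ?_, fun i => ?_⟩
  · rw [e2]; simp
  · rw [e2]; simp
  · rw [e2]; simp

/-! ### the dihedral matrices -/

variable (ρ : Γ →* Module.End K V)

/-- **the dihedral matrices**: in a suitable basis the elements of `H` are diagonal, the others antidiagonal. -/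
theorem exists_dihedral_matrices (hV : Module.finrank K V = 2)
    (hirr : ∀ W : Submodule K V, (∀ g, ∀ x ∈ W, ρ g x ∈ W) → W = ⊥ ∨ W = ⊤)
    (H : Subgroup Γ) (hH : H.index = 2) (L : Submodule K V) (hLbot : L ≠ ⊥) (hLtop : L ≠ ⊤)
    (hLH : ∀ h ∈ H, ∀ x ∈ L, ρ h x ∈ L) :
    ∃ b : Module.Basis (Fin 2) K V,
      (∀ h ∈ H, LinearMap.toMatrix b b (ρ h) 0 1 = 0 ∧ LinearMap.toMatrix b b (ρ h) 1 0 = 0) ∧
      (∀ g, g ∉ H → LinearMap.toMatrix b b (ρ g) 0 0 = 0 ∧ LinearMap.toMatrix b b (ρ g) 1 1 = 0) := by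
  classical
  obtain ⟨g₀, b, a, hg₀, ha, hb1⟩ := exists_dihedral_basis ρ hV hirr H hH L hLbot hLtop hLH
  have ha' : ∀ h ∈ H, ρ h (b 1) = a (g₀⁻¹ * h * g₀) • b 1 := by
    intro h hh
    have hc := conj_mem_of_index_two hH g₀ hh
    have e : h * g₀ = g₀ * (g₀⁻¹ * h * g₀) := by group
    rw [← hb1, ← Module.End.mul_apply, ← map_mul, e, map_mul, Module.End.mul_apply, ha _ hc, map_smul]
  refine ⟨b, fun h hh => ?_, fun g hg => ?_⟩
  · constructor
    · rw [LinearMap.toMatrix_apply, ha' h hh]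
      simp
    · rw [LinearMap.toMatrix_apply, ha h hh]
      simp
  · have hm := inv_mul_mem_of_index_two hH hg₀ hg
    have h0 : ρ g (b 0) = a (g₀⁻¹ * g) • b 1 := by
      have e : g = g₀ * (g₀⁻¹ * g) := by group
      conv_lhs => rw [e]
      rw [map_mul, Module.End.mul_apply, ha _ hm, map_smul, hb1]
    have hgg : g * g₀ ∈ H := by
      rw [Subgroup.mul_mem_iff_of_index_two hH]
      exact ⟨fun h => absurd h hg, fun h => absurd h hg₀⟩
    have h1 : ρ g (b 1) = a (g * g₀) • b 0 := by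
      rw [← hb1, ← Module.End.mul_apply, ← map_mul, ha _ hgg]
    constructor
    · rw [LinearMap.toMatrix_apply, h0]
      simp
    · rw [LinearMap.toMatrix_apply, h1]
      simp

/-- **The dihedral case is impossible when the tame relation `Φ σ₀ Φ⁻¹ = σ₀⁵` holds in the quotients of `2`-power
order, `σ₀ ∉ H`, `det ρ(σ₀)` has order `4`, and QUAD holds** (abstract form of the case `p = 5`). -/
theorem dihedral_false_five (h2 : (2 : K) ≠ 0) (hV : Module.finrank K V = 2)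
    (hirr : ∀ W : Submodule K V, (∀ g, ∀ x ∈ W, ρ g x ∈ W) → W = ⊥ ∨ W = ⊤)
    (H : Subgroup Γ) (hH : H.index = 2) (L : Submodule K V) (hLbot : L ≠ ⊥) (hLtop : L ≠ ⊤)
    (hLH : ∀ h ∈ H, ∀ x ∈ L, ρ h x ∈ L)
    (n : ℕ) (hn : 0 < n) (hexp : ∀ g, ρ g ^ n = 1)
    (σ₀ Φ : Γ) (hσ₀ : σ₀ ∉ H) (hσ₀det : LinearMap.det (ρ σ₀) ^ 2 = -1)
    (hT : ∀ f : Γ →* Matrix (Fin 2) (Fin 2) K, (∀ g, ρ g = 1 → f g = 1) →
      (∀ g, ∃ j : ℕ, f g ^ 2 ^ j = 1) → f Φ * f σ₀ = f σ₀ ^ 5 * f Φ)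
    (hQ : ∀ κ : Γ →* ℤˣ, (∀ g, ρ g = 1 → κ g = 1) →
      (∀ u, (ρ u - 1) * (ρ u - 1) = 0 → κ u = 1) → κ σ₀ = 1 → κ = 1) : False := by
  classical
  haveI : Module.Finite K V := Module.finite_of_finrank_eq_succ hV
  obtain ⟨b, hmH, hmG⟩ := exists_dihedral_matrices ρ hV hirr H hH L hLbot hLtop hLH
  -- the matrices
  let m : Γ →* Matrix (Fin 2) (Fin 2) K :=
    ((LinearMap.toMatrixAlgEquiv b : Module.End K V ≃ₐ[K] Matrix (Fin 2) (Fin 2) K) :
      Module.End K V →* Matrix (Fin 2) (Fin 2) K).comp ρ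
  have hm : ∀ g, m g = LinearMap.toMatrix b b (ρ g) := fun g => rfl
  have hmH' : ∀ h ∈ H, m h 0 1 = 0 ∧ m h 1 0 = 0 := fun h hh => by rw [hm]; exact hmH h hh
  have hmG' : ∀ g, g ∉ H → m g 0 0 = 0 ∧ m g 1 1 = 0 := fun g hg => by rw [hm]; exact hmG g hg
  have hmono : ∀ g, IsMono (m g) := by
    intro g
    by_cases hg : g ∈ H
    · exact Or.inl (hmH' g hg)
    · exact Or.inr (hmG' g hg)
  have hm1 : ∀ g, ρ g = 1 → m g = 1 := by
    intro g hg
    rw [hm, hg, LinearMap.toMatrix_one]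
  have hmexp : ∀ g, m g ^ n = 1 := by
    intro g
    rw [← map_pow, ← map_one m]
    have : ρ (g ^ n) = 1 := by rw [map_pow, hexp]
    rw [hm1 _ this, map_one]
  -- the entrywise powers
  have hf : ∀ e : ℕ, e ≠ 0 → ∃ f : Γ →* Matrix (Fin 2) (Fin 2) K, ∀ g, f g = entryPow e (m g) := by
    intro e he
    refine ⟨{ toFun := fun g => entryPow e (m g), map_one' := ?_, map_mul' := fun g g' => ?_ }, fun g => rfl⟩
    · rw [map_one]; exact entryPow_one he
    · rw [map_mul]; exact entryPow_mul he (hmono g) _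
  -- diagonal entries on `H`
  have hdiagexp : ∀ h ∈ H, ∀ i, m h i i ^ n = 1 := by
    intro h hh i
    obtain ⟨h1, h2⟩ := hmH' h hh
    have := (pow_apply_of_zero h1 h2 n).2.2 i
    rw [hmexp h] at this
    rw [← this]
    simp
  have hdiagne : ∀ h ∈ H, ∀ i, m h i i ≠ 0 := by
    intro h hh i h0
    have := hdiagexp h hh i
    rw [h0, zero_pow hn.ne'] at this
    exact zero_ne_one this
  have hdiagmul : ∀ h ∈ H, ∀ h' : Γ, ∀ i, m (h * h') i i = m h i i * m h' i i := by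
    intro h hh h' i
    obtain ⟨h1, h2⟩ := hmH' h hh
    rw [map_mul]
    fin_cases i <;> simp [Matrix.mul_apply, Fin.sum_univ_two, h1, h2]
  -- `n = 2 ^ k * M`, `M` odd
  obtain ⟨k, M, hMo, hnkM⟩ := Nat.exists_eq_two_pow_mul_odd hn.ne'
  have hM0 : M ≠ 0 := fun h => by rw [h] at hMo; exact absurd hMo (by decide)
  obtain ⟨f, hfM⟩ := hf M hM0
  -- `f` has `2`-power order
  have hf2 : ∀ g, ∃ j : ℕ, f g ^ 2 ^ j = 1 := by
    intro g
    refine ⟨k + 1, ?_⟩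
    have hgg : g * g ∈ H := mul_self_mem_of_index_two hH g
    obtain ⟨h1, h2⟩ := hmH' _ hgg
    have e1 : g ^ 2 ^ (k + 1) = (g * g) ^ 2 ^ k := by
      rw [pow_succ, mul_comm, pow_mul, pow_two]
    rw [← map_pow, e1, hfM, map_pow]
    obtain ⟨p1, p2, p3⟩ := pow_apply_of_zero h1 h2 (2 ^ k)
    ext i j
    have hent : ∀ i, (m (g * g) i i ^ 2 ^ k) ^ M = 1 := by
      intro i
      rw [← pow_mul, ← hnkM]
      exact hdiagexp _ hgg i
    fin_cases i <;> fin_cases j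
    · show (m (g * g) ^ 2 ^ k) 0 0 ^ M = (1 : Matrix (Fin 2) (Fin 2) K) 0 0
      rw [p3, hent, Matrix.one_apply_eq]
    · show (m (g * g) ^ 2 ^ k) 0 1 ^ M = (1 : Matrix (Fin 2) (Fin 2) K) 0 1
      rw [p1, zero_pow hM0, Matrix.one_apply_ne (by decide)]
    · show (m (g * g) ^ 2 ^ k) 1 0 ^ M = (1 : Matrix (Fin 2) (Fin 2) K) 1 0
      rw [p2, zero_pow hM0, Matrix.one_apply_ne (by decide)]
    · show (m (g * g) ^ 2 ^ k) 1 1 ^ M = (1 : Matrix (Fin 2) (Fin 2) K) 1 1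
      rw [p3, hent, Matrix.one_apply_eq]
  have hf1 : ∀ g, ρ g = 1 → f g = 1 := by
    intro g hg
    rw [hfM, hm1 g hg]
    exact entryPow_one hM0
  have hrel := hT f hf1 hf2
  -- the matrix of `σ₀`
  obtain ⟨s00, s11⟩ := hmG' σ₀ hσ₀
  set β : K := m σ₀ 0 1 with hβ
  set γ : K := m σ₀ 1 0 with hγ
  have hβγ : (β * γ) ^ 2 = -1 := by
    have h1 : LinearMap.det (ρ σ₀) = -(β * γ) := by
      rw [← LinearMap.det_toMatrix b, ← hm, Matrix.det_fin_two, s00, s11]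
      ring
    rw [h1] at hσ₀det
    rw [← hσ₀det]
    ring
  have hβγ0 : β * γ ≠ 0 := by
    intro h
    rw [h] at hβγ
    have : (0 : K) = -1 := by simp at hβγ
    exact one_ne_zero (neg_eq_zero.1 this.symm)
  have hβ0 : β ≠ 0 := left_ne_zero_of_mul hβγ0
  have hγ0 : γ ≠ 0 := right_ne_zero_of_mul hβγ0
  have hSig : f σ₀ = !![0, β ^ M; γ ^ M, 0] := by
    rw [hfM]
    ext i j
    fin_cases i <;> fin_cases j <;> simp [s00, s11, hM0, hβ, hγ]
  have hc2 : ((β * γ) ^ M) ^ 2 = -1 := by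
    rw [← pow_mul, mul_comm M 2, pow_mul, hβγ, hMo.neg_one_pow]
  have hSig5 : f σ₀ ^ 5 = -f σ₀ := by
    have hsq : f σ₀ * f σ₀ = ((β * γ) ^ M) • (1 : Matrix (Fin 2) (Fin 2) K) := by
      rw [hSig]
      ext i j
      fin_cases i <;> fin_cases j <;> simp [Matrix.mul_apply, Fin.sum_univ_two, mul_pow, mul_comm]
    have e5 : f σ₀ ^ 5 = (f σ₀ * f σ₀) * (f σ₀ * f σ₀) * f σ₀ := by
      rw [pow_succ, pow_succ, pow_succ, pow_succ, pow_one, mul_assoc (f σ₀ * f σ₀)]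
    rw [e5, hsq, smul_mul_smul_comm, mul_one, ← sq, hc2, smul_mul_assoc, one_mul, neg_smul, one_smul]
  rw [hSig5] at hrel
  -- an element of `H` with `f = diag(x, -x)`
  have hstar : ∃ hs ∈ H, m hs 1 1 ^ M = -(m hs 0 0 ^ M) := by
    by_cases hΦ : Φ ∈ H
    · refine ⟨Φ, hΦ, ?_⟩
      obtain ⟨h1, h2⟩ := hmH' Φ hΦ
      have e := congrFun (congrFun hrel 1) 0
      rw [hSig, hfM] at e
      simp [Matrix.mul_apply, Fin.sum_univ_two, h1, h2, hM0] at e
      have hγM : γ ^ M ≠ 0 := pow_ne_zero _ hγ0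
      have e' : γ ^ M * (m Φ 1 1 ^ M) = γ ^ M * (-(m Φ 0 0 ^ M)) := by linear_combination e
      exact mul_left_cancel₀ hγM e'
    · have hm' : σ₀ * Φ ∈ H := by
        rw [Subgroup.mul_mem_iff_of_index_two hH]
        exact ⟨fun h => absurd h hσ₀, fun h => absurd h hΦ⟩
      refine ⟨σ₀ * Φ, hm', ?_⟩
      obtain ⟨h1, h2⟩ := hmG' Φ hΦ
      have e := congrFun (congrFun hrel 0) 0
      rw [hSig, hfM] at e
      simp [Matrix.mul_apply, Fin.sum_univ_two, h1, h2, hM0] at e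
      have e00 : m (σ₀ * Φ) 0 0 = β * m Φ 1 0 := by
        rw [map_mul]
        simp [Matrix.mul_apply, Fin.sum_univ_two, s00, hβ]
      have e11 : m (σ₀ * Φ) 1 1 = γ * m Φ 0 1 := by
        rw [map_mul]
        simp [Matrix.mul_apply, Fin.sum_univ_two, s11, hγ]
      rw [e00, e11, mul_pow, mul_pow]
      linear_combination e
  obtain ⟨hs, hsH, hsrel⟩ := hstar
  -- the minimal `j`
  have hPk : ∀ h ∈ H, m h 0 0 ^ (M * 2 ^ k) = m h 1 1 ^ (M * 2 ^ k) := by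
    intro h hh
    rw [mul_comm M, ← hnkM, hdiagexp h hh 0, hdiagexp h hh 1]
  have hex : ∃ j : ℕ, ∀ h ∈ H, m h 0 0 ^ (M * 2 ^ j) = m h 1 1 ^ (M * 2 ^ j) := ⟨k, hPk⟩
  have hj0 : Nat.find hex ≠ 0 := by
    intro h0
    have h1 := Nat.find_spec hex
    rw [h0, pow_zero, mul_one] at h1
    have h3 := h1 hs hsH
    rw [hsrel] at h3
    have h4 : (2 : K) * m hs 0 0 ^ M = 0 := by linear_combination h3
    rcases mul_eq_zero.1 h4 with h5 | h5
    · exact h2 h5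
    · exact hdiagne hs hsH 0 (pow_eq_zero_iff hM0 |>.1 h5)
  obtain ⟨j', hj'⟩ := Nat.exists_eq_succ_of_ne_zero hj0
  have hPj : ∀ h ∈ H, m h 0 0 ^ (M * 2 ^ (j' + 1)) = m h 1 1 ^ (M * 2 ^ (j' + 1)) := by
    have := Nat.find_spec hex
    rwa [hj'] at this
  have hnotP : ¬ ∀ h ∈ H, m h 0 0 ^ (M * 2 ^ j') = m h 1 1 ^ (M * 2 ^ j') :=
    Nat.find_min hex (by rw [hj']; exact Nat.lt_succ_self j')
  push Not at hnotP
  obtain ⟨h₁, hh₁, hne₁⟩ := hnotP
  set e : ℕ := M * 2 ^ j' with he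
  have he0 : e ≠ 0 := mul_ne_zero hM0 (pow_ne_zero _ (by norm_num))
  have hsq : ∀ h ∈ H, (m h 0 0 ^ e) ^ 2 = (m h 1 1 ^ e) ^ 2 := by
    intro h hh
    have := hPj h hh
    have e2 : M * 2 ^ (j' + 1) = e * 2 := by rw [he, pow_succ, mul_assoc]
    rw [e2, pow_mul (m h 0 0) e 2, pow_mul (m h 1 1) e 2] at this
    exact this
  -- the ratio
  set d : Γ → K := fun g => m g 0 0 ^ e / m g 1 1 ^ e with hd
  have hd1 : d 1 = 1 := by
    simp [hd]
  have hdsq : ∀ h ∈ H, d h * d h = 1 := by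
    intro h hh
    have h1 := hsq h hh
    have h0 : m h 1 1 ^ e ≠ 0 := pow_ne_zero _ (hdiagne h hh 1)
    rw [hd]
    show m h 0 0 ^ e / m h 1 1 ^ e * (m h 0 0 ^ e / m h 1 1 ^ e) = 1
    rw [div_mul_div_comm, ← sq, ← sq, h1, div_self (pow_ne_zero 2 h0)]
  have hdmul : ∀ h ∈ H, ∀ h' : Γ, d (h * h') = d h * d h' := by
    intro h hh h'
    show m (h * h') 0 0 ^ e / m (h * h') 1 1 ^ e = m h 0 0 ^ e / m h 1 1 ^ e * (m h' 0 0 ^ e / m h' 1 1 ^ e)
    rw [hdiagmul h hh h' 0, hdiagmul h hh h' 1, mul_pow, mul_pow, div_mul_div_comm]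
  -- conjugation by `σ₀` swaps the diagonal entries
  have hconj : ∀ h ∈ H, d (σ₀⁻¹ * h * σ₀) = d h := by
    intro h hh
    have hc := conj_mem_of_index_two hH σ₀ hh
    obtain ⟨c1, c2⟩ := hmH' _ hc
    obtain ⟨h1, h2'⟩ := hmH' h hh
    have hrel2 : m σ₀ * m (σ₀⁻¹ * h * σ₀) = m h * m σ₀ := by
      rw [← map_mul, ← map_mul]
      congr 1
      group
    have e01 := congrFun (congrFun hrel2 0) 1
    have e10 := congrFun (congrFun hrel2 1) 0
    simp only [Matrix.mul_apply, Fin.sum_univ_two, s00, s11, c1, c2, h1, h2', zero_mul, mul_zero, zero_add,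
      add_zero] at e01 e10
    have x11 : m (σ₀⁻¹ * h * σ₀) 1 1 = m h 0 0 := by
      have : β * m (σ₀⁻¹ * h * σ₀) 1 1 = β * m h 0 0 := by rw [hβ]; linear_combination e01
      exact mul_left_cancel₀ hβ0 this
    have x00 : m (σ₀⁻¹ * h * σ₀) 0 0 = m h 1 1 := by
      have : γ * m (σ₀⁻¹ * h * σ₀) 0 0 = γ * m h 1 1 := by rw [hγ]; linear_combination e10
      exact mul_left_cancel₀ hγ0 this
    show m (σ₀⁻¹ * h * σ₀) 0 0 ^ e / m (σ₀⁻¹ * h * σ₀) 1 1 ^ e = d h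
    rw [x00, x11]
    -- `d h = ±1` is its own inverse
    have h5 := hdsq h hh
    have h6 : d h ≠ 0 := left_ne_zero_of_mul_eq_one h5
    have h7 : m h 1 1 ^ e / m h 0 0 ^ e = (d h)⁻¹ := by
      show _ = (m h 0 0 ^ e / m h 1 1 ^ e)⁻¹
      rw [inv_div]
    rw [h7]
    exact inv_eq_of_mul_eq_one_left h5
  -- `σ₀²` is scalar
  have hσ₀sq : σ₀ * σ₀ ∈ H := mul_self_mem_of_index_two hH σ₀
  have hdσ₀sq : d (σ₀ * σ₀) = 1 := by
    have e00 : m (σ₀ * σ₀) 0 0 = β * γ := by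
      rw [map_mul]
      simp [Matrix.mul_apply, Fin.sum_univ_two, s00, hβ, hγ]
    have e11 : m (σ₀ * σ₀) 1 1 = β * γ := by
      rw [map_mul]
      simp [Matrix.mul_apply, Fin.sum_univ_two, s11, hβ, hγ, mul_comm]
    show m (σ₀ * σ₀) 0 0 ^ e / m (σ₀ * σ₀) 1 1 ^ e = 1
    rw [e00, e11, div_self (pow_ne_zero _ hβγ0)]
  -- the character
  set r : Γ → K := fun g => if g ∈ H then d g else d (σ₀⁻¹ * g) with hr
  have hrH : ∀ g ∈ H, r g = d g := fun g hg => if_pos hg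
  have hrG : ∀ g, g ∉ H → r g = d (σ₀⁻¹ * g) := fun g hg => if_neg hg
  have hinvmem : ∀ g, g ∉ H → σ₀⁻¹ * g ∈ H := fun g hg => inv_mul_mem_of_index_two hH hσ₀ hg
  have hrsq : ∀ g, r g * r g = 1 := by
    intro g
    by_cases hg : g ∈ H
    · rw [hrH g hg]; exact hdsq g hg
    · rw [hrG g hg]; exact hdsq _ (hinvmem g hg)
  have hrmul : ∀ g g', r (g * g') = r g * r g' := by
    intro g g'
    by_cases hg : g ∈ H <;> by_cases hg' : g' ∈ H
    · rw [hrH _ (H.mul_mem hg hg'), hrH g hg, hrH g' hg', hdmul g hg]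
    · have hgg' : g * g' ∉ H := fun h => hg' ((H.mul_mem_cancel_left hg).1 h)
      rw [hrG _ hgg', hrH g hg, hrG g' hg']
      have e1 : σ₀⁻¹ * (g * g') = (σ₀⁻¹ * g * σ₀) * (σ₀⁻¹ * g') := by group
      rw [e1, hdmul _ (conj_mem_of_index_two hH σ₀ hg), hconj g hg]
    · have hgg' : g * g' ∉ H := fun h => hg ((H.mul_mem_cancel_right hg').1 h)
      rw [hrG _ hgg', hrG g hg, hrH g' hg']
      have e1 : σ₀⁻¹ * (g * g') = (σ₀⁻¹ * g) * g' := by group
      rw [e1, hdmul _ (hinvmem g hg)]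
    · have hgg' : g * g' ∈ H := by
        rw [Subgroup.mul_mem_iff_of_index_two hH]
        exact ⟨fun h => absurd h hg, fun h => absurd h hg'⟩
      rw [hrH _ hgg', hrG g hg, hrG g' hg']
      have e1 : g * g' = (σ₀ * σ₀) * ((σ₀⁻¹ * (σ₀⁻¹ * g) * σ₀) * (σ₀⁻¹ * g')) := by group
      rw [e1, hdmul _ hσ₀sq, hdσ₀sq, one_mul,
        hdmul _ (conj_mem_of_index_two hH σ₀ (hinvmem g hg)), hconj _ (hinvmem g hg)]
  have hr1 : r 1 = 1 := by rw [hrH 1 H.one_mem, hd1]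
  let κ : Γ →* ℤˣ :=
    { toFun := fun g => sgn (r g)
      map_one' := by rw [hr1, sgn_one]
      map_mul' := fun g g' => by rw [hrmul, sgn_mul h2 (hrsq g) (hrsq g')] }
  have hκ : ∀ g, κ g = sgn (r g) := fun g => rfl
  have hκσ₀ : κ σ₀ = 1 := by
    rw [hκ, hrG σ₀ hσ₀, inv_mul_cancel, hd1, sgn_one]
  have hκ1 : ∀ g, ρ g = 1 → κ g = 1 := by
    intro g hg
    have hmg := hm1 g hg
    have hgH : g ∈ H := by
      by_contra hgn
      have := (hmG' g hgn).1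
      rw [hmg, Matrix.one_apply_eq] at this
      exact one_ne_zero this
    rw [hκ, hrH g hgH, sgn_eq_one_iff]
    show m g 0 0 ^ e / m g 1 1 ^ e = 1
    rw [hmg, Matrix.one_apply_eq, Matrix.one_apply_eq, one_pow, div_one]
  have hκu : ∀ u, (ρ u - 1) * (ρ u - 1) = 0 → κ u = 1 := by
    intro u hu
    have huH : u ∈ H := mem_of_unipotent_of_dihedral ρ h2 hV hirr H hH L hLbot hLtop hLH u hu
    obtain ⟨u1, u2⟩ := hmH' u huH
    have hmu : (m u - 1) * (m u - 1) = 0 := by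
      have h1 : m u - 1 = LinearMap.toMatrix b b (ρ u - 1) := by
        rw [map_sub, LinearMap.toMatrix_one, hm]
      rw [h1, ← LinearMap.toMatrix_mul, hu, map_zero]
    have e00 := congrFun (congrFun hmu 0) 0
    have e11 := congrFun (congrFun hmu 1) 1
    simp only [Matrix.mul_apply, Fin.sum_univ_two, Matrix.sub_apply, Matrix.one_apply_eq, u1, u2,
      Matrix.one_apply_ne (show (0 : Fin 2) ≠ 1 by decide), Matrix.one_apply_ne (show (1 : Fin 2) ≠ 0 by decide),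
      sub_zero, mul_zero, add_zero, zero_add, Matrix.zero_apply] at e00 e11
    have x0 : m u 0 0 = 1 := sub_eq_zero.1 (mul_self_eq_zero.1 e00)
    have x1 : m u 1 1 = 1 := sub_eq_zero.1 (mul_self_eq_zero.1 e11)
    rw [hκ, hrH u huH, sgn_eq_one_iff]
    show m u 0 0 ^ e / m u 1 1 ^ e = 1
    rw [x0, x1, one_pow, div_one]
  have hκtriv := hQ κ hκ1 hκu hκσ₀
  have h9 : κ h₁ = 1 := by rw [hκtriv, MonoidHom.one_apply]
  rw [hκ, hrH h₁ hh₁, sgn_eq_one_iff] at h9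
  apply hne₁
  have h0 : m h₁ 1 1 ^ e ≠ 0 := pow_ne_zero _ (hdiagne h₁ hh₁ 1)
  have h10 : m h₁ 0 0 ^ e / m h₁ 1 1 ^ e = 1 := h9
  rwa [div_eq_one_iff_eq h0] at h10

end Fermat.Agent.S59lib.BigImg
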