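/-
S59lib / BigImg / Quad (helper4): **QUAD — the quadratic character of `G_ℚ` unramified outside an odd prime `v` is
unique.**

`ε₁ ε₂ : G_ℚ → {±1}` of finite level, both trivial on every inertia group at every prime `q ≠ v`.  Then `ε₁ = 1` or
`ε₂ = 1` or `ε₁ = ε₂`.

Proof: the image of the inertia group of the standard place over `v` under `(ε₁, ε₂) : G_ℚ → {±1}²` is generated by
one element (`B3.tame_at_prime` with `p = 2`), so one of `ε₁`, `ε₂`, `ε₁ ε₂` kills it, hence (conjugation; the target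
is commutative) kills every inertia group at `v`; that character is unramified everywhere, hence trivial (Minkowski:
`S13lib.monoidHom_eq_one_of_unramified`).  No Gauss sums, no quadratic fields.
-/
import Mathlib
import Fermat.Agent.S43lib.B3.CycGen

set_option autoImplicit false
set_option linter.unusedSectionVars false
set_option linter.style.haveILetI false

noncomputable section

namespace Fermat.Agent.S59lib.BigImg

open ExtCitation Fermat.Agent.S56lib.TW Fermat.Agent.S43lib.B3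
open scoped Pointwise

local notation "Qb" => AlgebraicClosure ℚ
local notation "GQ" => (AlgebraicClosure ℚ ≃ₐ[ℚ] AlgebraicClosure ℚ)

/-- a character with commutative target which kills the inertia group of the standard place over `v` kills every
inertia group over `v` -/
theorem eq_one_on_inertia_of_std (v : Nat.Primes) {C : Type*} [CommGroup C] (χ : GQ →* C)
    (h0 : ∀ s ∈ (primeLocalPlace v).inertiaSubgroupIn ℚ, χ s = 1)
    (A : ValuationSubring Qb) (hA : A.LiesOverPrime (v : ℕ)) (σ : GQ) (hσ : σ ∈ A.inertiaSubgroupIn ℚ) :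
    χ σ = 1 := by
  obtain ⟨g, hg⟩ : ∃ g : GQ, A = g • primeLocalPlace v :=
    Fermat.Agent.S56lib.TWSel.exists_smul_eq_of_liesOverPrime v.2
      (Fermat.Agent.S56lib.TWSel.primeLocalPlace_liesOverPrime v) hA
  have h1 : g⁻¹ * σ * g⁻¹⁻¹ ∈ (g⁻¹ • A).inertiaSubgroupIn ℚ :=
    Fermat.Agent.S56lib.TWSel.conj_mem_inertia hσ
  rw [inv_inv, hg, inv_smul_smul] at h1
  have h2 := h0 _ h1
  have h3 : χ (g⁻¹ * σ * g) = χ σ := by
    rw [map_mul, map_mul, map_inv, mul_comm (χ g)⁻¹, mul_assoc, inv_mul_cancel, mul_one]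
  rw [h3] at h2
  exact h2

/-- a character of finite level has open kernel -/
theorem isOpen_ker_of_level {C : Type*} [Group C] (χ : GQ →* C) (F : IntermediateField ℚ Qb)
    [FiniteDimensional ℚ F] (hF : ∀ s ∈ F.fixingSubgroup, χ s = 1) : IsOpen (χ.ker : Set GQ) := by
  refine Subgroup.isOpen_mono (H₁ := F.fixingSubgroup) ?_ (IntermediateField.fixingSubgroup_isOpen F)
  intro s hs
  rw [MonoidHom.mem_ker, hF s hs]

/-- **QUAD.** -/
theorem quad_unique (v : Nat.Primes) (hv2 : (v : ℕ) ≠ 2) (ε₁ ε₂ : GQ →* ℤˣ)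
    (F₁ F₂ : IntermediateField ℚ Qb) [FiniteDimensional ℚ F₁] [FiniteDimensional ℚ F₂]
    (hF₁ : ∀ s ∈ F₁.fixingSubgroup, ε₁ s = 1) (hF₂ : ∀ s ∈ F₂.fixingSubgroup, ε₂ s = 1)
    (h₁ : ∀ q : ℕ, q.Prime → q ≠ (v : ℕ) → ∀ A : ValuationSubring Qb, A.LiesOverPrime q →
      ∀ σ ∈ A.inertiaSubgroupIn ℚ, ε₁ σ = 1)
    (h₂ : ∀ q : ℕ, q.Prime → q ≠ (v : ℕ) → ∀ A : ValuationSubring Qb, A.LiesOverPrime q →
      ∀ σ ∈ A.inertiaSubgroupIn ℚ, ε₂ σ = 1) :
    ε₁ = 1 ∨ ε₂ = 1 ∨ ε₁ = ε₂ := by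
  classical
  set f : GQ →* ℤˣ × ℤˣ := ε₁.prod ε₂ with hf
  haveI : FiniteDimensional ℚ (F₁ ⊔ F₂ : IntermediateField ℚ Qb) :=
    IntermediateField.finiteDimensional_sup F₁ F₂
  have hFf : ∀ s ∈ (F₁ ⊔ F₂ : IntermediateField ℚ Qb).fixingSubgroup, f s = 1 := by
    intro s hs
    have hs1 : s ∈ F₁.fixingSubgroup := IntermediateField.fixingSubgroup_antitone le_sup_left hs
    have hs2 : s ∈ F₂.fixingSubgroup := IntermediateField.fixingSubgroup_antitone le_sup_right hs
    rw [hf, MonoidHom.prod_apply, hF₁ s hs1, hF₂ s hs2]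
    rfl
  have hsq : ∀ x : ℤˣ × ℤˣ, x ^ 2 ^ 1 = 1 := by
    intro x
    rw [pow_one]
    ext
    · rw [Prod.pow_fst, Prod.fst_one, Int.units_sq]
    · rw [Prod.pow_snd, Prod.snd_one, Int.units_sq]
  obtain ⟨-, -, -, h4⟩ := tame_at_prime v Nat.prime_two (Ne.symm hv2) f (F₁ ⊔ F₂) hFf
    (fun s _ => ⟨1, hsq (f s)⟩)
  have hopen₁ := isOpen_ker_of_level ε₁ F₁ hF₁
  have hopen₂ := isOpen_ker_of_level ε₂ F₂ hF₂
  -- the values at the tame generator
  set a : ℤˣ := ε₁ (globGenAt v 2) with ha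
  set b : ℤˣ := ε₂ (globGenAt v 2) with hb
  have hval : ∀ s ∈ (primeLocalPlace v).inertiaSubgroupIn ℚ, ∃ j : ℕ, ε₁ s = a ^ j ∧ ε₂ s = b ^ j := by
    intro s hs
    obtain ⟨j, hj⟩ := h4 s hs
    refine ⟨j, ?_, ?_⟩
    · have := congrArg Prod.fst hj
      rwa [hf, MonoidHom.prod_apply, MonoidHom.prod_apply, Prod.pow_fst] at this
    · have := congrArg Prod.snd hj
      rwa [hf, MonoidHom.prod_apply, MonoidHom.prod_apply, Prod.pow_snd] at this
  -- a character killing the standard inertia group at `v` and unramified outside `v` is trivial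
  have key : ∀ (χ : GQ →* ℤˣ), IsOpen (χ.ker : Set GQ) →
      (∀ q : ℕ, q.Prime → q ≠ (v : ℕ) → ∀ A : ValuationSubring Qb, A.LiesOverPrime q →
        ∀ σ ∈ A.inertiaSubgroupIn ℚ, χ σ = 1) →
      (∀ s ∈ (primeLocalPlace v).inertiaSubgroupIn ℚ, χ s = 1) → χ = 1 := by
    intro χ hopen hout hstd
    ext σ
    have := Fermat.Agent.S13lib.monoidHom_eq_one_of_unramified χ hopen (fun ℓ hℓ A hA τ hτ => by
      by_cases hℓv : ℓ = (v : ℕ)
      · subst hℓv
        exact eq_one_on_inertia_of_std v χ hstd A hA τ hτ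
      · exact hout ℓ hℓ hℓv A hA τ hτ) σ
    rw [this, MonoidHom.one_apply]
  rcases Int.units_eq_one_or a with ha1 | ha1
  · left
    refine key ε₁ hopen₁ h₁ (fun s hs => ?_)
    obtain ⟨j, hj, -⟩ := hval s hs
    rw [hj, ha1, one_pow]
  · rcases Int.units_eq_one_or b with hb1 | hb1
    · right; left
      refine key ε₂ hopen₂ h₂ (fun s hs => ?_)
      obtain ⟨j, -, hj⟩ := hval s hs
      rw [hj, hb1, one_pow]
    · right; right
      have hopen : IsOpen ((ε₁ / ε₂).ker : Set GQ) := by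
        have hsub : ε₁.ker ⊓ ε₂.ker ≤ (ε₁ / ε₂).ker := by
          intro τ hτ
          rw [Subgroup.mem_inf, MonoidHom.mem_ker, MonoidHom.mem_ker] at hτ
          rw [MonoidHom.mem_ker, MonoidHom.div_apply, hτ.1, hτ.2, div_one]
        have hinf : IsOpen ((ε₁.ker ⊓ ε₂.ker : Subgroup GQ) : Set GQ) := by
          rw [Subgroup.coe_inf]; exact hopen₁.inter hopen₂
        exact Subgroup.isOpen_mono hsub hinf
      have h := key (ε₁ / ε₂) hopen
        (fun q hq hqv A hA σ hσ => by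
          rw [MonoidHom.div_apply, h₁ q hq hqv A hA σ hσ, h₂ q hq hqv A hA σ hσ, div_one])
        (fun s hs => by
          obtain ⟨j, hj1, hj2⟩ := hval s hs
          rw [MonoidHom.div_apply, hj1, hj2, ha1, hb1, div_self'])
      ext σ
      have := congrArg (fun χ : GQ →* ℤˣ => χ σ) h
      simp only [MonoidHom.div_apply, MonoidHom.one_apply] at this
      rw [div_eq_one.mp this]

end Fermat.Agent.S59lib.BigImg
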