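/-
S59lib / BigImg / HTW3 (helper4): **the hypothesis `hTW` of the frozen S56 for `p = 3`** — a mod `3` representation
`ρ₀ : ResidualGaloisRep (ZMod 3)` with cyclotomic determinant, unipotent on inertia at every prime `q ≠ 3` (semistable
curve: `S58lib.TateUnip`), absolutely irreducible, is irreducible on every subgroup of index two, over every field.

No local analysis at `3`: the quadratic character `ε` of the subgroup is unramified outside `3` (unipotent elements
have odd order), so `ε = χ₃ = det ρ₀` (QUAD); then `ρ₀(H) ⊂ SL₂ ∩ torus`, traces in `𝔽₃` give eigenvalues of order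
dividing `4`, a second application of QUAD gives order dividing `2`, and `ρ₀(G_ℚ)` is commutative.
(`Dihedral.dihedral_false_three` + `Quad.quad_unique`.)
-/
import Mathlib
import Fermat.Prelude.Def_GaloisRep_Residual
import Fermat.Agent.S59lib.BigImg.Quad
import Fermat.Agent.S59lib.BigImg.Dihedral

set_option autoImplicit false
set_option linter.unusedSectionVars false
set_option linter.style.haveILetI false

open scoped TensorProduct

noncomputable section

namespace Fermat.Agent.S59lib.BigImg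

open ExtCitation Fermat.Agent.S56lib.TW

local notation "Qb" => AlgebraicClosure ℚ
local notation "GQ" => (AlgebraicClosure ℚ ≃ₐ[ℚ] AlgebraicClosure ℚ)

/-- the isomorphism `(ℤ/3)ˣ ≅ {±1}` -/
def signThree : (ZMod 3)ˣ →* ℤˣ :=
  MonoidHom.mk' (fun u => if u = 1 then 1 else -1) (by decide)

theorem signThree_cast (u : (ZMod 3)ˣ) : (((signThree u : ℤˣ) : ℤ) : ZMod 3) = (u : ZMod 3) := by
  revert u; decide

theorem signThree_neg_one : signThree (-1) = -1 := by decide

/-- base change of a unipotent endomorphism -/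
theorem baseChange_unip {k : Type*} [Field k] {V₀ : Type*} [AddCommGroup V₀] [Module k V₀]
    (K : Type*) [Field K] [Algebra k K] (f : Module.End k V₀) (hf : (f - 1) * (f - 1) = 0) :
    ((f.baseChange K : Module.End K (K ⊗[k] V₀)) - 1) * ((f.baseChange K : Module.End K (K ⊗[k] V₀)) - 1) = 0 := by
  have h1 : (f.baseChange K : Module.End K (K ⊗[k] V₀)) - 1 = (f - 1).baseChange K := by
    rw [LinearMap.baseChange_sub, LinearMap.baseChange_one]
  rw [h1, ← LinearMap.baseChange_mul, hf, LinearMap.baseChange_zero]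

/-- **`hTW` for `p = 3`**, for the base change of a representation over `𝔽₃` to a field `K`. -/
theorem hTW_three_core (ρ₀ : ResidualGaloisRep (ZMod 3))
    (hdet : ∀ σ : GQ, LinearMap.det (ρ₀.ρ σ) = ((cycloChar 3 σ : (ZMod 3)ˣ) : ZMod 3))
    (hunip : ∀ q : ℕ, q.Prime → q ≠ 3 → ∀ A : ValuationSubring Qb, A.LiesOverPrime q →
      ∀ σ ∈ A.inertiaSubgroupIn ℚ, (ρ₀.ρ σ - 1) * (ρ₀.ρ σ - 1) = 0)
    (K : Type) [Field K] [Algebra (ZMod 3) K] (hirr : (ρ₀.baseChange K).IsIrreducible)
    (G : Subgroup GQ) (hG : G.index = 2) (V : Submodule K (ρ₀.baseChange K).V)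
    (hV : ∀ σ ∈ G, ∀ x ∈ V, (ρ₀.baseChange K).ρ σ x ∈ V) : V = ⊥ ∨ V = ⊤ := by
  classical
  by_contra hcon
  push Not at hcon
  obtain ⟨hbot, htop⟩ := hcon
  have hρ : ∀ σ : GQ, (ρ₀.baseChange K).ρ σ = (ρ₀.ρ σ).baseChange K := fun _ => rfl
  have h3 : (3 : K) = 0 := by
    have h1 : (3 : ZMod 3) = 0 := by decide
    have h2 := congrArg (algebraMap (ZMod 3) K) h1
    rwa [map_ofNat, map_zero] at h2
  obtain ⟨L₀, hL₀fin, hL₀⟩ := ρ₀.factorsThroughFiniteLevel
  haveI := hL₀fin
  refine dihedral_false_three (ρ₀.baseChange K).ρ h3 (ρ₀.baseChange K).finrank_eq hirr G hG V hbot htop hV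
    (signThree.comp (cycloChar 3)) ?_ ?_ ?_ ?_
  · intro g
    rw [hρ, LinearMap.det_baseChange, hdet, MonoidHom.comp_apply, ← signThree_cast, map_intCast]
  · obtain ⟨σ, hσ⟩ := cycloChar_surjective 3 (-1)
    exact ⟨σ, by rw [MonoidHom.comp_apply, hσ, signThree_neg_one]⟩
  · intro g
    rw [hρ, LinearMap.trace_baseChange, ← map_pow]
    congr 1
    have := ZMod.pow_card (LinearMap.trace (ZMod 3) ρ₀.V (ρ₀.ρ g))
    exact this
  · intro κ₁ κ₂ h₁ h₂
    have hone : ∀ s : GQ, ρ₀.ρ s = 1 →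
        ((ρ₀.baseChange K).ρ s - 1) * ((ρ₀.baseChange K).ρ s - 1) = 0 := by
      intro s hs
      rw [hρ, hs, LinearMap.baseChange_one, sub_self, zero_mul]
    have hlev : ∀ s ∈ L₀.fixingSubgroup, ρ₀.ρ s = 1 := by
      intro s hs
      apply hL₀
      intro x hx
      exact (IntermediateField.mem_fixingSubgroup_iff _ s).1 hs x hx
    have hin : ∀ q : ℕ, q.Prime → q ≠ 3 → ∀ A : ValuationSubring Qb, A.LiesOverPrime q →
        ∀ σ ∈ A.inertiaSubgroupIn ℚ,
          ((ρ₀.baseChange K).ρ σ - 1) * ((ρ₀.baseChange K).ρ σ - 1) = 0 := by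
      intro q hq hq3 A hA σ hσ
      rw [hρ]
      exact baseChange_unip K _ (hunip q hq hq3 A hA σ hσ)
    exact quad_unique ⟨3, Nat.prime_three⟩ (by decide) κ₁ κ₂ L₀ L₀
      (fun s hs => h₁ s (hone s (hlev s hs))) (fun s hs => h₂ s (hone s (hlev s hs)))
      (fun q hq hq3 A hA σ hσ => h₁ σ (hin q hq hq3 A hA σ hσ))
      (fun q hq hq3 A hA σ hσ => h₂ σ (hin q hq hq3 A hA σ hσ))

end Fermat.Agent.S59lib.BigImg
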