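/-
S59lib / BigImg / HTW5 (helper4): **the hypothesis `hTW` of the frozen S56 for `p = 5`** — a mod `5` representation
`ρ₀ : ResidualGaloisRep (ZMod 5)` with cyclotomic determinant, unipotent on inertia at every prime `q ≠ 5` (semistable
curve: `S58lib.TateUnip`), absolutely irreducible, is irreducible on every subgroup of index two, over every field.

**No local analysis at `5`** (no ordinary filtration, no fundamental characters): the quadratic character `ε` of the
subgroup is unramified outside `5`, so `ε = (χ₅ / 5)` (QUAD) and the tame generator `σ₀` at `5` (`χ₅(σ₀)` generates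
`𝔽₅ˣ`, CYC-GEN) is not in the subgroup; the tame relation `Φ σ₀ Φ⁻¹ = σ₀⁵` in the quotients of `2`-power order
(`B3.tame_at_prime`, `p := 2`) and QUAD again give a contradiction (`Dihedral5.dihedral_false_five`).
-/
import Mathlib
import Fermat.Prelude.Def_GaloisRep_Residual
import Fermat.Agent.S59lib.BigImg.Quad
import Fermat.Agent.S59lib.BigImg.Dihedral5
import Fermat.Agent.S59lib.BigImg.HTW3

set_option autoImplicit false
set_option linter.unusedSectionVars false
set_option linter.style.haveILetI false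

open scoped TensorProduct

noncomputable section

namespace Fermat.Agent.S59lib.BigImg

open ExtCitation Fermat.Agent.S56lib.TW Fermat.Agent.S43lib.B3

local notation "Qb" => AlgebraicClosure ℚ
local notation "GQ" => (AlgebraicClosure ℚ ≃ₐ[ℚ] AlgebraicClosure ℚ)

/-- `5` is prime -/
instance factPrimeFive : Fact (Nat.Prime 5) := ⟨by norm_num⟩

/-- the quadratic character of `(ℤ/5)ˣ` -/
def quadFive : (ZMod 5)ˣ →* ℤˣ :=
  MonoidHom.mk' (fun u => if u ^ 2 = 1 then 1 else -1) (by decide)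

theorem quadFive_eq_one_iff (u : (ZMod 5)ˣ) : quadFive u = 1 ↔ u ^ 2 = 1 := by
  revert u; decide

theorem sq_eq_neg_one_of_quadFive (u : (ZMod 5)ˣ) (h : quadFive u ≠ 1) : ((u : ZMod 5)) ^ 2 = -1 := by
  revert u; decide

/-- the prime `5` -/
abbrev primeFive : Nat.Primes := ⟨5, by norm_num⟩

/-- the value of `χ₅` at the tame generator generates `(ℤ/5)ˣ` -/
theorem quadFive_cycGen : quadFive (cycGen primeFive 2) = -1 := by
  have hC : IsPGroup 2 (ZMod 5)ˣ := by
    refine IsPGroup.of_card (n := 2) ?_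
    rw [Nat.card_eq_fintype_card, ZMod.card_units_eq_totient]
    decide
  have htop : Subgroup.zpowers (cycGen primeFive 2) = ⊤ :=
    zpowers_cycGen_eq_top primeFive Nat.prime_two (by decide) hC
      (MonoidHom.id (ZMod (primeFive : ℕ))ˣ) Function.surjective_id
  rcases Int.units_eq_one_or (quadFive (cycGen primeFive 2)) with h | h
  · exfalso
    -- then `cycGen` lies in the kernel of `quadFive`, a proper subgroup
    have hle : Subgroup.zpowers (cycGen primeFive 2) ≤ quadFive.ker := by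
      rw [Subgroup.zpowers_le]
      exact MonoidHom.mem_ker.2 h
    rw [htop] at hle
    have h2 : (ZMod.unitOfCoprime 2 (by decide : Nat.Coprime 2 5)) ∈ quadFive.ker := hle (Subgroup.mem_top _)
    rw [MonoidHom.mem_ker] at h2
    revert h2
    decide
  · exact h

/-- a unipotent endomorphism of a plane has determinant one -/
theorem det_eq_one_of_unip {k : Type*} [Field k] {V₀ : Type*} [AddCommGroup V₀] [Module k V₀]
    (hV₀ : Module.finrank k V₀ = 2) (f : Module.End k V₀) (hf : (f - 1) * (f - 1) = 0) :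
    LinearMap.det f = 1 := by
  classical
  haveI : Module.Finite k V₀ := Module.finite_of_finrank_eq_succ hV₀
  haveI : Module.Free k V₀ := Module.Free.of_divisionRing k V₀
  let b : Module.Basis (Fin 2) k V₀ := Module.finBasisOfFinrankEq k V₀ hV₀
  set N : Matrix (Fin 2) (Fin 2) k := LinearMap.toMatrix b b (f - 1) with hN
  have hNN : N * N = 0 := by rw [hN, ← LinearMap.toMatrix_mul, hf, map_zero]
  have hM : LinearMap.toMatrix b b f = 1 + N := by
    rw [hN, map_sub, LinearMap.toMatrix_one]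
    abel
  have hdN : N.det = 0 := by
    have h1 : N.det * N.det = 0 := by rw [← Matrix.det_mul, hNN, Matrix.det_zero]
    exact mul_self_eq_zero.1 h1
  rw [Matrix.det_fin_two] at hdN
  have e00 := congrFun (congrFun hNN 0) 0
  have e11 := congrFun (congrFun hNN 1) 1
  simp only [Matrix.mul_apply, Fin.sum_univ_two, Matrix.zero_apply] at e00 e11
  have ht : (N 0 0 + N 1 1) ^ 2 = 0 := by linear_combination e00 + e11 + 2 * hdN
  have ht0 : N 0 0 + N 1 1 = 0 := pow_eq_zero_iff (by norm_num) |>.1 ht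
  rw [← LinearMap.det_toMatrix b, hM, Matrix.det_fin_two]
  simp only [Matrix.add_apply, Matrix.one_apply_eq, Matrix.one_apply_ne (show (0 : Fin 2) ≠ 1 by decide),
    Matrix.one_apply_ne (show (1 : Fin 2) ≠ 0 by decide), zero_add]
  linear_combination ht0 + hdN

/-- a finite exponent for a mod `p` representation -/
theorem exists_exponent {k₀ : Type} [Field k₀] [Finite k₀] (ρ₀ : ResidualGaloisRep k₀) :
    ∃ n : ℕ, 0 < n ∧ ∀ σ : GQ, ρ₀.ρ (σ ^ n) = 1 := by
  haveI : Module.Finite k₀ ρ₀.V := Module.finite_of_finrank_eq_succ ρ₀.finrank_eq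
  haveI : Finite (Module.End k₀ ρ₀.V) := Module.finite_of_finite k₀
  haveI : Fintype (Module.End k₀ ρ₀.V)ˣ := Fintype.ofFinite _
  refine ⟨Fintype.card (Module.End k₀ ρ₀.V)ˣ, Fintype.card_pos, fun σ => ?_⟩
  have h1 : (ρ₀.ρ.toHomUnits σ) ^ Fintype.card (Module.End k₀ ρ₀.V)ˣ = 1 := pow_card_eq_one
  rw [← map_pow] at h1
  have h2 := congrArg Units.val h1
  rwa [MonoidHom.coe_toHomUnits, Units.val_one] at h2

/-- **`hTW` for `p = 5`**, for the base change of a representation over `𝔽₅` to a field `K`. -/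
theorem hTW_five_core (ρ₀ : ResidualGaloisRep (ZMod 5))
    (hdet : ∀ σ : GQ, LinearMap.det (ρ₀.ρ σ) = ((cycloChar 5 σ : (ZMod 5)ˣ) : ZMod 5))
    (hunip : ∀ q : ℕ, q.Prime → q ≠ 5 → ∀ A : ValuationSubring Qb, A.LiesOverPrime q →
      ∀ σ ∈ A.inertiaSubgroupIn ℚ, (ρ₀.ρ σ - 1) * (ρ₀.ρ σ - 1) = 0)
    (K : Type) [Field K] [Algebra (ZMod 5) K] (hirr : (ρ₀.baseChange K).IsIrreducible)
    (G : Subgroup GQ) (hG : G.index = 2) (V : Submodule K (ρ₀.baseChange K).V)
    (hV : ∀ σ ∈ G, ∀ x ∈ V, (ρ₀.baseChange K).ρ σ x ∈ V) : V = ⊥ ∨ V = ⊤ := by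
  classical
  by_contra hcon
  push Not at hcon
  obtain ⟨hbot, htop⟩ := hcon
  have hρ : ∀ σ : GQ, (ρ₀.baseChange K).ρ σ = (ρ₀.ρ σ).baseChange K := fun _ => rfl
  have h5 : (5 : K) = 0 := by
    have h1 : (5 : ZMod 5) = 0 := by decide
    have h2 := congrArg (algebraMap (ZMod 5) K) h1
    rwa [map_ofNat, map_zero] at h2
  have h2 : (2 : K) ≠ 0 := by
    intro h
    have : (1 : K) = 0 := by
      have e : (1 : K) = 5 - 2 * 2 := by norm_num
      rw [e, h5, h, mul_zero, sub_zero]
    exact one_ne_zero this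
  obtain ⟨L₀, hL₀fin, hL₀⟩ := ρ₀.factorsThroughFiniteLevel
  haveI := hL₀fin
  have hlev : ∀ s ∈ L₀.fixingSubgroup, ρ₀.ρ s = 1 := by
    intro s hs
    apply hL₀
    intro x hx
    exact (IntermediateField.mem_fixingSubgroup_iff _ s).1 hs x hx
  have hone : ∀ s : GQ, ρ₀.ρ s = 1 → (ρ₀.baseChange K).ρ s = 1 := by
    intro s hs
    rw [hρ, hs, LinearMap.baseChange_one]
  have hone' : ∀ s : GQ, (ρ₀.baseChange K).ρ s = 1 →
      ((ρ₀.baseChange K).ρ s - 1) * ((ρ₀.baseChange K).ρ s - 1) = 0 := by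
    intro s hs
    rw [hs, sub_self, zero_mul]
  have hin : ∀ q : ℕ, q.Prime → q ≠ 5 → ∀ A : ValuationSubring Qb, A.LiesOverPrime q →
      ∀ σ ∈ A.inertiaSubgroupIn ℚ,
        ((ρ₀.baseChange K).ρ σ - 1) * ((ρ₀.baseChange K).ρ σ - 1) = 0 := by
    intro q hq hq5 A hA σ hσ
    rw [hρ]
    exact baseChange_unip K _ (hunip q hq hq5 A hA σ hσ)
  -- QUAD for characters killing the unipotent elements
  have hquad : ∀ κ₁ κ₂ : GQ →* ℤˣ,
      (∀ u, ((ρ₀.baseChange K).ρ u - 1) * ((ρ₀.baseChange K).ρ u - 1) = 0 → κ₁ u = 1) →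
      (∀ u, ((ρ₀.baseChange K).ρ u - 1) * ((ρ₀.baseChange K).ρ u - 1) = 0 → κ₂ u = 1) →
      κ₁ = 1 ∨ κ₂ = 1 ∨ κ₁ = κ₂ := by
    intro κ₁ κ₂ h₁ h₂
    exact quad_unique primeFive (by decide) κ₁ κ₂ L₀ L₀
      (fun s hs => h₁ s (hone' s (hone s (hlev s hs)))) (fun s hs => h₂ s (hone' s (hone s (hlev s hs))))
      (fun q hq hq5 A hA σ hσ => h₁ σ (hin q hq hq5 A hA σ hσ))
      (fun q hq hq5 A hA σ hσ => h₂ σ (hin q hq hq5 A hA σ hσ))
  -- the quadratic character of `G` is `(χ₅ / 5)`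
  have hmem := mem_of_unipotent_of_dihedral (ρ₀.baseChange K).ρ h2 (ρ₀.baseChange K).finrank_eq hirr G hG V
    hbot htop hV
  set ε : GQ →* ℤˣ := indexTwoChar G hG with hε
  set δ : GQ →* ℤˣ := quadFive.comp (cycloChar 5) with hδ
  have hεu : ∀ u, ((ρ₀.baseChange K).ρ u - 1) * ((ρ₀.baseChange K).ρ u - 1) = 0 → ε u = 1 :=
    fun u hu => indexTwoChar_of_mem hG (hmem u hu)
  have hdetK : ∀ σ : GQ, LinearMap.det ((ρ₀.baseChange K).ρ σ) =
      algebraMap (ZMod 5) K ((cycloChar 5 σ : (ZMod 5)ˣ) : ZMod 5) := by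
    intro σ
    rw [hρ, LinearMap.det_baseChange, hdet]
  have hinj : Function.Injective (algebraMap (ZMod 5) K) := (algebraMap (ZMod 5) K).injective
  have hδu : ∀ u, ((ρ₀.baseChange K).ρ u - 1) * ((ρ₀.baseChange K).ρ u - 1) = 0 → δ u = 1 := by
    intro u hu
    -- a unipotent endomorphism has determinant one
    have hd1 : LinearMap.det ((ρ₀.baseChange K).ρ u) = 1 :=
      det_eq_one_of_unip (ρ₀.baseChange K).finrank_eq _ hu
    rw [hdetK, ← map_one (algebraMap (ZMod 5) K)] at hd1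
    have h1 := hinj hd1
    have h3 : cycloChar 5 u = 1 := Units.ext h1
    rw [hδ, MonoidHom.comp_apply, h3, map_one]
  obtain ⟨g₀, hg₀⟩ := exists_not_mem_of_index_two hG
  have hεne : ε ≠ 1 := by
    intro h
    have h5' : ε g₀ = -1 := indexTwoChar_of_not_mem hG hg₀
    rw [h, MonoidHom.one_apply] at h5'
    exact absurd h5' (by decide)
  have hδσ₀ : δ (globGenAt primeFive 2) = -1 := by
    rw [hδ, MonoidHom.comp_apply]
    exact quadFive_cycGen
  have hδne : δ ≠ 1 := by
    intro h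
    rw [h, MonoidHom.one_apply] at hδσ₀
    exact absurd hδσ₀ (by decide)
  have hεδ : ε = δ := by
    rcases hquad ε δ hεu hδu with h | h | h
    · exact absurd h hεne
    · exact absurd h hδne
    · exact h
  -- the tame generator is not in `G`
  set σ₀ : GQ := globGenAt primeFive 2 with hσ₀def
  have hσ₀G : σ₀ ∉ G := by
    intro h
    have h1 : ε σ₀ = 1 := indexTwoChar_of_mem hG h
    rw [hεδ, hδσ₀] at h1
    exact absurd h1 (by decide)
  obtain ⟨n, hn, hexp⟩ := exists_exponent ρ₀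
  refine dihedral_false_five (ρ₀.baseChange K).ρ h2 (ρ₀.baseChange K).finrank_eq hirr G hG V hbot htop hV
    n hn (fun g => ?_) σ₀ (globFrobAt primeFive) hσ₀G ?_ ?_ ?_
  · rw [← map_pow]
    exact hone _ (hexp g)
  · -- the determinant of `σ₀` has order `4`
    rw [hdetK, ← map_pow]
    have h1 : quadFive (cycloChar 5 σ₀) ≠ 1 := by
      have : quadFive (cycloChar 5 σ₀) = -1 := quadFive_cycGen
      rw [this]
      decide
    rw [sq_eq_neg_one_of_quadFive _ h1, map_neg, map_one]
  · -- the tame relation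
    intro f hf1 hf2
    have hF : ∀ s ∈ L₀.fixingSubgroup, f.toHomUnits s = 1 := by
      intro s hs
      apply Units.ext
      rw [MonoidHom.coe_toHomUnits, Units.val_one]
      exact hf1 s (hone s (hlev s hs))
    have hpf : ∀ s ∈ (primeLocalPlace primeFive).inertiaSubgroupIn ℚ, ∃ j : ℕ, f.toHomUnits s ^ 2 ^ j = 1 := by
      intro s _
      obtain ⟨j, hj⟩ := hf2 s
      refine ⟨j, Units.ext ?_⟩
      rw [Units.val_pow_eq_pow_val, MonoidHom.coe_toHomUnits, Units.val_one]
      exact hj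
    obtain ⟨hrel, -, -, -⟩ := tame_at_prime primeFive Nat.prime_two (by decide) f.toHomUnits L₀ hF hpf
    have hrel' : f.toHomUnits (globFrobAt primeFive) * f.toHomUnits σ₀ *
        (f.toHomUnits (globFrobAt primeFive))⁻¹ = f.toHomUnits σ₀ ^ 5 := hrel
    have h1 : f.toHomUnits (globFrobAt primeFive) * f.toHomUnits σ₀ =
        f.toHomUnits σ₀ ^ 5 * f.toHomUnits (globFrobAt primeFive) := by
      rw [← hrel']
      group
    have h3 := congrArg Units.val h1
    simpa [Units.val_mul, Units.val_pow_eq_pow_val, MonoidHom.coe_toHomUnits] using h3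
  · -- QUAD
    intro κ hκ1 hκu hκσ₀
    rcases hquad κ ε hκu hεu with h | h | h
    · exact h
    · exact absurd h hεne
    · exfalso
      have h1 : ε σ₀ = -1 := indexTwoChar_of_not_mem hG hσ₀G
      rw [← h, hκσ₀] at h1
      exact absurd h1 (by decide)

end Fermat.Agent.S59lib.BigImg
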