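/-
S59lib / BigImg / Transfer (helper4): **plumbing for the big-image hypotheses of the frozen S56.**

* `isIrreducible_baseChange_of_odd` : `ρ₀` irreducible over `k₀` (`2 ≠ 0`) and odd (an involution `c` with
  `det ρ₀(c) = -1`) ⟹ `ρ₀ ⊗ K` is irreducible for EVERY field `K ⊇ k₀` (`S58lib.Cmp.irreducible_of_trace_det_eq`).
* `stable_transfer` : a statement "every `G`-stable subspace of `ρ₀ ⊗_{k₀} K` is trivial" passes to any realisation
  `ρbar` of `ρ₀ ⊗ k` over an intermediate field `k` (tower `k₀ → k → K`), in the shape `(ρbar.baseChange K)` of S56.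
-/
import Mathlib
import Fermat.Prelude.Def_GaloisRep_Residual
import Fermat.Agent.S58lib.Cmp.AbsIrr

set_option autoImplicit false
set_option linter.unusedSectionVars false
set_option linter.style.haveILetI false

open scoped TensorProduct

noncomputable section

namespace Fermat.Agent.S59lib.BigImg

open Matrix Fermat.Agent.S58lib.Cmp

local notation "Qb" => AlgebraicClosure ℚ
local notation "GQ" => (AlgebraicClosure ℚ ≃ₐ[ℚ] AlgebraicClosure ℚ)

/-- **odd + irreducible ⟹ irreducible over every extension field.** -/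
theorem isIrreducible_baseChange_of_odd {k₀ : Type} [Field k₀] (h2 : (2 : k₀) ≠ 0)
    (ρ₀ : ResidualGaloisRep k₀) (hirr : ρ₀.IsIrreducible)
    (c : GQ) (hc : c * c = 1) (hdet : LinearMap.det (ρ₀.ρ c) = -1)
    (K : Type) [Field K] [Algebra k₀ K] : (ρ₀.baseChange K).IsIrreducible := by
  classical
  let b₀ : Module.Basis (Fin 2) k₀ ρ₀.V := Module.finBasisOfFinrankEq k₀ ρ₀.V ρ₀.finrank_eq
  have hdet' : (resMat ρ₀ b₀ c).det = -1 := by
    rw [resMat_apply, LinearMap.det_toMatrix, hdet]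
  have hmain := fun U hU => irreducible_of_trace_det_eq (K := K) (RingHom.id k₀) h2 (resMat ρ₀ b₀)
    (irr_resMat ρ₀ b₀ hirr) c hc hdet' (resMat ρ₀ b₀) (fun _ => rfl) (fun _ => rfl) U hU
  let b₂ : Module.Basis (Fin 2) K (K ⊗[k₀] ρ₀.V) := Algebra.TensorProduct.basis K b₀
  let e : (K ⊗[k₀] ρ₀.V) ≃ₗ[K] (Fin 2 → K) := b₂.equivFun
  have hmat : ∀ σ, LinearMap.toMatrix b₂ b₂ ((ρ₀.ρ σ).baseChange K) =
      (resMat ρ₀ b₀ σ).map (algebraMap k₀ K) := by
    intro σ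
    rw [LinearMap.toMatrix_baseChange]
    rfl
  intro W hW
  let U : Submodule K (Fin 2 → K) := W.map e.toLinearMap
  have hmemU : ∀ x : K ⊗[k₀] ρ₀.V, e x ∈ U ↔ x ∈ W := by
    intro x
    constructor
    · rintro ⟨y, hy, hyx⟩
      have : y = x := e.injective hyx
      exact this ▸ hy
    · intro hx
      exact ⟨x, hx, rfl⟩
  have hUstab : ∀ σ : GQ, ∀ x ∈ U, ((resMat ρ₀ b₀ σ).map (algebraMap k₀ K)) *ᵥ x ∈ U := by
    rintro σ _ ⟨y, hy, rfl⟩
    have h1 : e (((ρ₀.ρ σ).baseChange K) y) = ((resMat ρ₀ b₀ σ).map (algebraMap k₀ K)) *ᵥ (e y) := by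
      rw [← hmat σ]
      exact (LinearMap.toMatrix_mulVec_repr b₂ b₂ _ y).symm
    show ((resMat ρ₀ b₀ σ).map (algebraMap k₀ K)) *ᵥ (e y) ∈ U
    rw [← h1]
    exact (hmemU _).mpr (hW σ y hy)
  rcases hmain U hUstab with h | h
  · left
    refine (Submodule.eq_bot_iff _).mpr fun w hw => ?_
    have h1 : e w ∈ U := (hmemU w).mpr hw
    rw [h, Submodule.mem_bot] at h1
    exact e.map_eq_zero_iff.mp h1
  · right
    refine (Submodule.eq_top_iff').mpr fun w => ?_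
    have h1 : e w ∈ U := by rw [h]; exact Submodule.mem_top
    exact (hmemU w).mp h1

/-- **transfer along a realisation**, tower `k₀ → k → K` given by instances -/
theorem stable_transfer_aux {k₀ : Type} [Field k₀] (ρ₀ : ResidualGaloisRep k₀)
    {k : Type} [Field k] [Algebra k₀ k] (ρbar : ResidualGaloisRep k)
    (e : (k ⊗[k₀] ρ₀.V) ≃ₗ[k] ρbar.V)
    (he : ∀ (σ : GQ) (x : k ⊗[k₀] ρ₀.V), e (((ρ₀.ρ σ).baseChange k) x) = ρbar.ρ σ (e x))
    (K : Type) [Field K] [Algebra k K] [Algebra k₀ K] [IsScalarTower k₀ k K]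
    (G : Subgroup GQ)
    (h₀ : ∀ V₀ : Submodule K (ρ₀.baseChange K).V,
      (∀ σ ∈ G, ∀ x ∈ V₀, (ρ₀.baseChange K).ρ σ x ∈ V₀) → V₀ = ⊥ ∨ V₀ = ⊤)
    (V : Submodule K (ρbar.baseChange K).V)
    (hV : ∀ σ ∈ G, ∀ x ∈ V, (ρbar.baseChange K).ρ σ x ∈ V) : V = ⊥ ∨ V = ⊤ := by
  set Φ : (K ⊗[k₀] ρ₀.V) →ₗ[K] (K ⊗[k] ρbar.V) :=
    (e.baseChange k K _ _).toLinearMap ∘ₗ
      (TensorProduct.AlgebraTensorModule.cancelBaseChange k₀ k K K ρ₀.V).symm.toLinearMap with hΦ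
  have hΦs : Function.Surjective Φ := by
    rw [hΦ, LinearMap.coe_comp]
    exact (LinearEquiv.surjective _).comp (LinearEquiv.surjective _)
  have hΦe : ∀ (σ : GQ) (y : K ⊗[k₀] ρ₀.V),
      Φ (((ρ₀.ρ σ).baseChange K) y) = (ρbar.baseChange K).ρ σ (Φ y) := by
    intro σ y
    induction y using TensorProduct.induction_on with
    | zero =>
      exact ((congrArg Φ (_root_.map_zero _)).trans (_root_.map_zero Φ)).trans
        ((congrArg _ (_root_.map_zero Φ)).trans (_root_.map_zero _)).symm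
    | tmul a m =>
      have h4 : e ((1 : k) ⊗ₜ ((ρ₀.ρ σ) m)) = ρbar.ρ σ (e (1 ⊗ₜ m)) := he σ (1 ⊗ₜ m)
      calc Φ (((ρ₀.ρ σ).baseChange K) (a ⊗ₜ m))
          = a ⊗ₜ[k] e ((1 : k) ⊗ₜ ((ρ₀.ρ σ) m)) := rfl
        _ = a ⊗ₜ[k] (ρbar.ρ σ (e (1 ⊗ₜ m))) := congrArg (fun t => a ⊗ₜ[k] t) h4
        _ = (ρbar.baseChange K).ρ σ (Φ (a ⊗ₜ m)) := rfl
    | add x y hx hy =>
      exact ((congrArg Φ (_root_.map_add _ x y)).trans (_root_.map_add Φ _ _)).trans
        ((congrArg₂ (· + ·) hx hy).trans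
          ((congrArg _ (_root_.map_add Φ x y)).trans (_root_.map_add _ _ _)).symm)
  have hW : ∀ σ ∈ G, ∀ x ∈ V.comap Φ, (ρ₀.baseChange K).ρ σ x ∈ V.comap Φ := by
    intro σ hσ x hx
    have hx' : Φ x ∈ V := hx
    have h5 : Φ (((ρ₀.ρ σ).baseChange K) x) ∈ V :=
      (congrArg (fun t => t ∈ V) (hΦe σ x)).mpr (hV σ hσ _ hx')
    exact h5
  rcases h₀ (V.comap Φ) hW with h | h
  · left
    apply (Submodule.eq_bot_iff V).2
    intro v hv
    obtain ⟨y, rfl⟩ := hΦs v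
    have hy : y ∈ V.comap Φ := hv
    have hy0 : y = 0 := (Submodule.mem_bot K).1 (h ▸ hy)
    exact (congrArg Φ hy0).trans (_root_.map_zero Φ)
  · right
    apply (Submodule.eq_top_iff').2
    intro v
    obtain ⟨y, rfl⟩ := hΦs v
    have hy : y ∈ V.comap Φ := h.symm ▸ Submodule.mem_top
    exact hy

/-- **transfer along a realisation**: from "every `G`-stable subspace of `ρ₀ ⊗_{k₀} K` is trivial, for every field
`K ⊇ k₀`" to the same for `(ρbar.baseChange K)`, `K ⊇ k`, in the shape of the frozen S56. -/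
theorem stable_transfer {k₀ : Type} [Field k₀] (ρ₀ : ResidualGaloisRep k₀)
    {k : Type} [Field k] [Algebra k₀ k] (ρbar : ResidualGaloisRep k)
    (e : (k ⊗[k₀] ρ₀.V) ≃ₗ[k] ρbar.V)
    (he : ∀ (σ : GQ) (x : k ⊗[k₀] ρ₀.V), e (((ρ₀.ρ σ).baseChange k) x) = ρbar.ρ σ (e x))
    (G : Subgroup GQ)
    (h₀ : ∀ (K : Type) [Field K] [Algebra k₀ K] (V₀ : Submodule K (ρ₀.baseChange K).V),
      (∀ σ ∈ G, ∀ x ∈ V₀, (ρ₀.baseChange K).ρ σ x ∈ V₀) → V₀ = ⊥ ∨ V₀ = ⊤)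
    (K : Type) [Field K] [Algebra k K]
    (V : Submodule K (ρbar.baseChange K).V)
    (hV : ∀ σ ∈ G, ∀ x ∈ V, (ρbar.baseChange K).ρ σ x ∈ V) : V = ⊥ ∨ V = ⊤ :=
  letI : Algebra k₀ K := ((algebraMap k K).comp (algebraMap k₀ k)).toAlgebra
  haveI : IsScalarTower k₀ k K := IsScalarTower.of_algebraMap_eq' rfl
  stable_transfer_aux ρ₀ ρbar e he K G (fun V₀ hV₀ => h₀ K V₀ hV₀) V hV

end Fermat.Agent.S59lib.BigImg
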