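/-
S59lib / BigImg / BigThree (helper4): **`habs` and `hTW` of the frozen S56 for `p = 3`, for any realisation `ρbar` over
`k ⊇ 𝔽₃` of a mod `3` representation `ρ₀`** which is irreducible, has cyclotomic determinant and is unipotent on inertia
at every prime `q ≠ 3` (for `ρ₀ = W[3]`, `W` semistable: `S58lib`).

* `cycloChar_complexConjugation` : `χ_p(c) = -1`;
* `isIrreducible_baseChange_of_cyclo` (any odd `p`) : irreducible + cyclotomic determinant ⟹ irreducible over every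
  field `K ⊇ 𝔽_p` (`habs`);
* `bigImage_three` : `habs ∧ hTW` for `p = 3`.
-/
import Mathlib
import Fermat.Prelude.Def_GaloisRep_ComplexConjugation
import Fermat.Agent.S58lib.Cmp.Conj
import Fermat.Agent.S59lib.BigImg.HTW3
import Fermat.Agent.S59lib.BigImg.Transfer

set_option autoImplicit false
set_option linter.unusedSectionVars false
set_option linter.style.haveILetI false

open scoped TensorProduct

noncomputable section

namespace Fermat.Agent.S59lib.BigImg

open ExtCitation Fermat.Agent.S56lib.TW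

local notation "Qb" => AlgebraicClosure ℚ
local notation "GQ" => (AlgebraicClosure ℚ ≃ₐ[ℚ] AlgebraicClosure ℚ)

/-- the mod `p` cyclotomic character of complex conjugation is `-1` -/
theorem cycloChar_complexConjugation (p : ℕ) [hp : Fact p.Prime] : cycloChar p complexConjugation = -1 := by
  haveI : NeZero p := ⟨hp.out.ne_zero⟩
  refine cycloChar_eq_of_spec p complexConjugation (-1) fun μ hμ => ?_
  rw [Fermat.Agent.S58lib.Cmp.complexConjugation_of_pow_eq_one hp.out.ne_zero hμ]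
  have hμ0 : μ ≠ 0 := by
    intro h
    rw [h, zero_pow hp.out.ne_zero] at hμ
    exact zero_ne_one hμ
  have hval : (((-1 : (ZMod p)ˣ) : ZMod p)).val = p - 1 := by
    rw [Units.val_neg, Units.val_one]
    obtain ⟨n, rfl⟩ : ∃ n, p = n + 1 := ⟨p - 1, (Nat.succ_pred_eq_of_pos hp.out.pos).symm⟩
    rw [ZMod.val_neg_one, Nat.add_sub_cancel]
  rw [hval]
  symm
  apply eq_inv_of_mul_eq_one_left
  rw [← pow_succ, Nat.sub_add_cancel hp.out.one_le, hμ]

/-- **`habs`**: irreducible with cyclotomic determinant (`p` odd) ⟹ irreducible over every field `K ⊇ 𝔽_p`. -/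
theorem isIrreducible_baseChange_of_cyclo (p : ℕ) [hp : Fact p.Prime] (hp2 : p ≠ 2)
    (ρ₀ : ResidualGaloisRep (ZMod p)) (hirr : ρ₀.IsIrreducible)
    (hdet : ∀ σ : GQ, LinearMap.det (ρ₀.ρ σ) = ((cycloChar p σ : (ZMod p)ˣ) : ZMod p))
    (K : Type) [Field K] [Algebra (ZMod p) K] : (ρ₀.baseChange K).IsIrreducible := by
  have h2 : (2 : ZMod p) ≠ 0 := by
    intro h
    have h1 : ((2 : ℕ) : ZMod p) = 0 := by exact_mod_cast h
    rw [ZMod.natCast_eq_zero_iff] at h1
    exact hp2 ((Nat.prime_dvd_prime_iff_eq hp.out Nat.prime_two).1 h1)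
  refine isIrreducible_baseChange_of_odd h2 ρ₀ hirr complexConjugation complexConjugation_mul_self ?_ K
  rw [hdet, cycloChar_complexConjugation, Units.val_neg, Units.val_one]

/-- **BIGIMG for `p = 3`:** `habs` and `hTW` of the frozen S56 for a realisation `ρbar` of `ρ₀ ⊗ k`. -/
theorem bigImage_three (ρ₀ : ResidualGaloisRep (ZMod 3)) (hirr : ρ₀.IsIrreducible)
    (hdet : ∀ σ : GQ, LinearMap.det (ρ₀.ρ σ) = ((cycloChar 3 σ : (ZMod 3)ˣ) : ZMod 3))
    (hunip : ∀ q : ℕ, q.Prime → q ≠ 3 → ∀ A : ValuationSubring Qb, A.LiesOverPrime q →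
      ∀ σ ∈ A.inertiaSubgroupIn ℚ, (ρ₀.ρ σ - 1) * (ρ₀.ρ σ - 1) = 0)
    {k : Type} [Field k] [Algebra (ZMod 3) k] (ρbar : ResidualGaloisRep k)
    (e : (k ⊗[ZMod 3] ρ₀.V) ≃ₗ[k] ρbar.V)
    (he : ∀ (σ : GQ) (x : k ⊗[ZMod 3] ρ₀.V), e (((ρ₀.ρ σ).baseChange k) x) = ρbar.ρ σ (e x)) :
    ρbar.IsAbsolutelyIrreducible ∧
    ∀ (K : Type) [Field K] [Algebra k K] (G : Subgroup GQ), G.index = 2 →
      ∀ V : Submodule K (ρbar.baseChange K).V,
        (∀ σ ∈ G, ∀ x ∈ V, (ρbar.baseChange K).ρ σ x ∈ V) → V = ⊥ ∨ V = ⊤ := by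
  have hK : ∀ (K : Type) [Field K] [Algebra (ZMod 3) K], (ρ₀.baseChange K).IsIrreducible :=
    fun K _ _ => isIrreducible_baseChange_of_cyclo 3 (by decide) ρ₀ hirr hdet K
  refine ⟨?_, fun K _ _ G hG V hV => ?_⟩
  · intro W hW
    exact stable_transfer ρ₀ ρbar e he ⊤
      (fun K _ _ V₀ hV₀ => hK K V₀ (fun σ x hx => hV₀ σ (Subgroup.mem_top σ) x hx))
      (AlgebraicClosure k) W (fun σ _ x hx => hW σ x hx)
  · exact stable_transfer ρ₀ ρbar e he G
      (fun K' _ _ V₀ hV₀ => hTW_three_core ρ₀ hdet hunip K' (hK K') G hG V₀ hV₀) K V hV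

end Fermat.Agent.S59lib.BigImg
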