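/-
S59lib / BigImg / WRes (helper4): **the mod `p` representation `W[p]` of a semistable integral Weierstrass model, in the
matrix form `resRepE W hΔ p` of `S44lib/Q1/ESide` (`V = 𝔽_p²`, `ρ = rhoE`), with the three inputs of BIGIMG, and
`habs ∧ hTW` of the frozen S56 for `p = 3`, for every realisation of `W[3] ⊗ k` given by a basis.**

* `wRes_isIrreducible`  : `W.ModRepIsIrreducible p ⟹ (resRepE W hΔ p).IsIrreducible`;
* `wRes_det`            : `det ρ(σ) = χ_p(σ)`;
* `wRes_charpoly_inertia`, `wRes_unip` : unipotent on inertia at every `q ≠ p` (`W` semistable, `p` odd);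
* `equivOfBasis`, `equivOfBasis_equivariant` : a basis `b` of `ρbar.V` in which `ρbar(σ)` has the matrix
  `(rhoE σ).map (algebraMap 𝔽_p k)` gives an equivariant `k ⊗ 𝔽_p² ≃ ρbar.V`;
* **`bigImage_three_of_basis`**, `bigImage_three_resRepE`.
-/
import Mathlib
import Fermat.Agent.S44lib.Q1.ESide
import Fermat.Agent.S43lib.B3.Arith.Det
import Fermat.Agent.S58lib.Assemble
import Fermat.Agent.S58lib.Cnt.FrobCore
import Fermat.Agent.S59lib.BigImg.BigThree

set_option autoImplicit false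
set_option linter.unusedSectionVars false
set_option linter.style.haveILetI false

open scoped TensorProduct

noncomputable section

namespace Fermat.Agent.S59lib.BigImg

open ExtCitation Fermat.Agent.S56lib.TW Fermat.Agent.S44lib.Q1 Fermat.Agent.S58lib Fermat.Agent.S58lib.Tate
open Polynomial Matrix

local notation "Qb" => AlgebraicClosure ℚ
local notation "GQ" => (AlgebraicClosure ℚ ≃ₐ[ℚ] AlgebraicClosure ℚ)

variable (W : WeierstrassCurve ℤ) (hΔ : W.Δ ≠ 0) (p : ℕ) [hp : Fact p.Prime]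

/-- irreducibility of `W[p]` in the form of `ResidualGaloisRep` -/
theorem wRes_isIrreducible (hirr : W.ModRepIsIrreducible p) : (resRepE W hΔ p).IsIrreducible := by
  intro U hU
  exact rhoE_irreducible W hΔ p hirr U (fun σ x hx => hU σ x hx)

/-- the determinant of `W[p]` is the mod `p` cyclotomic character -/
theorem wRes_det (σ : GQ) :
    LinearMap.det ((resRepE W hΔ p).ρ σ) = ((cycloChar p σ : (ZMod p)ˣ) : ZMod p) := by
  haveI : NeZero p := ⟨hp.out.ne_zero⟩
  have h0 : LinearMap.det ((resRepE W hΔ p).ρ σ) = (rhoE W hΔ p σ).det :=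
    LinearMap.det_toLin' (rhoE W hΔ p σ)
  rw [h0, Fermat.Agent.S43lib.B3.det_rhoE_eq_of_rootAction W hΔ p σ
    (((cycloChar p σ : (ZMod p)ˣ) : ZMod p)).val (fun μ hμ => cycloChar_spec p σ μ hμ)]
  exact ZMod.natCast_zmod_val _

/-- `rhoE` is the reduction of the `p`-adic Tate matrices -/
theorem rhoE_eq_map_tateMatZp (σ : GQ) :
    rhoE W hΔ p σ = (tateMatZp (WQ' W) p (WQ'_Δ_ne_zero hΔ) σ).map
      (((phiOne p : ZMod (p ^ 1) →+* ZMod p)).comp (PadicInt.toZModPow 1)) := by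
  rw [rhoE_apply, ← tateMatZp_map_toZModPow, Matrix.map_map]
  rfl

/-- the characteristic polynomial of inertia at `q ≠ p` on `W[p]` (`W` semistable, `p` odd) -/
theorem wRes_charpoly_inertia (hss : W.IsSemistableModel) (hp2 : p ≠ 2) (q : ℕ) (hq : q.Prime) (hqp : q ≠ p)
    (A : ValuationSubring Qb) (hA : A.LiesOverPrime q) (σ : GQ) (hσ : σ ∈ A.inertiaSubgroupIn ℚ) :
    (rhoE W hΔ p σ).charpoly = (X - 1) ^ 2 := by
  have hT : TateFrob W (tateFam W hΔ) := tateFrob_of_frobCore Fermat.Agent.S58lib.Cnt.frobCore W hΔ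
  have h := Fermat.Agent.S58lib.Tr.tateUnip_of_multFixed W hΔ hss (multFixed W hΔ) hT p hp2 q hq hqp A hA σ hσ
  have h' : LinearMap.charpoly ((tateRep (WQ' W) p (natCast_mem_maximalIdeal_padicInt p)
      (WQ'_Δ_ne_zero hΔ)).ρ σ) = (X - 1) ^ 2 := h
  rw [tateRep_charpoly] at h'
  have h'' : (tateMatZp (WQ' W) p (WQ'_Δ_ne_zero hΔ) σ).charpoly = (X - 1) ^ 2 := h'
  rw [rhoE_eq_map_tateMatZp, Matrix.charpoly_map, h'']
  simp

/-- **unipotent inertia at every `q ≠ p`** -/
theorem wRes_unip (hss : W.IsSemistableModel) (hp2 : p ≠ 2) (q : ℕ) (hq : q.Prime) (hqp : q ≠ p)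
    (A : ValuationSubring Qb) (hA : A.LiesOverPrime q) (σ : GQ) (hσ : σ ∈ A.inertiaSubgroupIn ℚ) :
    ((resRepE W hΔ p).ρ σ - 1) * ((resRepE W hΔ p).ρ σ - 1) = 0 := by
  have hc := wRes_charpoly_inertia W hΔ p hss hp2 q hq hqp A hA σ hσ
  have hCH := Matrix.aeval_self_charpoly (rhoE W hΔ p σ)
  rw [hc] at hCH
  have hM : (rhoE W hΔ p σ - 1) * (rhoE W hΔ p σ - 1) = 0 := by
    have := hCH
    simp only [map_pow, map_sub, aeval_X, map_one] at this
    rw [sq] at this
    exact this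
  change (Matrix.toLin' (rhoE W hΔ p σ) - 1) * (Matrix.toLin' (rhoE W hΔ p σ) - 1) =
    (0 : Module.End (ZMod p) (Fin 2 → ZMod p))
  have e1 : Matrix.toLin' (rhoE W hΔ p σ) - 1 = Matrix.toLin' (rhoE W hΔ p σ - 1) := by
    rw [map_sub, Matrix.toLin'_one]
    rfl
  rw [e1, Module.End.mul_eq_comp, ← Matrix.toLin'_mul, hM, map_zero]

/-! ### realisations given by a basis -/

variable {W hΔ p}
variable {k : Type} [Field k] [Algebra (ZMod p) k]

/-- the equivalence `k ⊗ 𝔽_p² ≃ ρbar.V` defined by a basis of `ρbar.V` -/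
def equivOfBasis (ρbar : ResidualGaloisRep k) (b : Module.Basis (Fin 2) k ρbar.V) :
    (k ⊗[ZMod p] (Fin 2 → ZMod p)) ≃ₗ[k] ρbar.V :=
  (((Pi.basisFun (ZMod p) (Fin 2)).baseChange k).equiv b (Equiv.refl _))

theorem equivOfBasis_tmul (ρbar : ResidualGaloisRep k) (b : Module.Basis (Fin 2) k ρbar.V) (i : Fin 2) :
    equivOfBasis (p := p) ρbar b ((1 : k) ⊗ₜ[ZMod p] (Pi.single i (1 : ZMod p) : Fin 2 → ZMod p)) = b i := by
  have h1 : ((Pi.basisFun (ZMod p) (Fin 2)).baseChange k) i =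
      (1 : k) ⊗ₜ[ZMod p] (Pi.single i (1 : ZMod p) : Fin 2 → ZMod p) := by
    rw [Module.Basis.baseChange_apply, Pi.basisFun_apply]
  unfold equivOfBasis
  rw [← h1, Module.Basis.equiv_apply]
  rfl

/-- equivariance of `equivOfBasis` -/
theorem equivOfBasis_equivariant (ρbar : ResidualGaloisRep k) (b : Module.Basis (Fin 2) k ρbar.V)
    (M : Matrix (Fin 2) (Fin 2) (ZMod p)) (f : Module.End k ρbar.V)
    (hb : LinearMap.toMatrix b b f = M.map (algebraMap (ZMod p) k))
    (x : k ⊗[ZMod p] (Fin 2 → ZMod p)) :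
    equivOfBasis (p := p) ρbar b (((Matrix.toLin' M).baseChange k) x) = f (equivOfBasis (p := p) ρbar b x) := by
  set e := equivOfBasis (p := p) ρbar b with he
  -- it suffices to compare two linear maps on the basis
  have key : (e : _ →ₗ[k] ρbar.V) ∘ₗ ((Matrix.toLin' M).baseChange k) = f ∘ₗ (e : _ →ₗ[k] ρbar.V) := by
    apply ((Pi.basisFun (ZMod p) (Fin 2)).baseChange k).ext
    intro j
    rw [Module.Basis.baseChange_apply, Pi.basisFun_apply, LinearMap.comp_apply, LinearMap.comp_apply,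
      LinearEquiv.coe_coe, LinearMap.baseChange_tmul, he, equivOfBasis_tmul]
    -- the image of the `j`-th basis vector
    have h1 : Matrix.toLin' M (Pi.single j (1 : ZMod p) : Fin 2 → ZMod p) =
        ∑ i : Fin 2, (M i j) • (Pi.single i (1 : ZMod p) : Fin 2 → ZMod p) := by
      rw [Matrix.toLin'_apply]
      funext l
      rw [Matrix.mulVec_single_one, Finset.sum_apply]
      simp [Pi.single_apply]
    rw [h1, TensorProduct.tmul_sum, map_sum]
    have h2 : f (b j) = ∑ i : Fin 2, (LinearMap.toMatrix b b f i j) • b i := by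
      conv_lhs => rw [← b.sum_repr (f (b j))]
      refine Finset.sum_congr rfl fun i _ => ?_
      rw [LinearMap.toMatrix_apply]
    rw [h2, hb]
    refine Finset.sum_congr rfl fun i _ => ?_
    rw [Matrix.map_apply, TensorProduct.tmul_smul,
      ← algebraMap_smul k (M i j) ((1 : k) ⊗ₜ[ZMod p] (Pi.single i (1 : ZMod p) : Fin 2 → ZMod p)), map_smul,
      equivOfBasis_tmul]
  exact LinearMap.congr_fun key x

/-- **BIGIMG for `p = 3` and `W[3]`, basis form**: `habs ∧ hTW` of the frozen S56 for every `ρbar` over a field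
`k ⊇ 𝔽₃` which has a basis in which `ρbar(σ)` has the matrix `rhoE σ` (for all `σ`). -/
theorem bigImage_three_of_basis (W : WeierstrassCurve ℤ) (hΔ : W.Δ ≠ 0) (hss : W.IsSemistableModel)
    (hirr : W.ModRepIsIrreducible 3) {k : Type} [Field k] [Algebra (ZMod 3) k] (ρbar : ResidualGaloisRep k)
    (b : Module.Basis (Fin 2) k ρbar.V)
    (hb : ∀ σ : GQ, LinearMap.toMatrix b b (ρbar.ρ σ) = (rhoE W hΔ 3 σ).map (algebraMap (ZMod 3) k)) :
    ρbar.IsAbsolutelyIrreducible ∧
    ∀ (K : Type) [Field K] [Algebra k K] (G : Subgroup GQ), G.index = 2 →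
      ∀ V : Submodule K (ρbar.baseChange K).V,
        (∀ σ ∈ G, ∀ x ∈ V, (ρbar.baseChange K).ρ σ x ∈ V) → V = ⊥ ∨ V = ⊤ :=
  bigImage_three (resRepE W hΔ 3) (wRes_isIrreducible W hΔ 3 hirr) (wRes_det W hΔ 3)
    (fun q hq hq3 A hA σ hσ => wRes_unip W hΔ 3 hss (by decide) q hq hq3 A hA σ hσ) ρbar
    (equivOfBasis (p := 3) ρbar b)
    (fun σ x => equivOfBasis_equivariant (p := 3) ρbar b (rhoE W hΔ 3 σ) (ρbar.ρ σ) (hb σ) x)

/-- **BIGIMG for `p = 3`** for the canonical realisation `(resRepE W hΔ 3).baseChange k`. -/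
theorem bigImage_three_resRepE (W : WeierstrassCurve ℤ) (hΔ : W.Δ ≠ 0) (hss : W.IsSemistableModel)
    (hirr : W.ModRepIsIrreducible 3) (k : Type) [Field k] [Algebra (ZMod 3) k] :
    ((resRepE W hΔ 3).baseChange k).IsAbsolutelyIrreducible ∧
    ∀ (K : Type) [Field K] [Algebra k K] (G : Subgroup GQ), G.index = 2 →
      ∀ V : Submodule K (((resRepE W hΔ 3).baseChange k).baseChange K).V,
        (∀ σ ∈ G, ∀ x ∈ V, (((resRepE W hΔ 3).baseChange k).baseChange K).ρ σ x ∈ V) → V = ⊥ ∨ V = ⊤ :=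
  bigImage_three (resRepE W hΔ 3) (wRes_isIrreducible W hΔ 3 hirr) (wRes_det W hΔ 3)
    (fun q hq hq3 A hA σ hσ => wRes_unip W hΔ 3 hss (by decide) q hq hq3 A hA σ hσ)
    ((resRepE W hΔ 3).baseChange k) (LinearEquiv.refl k _) (fun _ _ => rfl)

/-! ### the residual representation of the Tate module over a complete local ring -/

section TateRep

open IsLocalRing Fermat.Agent.S29lib.S30

variable {O : Type} [CommRing O] [IsLocalRing O] [IsAdicComplete (maximalIdeal O) O]
  (hpO : (p : O) ∈ maximalIdeal O) [Algebra (ZMod p) (ResidueField O)]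

/-- the Tate matrices over `O` reduce to `rhoE` modulo the maximal ideal -/
theorem tateMat_map_residue (W : WeierstrassCurve ℤ) (hΔ : W.Δ ≠ 0) (σ : GQ) :
    (tateMat (WQ' W) p (maximalIdeal O) hpO (WQ'_Δ_ne_zero hΔ) σ).map (IsLocalRing.residue O) =
      (rhoE W hΔ p σ).map (algebraMap (ZMod p) (ResidueField O)) := by
  have hle : maximalIdeal O ^ 1 ≤ maximalIdeal O := by rw [pow_one]
  set π₁ : O ⧸ maximalIdeal O ^ 1 →+* ResidueField O := Ideal.Quotient.factor hle with hπ₁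
  have h1 := isLim_tateMat (WQ' W) p (maximalIdeal O) hpO (WQ'_Δ_ne_zero hΔ) σ 1
  have h2 : (tateMat (WQ' W) p (maximalIdeal O) hpO (WQ'_Δ_ne_zero hΔ) σ).map (IsLocalRing.residue O) =
      ((tateMat (WQ' W) p (maximalIdeal O) hpO (WQ'_Δ_ne_zero hΔ) σ).map
        (Ideal.Quotient.mk (maximalIdeal O ^ 1))).map π₁ := by
    rw [Matrix.map_map]
    rfl
  rw [h2, h1, Matrix.map_map, rhoE_apply, Matrix.map_map]
  have h3 : (π₁.comp (psi (maximalIdeal O) hpO 1)) =
      (algebraMap (ZMod p) (ResidueField O)).comp (phiOne p : ZMod (p ^ 1) →+* ZMod p) :=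
    Subsingleton.elim _ _
  have h4 : ((π₁ : O ⧸ maximalIdeal O ^ 1 → ResidueField O) ∘ (psi (maximalIdeal O) hpO 1)) =
      ((algebraMap (ZMod p) (ResidueField O)) ∘ (phiOne p : ZMod (p ^ 1) → ZMod p)) := by
    funext x
    exact RingHom.congr_fun h3 x
  rw [h4]
  rfl

/-- **BIGIMG for `p = 3`** for the residual representation of the Tate module `T_3 W ⊗ O` over any complete local
ring `O` with `3 ∈ 𝔪_O`: `habs ∧ hTW` of the frozen S56. -/
theorem bigImage_three_tateRep (W : WeierstrassCurve ℤ) (hΔ : W.Δ ≠ 0) (hss : W.IsSemistableModel)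
    (hirr : W.ModRepIsIrreducible 3) {O : Type} [CommRing O] [IsLocalRing O]
    [IsAdicComplete (maximalIdeal O) O] (h3O : ((3 : ℕ) : O) ∈ maximalIdeal O)
    [Algebra (ZMod 3) (ResidueField O)] :
    ((tateRep (WQ' W) 3 h3O (WQ'_Δ_ne_zero hΔ) : GaloisRepAdic O).residual).IsAbsolutelyIrreducible ∧
    ∀ (K : Type) [Field K] [Algebra (ResidueField O) K] (G : Subgroup GQ), G.index = 2 →
      ∀ V : Submodule K (((tateRep (WQ' W) 3 h3O (WQ'_Δ_ne_zero hΔ) : GaloisRepAdic O).residual).baseChange K).V,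
        (∀ σ ∈ G, ∀ x ∈ V,
          (((tateRep (WQ' W) 3 h3O (WQ'_Δ_ne_zero hΔ) : GaloisRepAdic O).residual).baseChange K).ρ σ x ∈ V) →
        V = ⊥ ∨ V = ⊤ := by
  set ρbar := (tateRep (WQ' W) 3 h3O (WQ'_Δ_ne_zero hΔ) : GaloisRepAdic O).residual with hρbar
  let b : Module.Basis (Fin 2) (ResidueField O) ρbar.V :=
    Algebra.TensorProduct.basis (ResidueField O) (Pi.basisFun O (Fin 2))
  refine bigImage_three_of_basis W hΔ hss hirr ρbar b (fun σ => ?_)
  have h1 : LinearMap.toMatrix b b (ρbar.ρ σ) =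
      (LinearMap.toMatrix (Pi.basisFun O (Fin 2)) (Pi.basisFun O (Fin 2))
        (Matrix.toLin' (tateMat (WQ' W) 3 (maximalIdeal O) h3O (WQ'_Δ_ne_zero hΔ) σ))).map
        (algebraMap O (ResidueField O)) :=
    LinearMap.toMatrix_baseChange _ _ _ _
  rw [h1, LinearMap.toMatrix_eq_toMatrix', LinearMap.toMatrix'_toLin']
  exact tateMat_map_residue (p := 3) h3O W hΔ σ

end TateRep

end Fermat.Agent.S59lib.BigImg
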