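/-
S59lib / BigImg / BigFive (helper4): **`habs` and `hTW` of the frozen S56 for `p = 5`** — for any realisation `ρbar`
over `k ⊇ 𝔽₅` of a mod `5` representation `ρ₀` which is irreducible, has cyclotomic determinant and is unipotent on
inertia at every prime `q ≠ 5`; and for `ρ₀ = W[5]`, `W` a semistable integral Weierstrass model (basis form, the
canonical realisation `resRepE ⊗ k`, and the residual representation of `T_5 W ⊗ O` over any complete local `O`).

No local analysis at `5` is needed (see `HTW5`).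
-/
import Mathlib
import Fermat.Agent.S59lib.BigImg.HTW5
import Fermat.Agent.S59lib.BigImg.WRes

set_option autoImplicit false
set_option linter.unusedSectionVars false
set_option linter.style.haveILetI false

open scoped TensorProduct

noncomputable section

namespace Fermat.Agent.S59lib.BigImg

open ExtCitation Fermat.Agent.S56lib.TW Fermat.Agent.S44lib.Q1 Fermat.Agent.S58lib Fermat.Agent.S58lib.Tate
open IsLocalRing

local notation "Qb" => AlgebraicClosure ℚ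
local notation "GQ" => (AlgebraicClosure ℚ ≃ₐ[ℚ] AlgebraicClosure ℚ)

/-- **BIGIMG for `p = 5`:** `habs` and `hTW` of the frozen S56 for a realisation `ρbar` of `ρ₀ ⊗ k`. -/
theorem bigImage_five (ρ₀ : ResidualGaloisRep (ZMod 5)) (hirr : ρ₀.IsIrreducible)
    (hdet : ∀ σ : GQ, LinearMap.det (ρ₀.ρ σ) = ((cycloChar 5 σ : (ZMod 5)ˣ) : ZMod 5))
    (hunip : ∀ q : ℕ, q.Prime → q ≠ 5 → ∀ A : ValuationSubring Qb, A.LiesOverPrime q →
      ∀ σ ∈ A.inertiaSubgroupIn ℚ, (ρ₀.ρ σ - 1) * (ρ₀.ρ σ - 1) = 0)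
    {k : Type} [Field k] [Algebra (ZMod 5) k] (ρbar : ResidualGaloisRep k)
    (e : (k ⊗[ZMod 5] ρ₀.V) ≃ₗ[k] ρbar.V)
    (he : ∀ (σ : GQ) (x : k ⊗[ZMod 5] ρ₀.V), e (((ρ₀.ρ σ).baseChange k) x) = ρbar.ρ σ (e x)) :
    ρbar.IsAbsolutelyIrreducible ∧
    ∀ (K : Type) [Field K] [Algebra k K] (G : Subgroup GQ), G.index = 2 →
      ∀ V : Submodule K (ρbar.baseChange K).V,
        (∀ σ ∈ G, ∀ x ∈ V, (ρbar.baseChange K).ρ σ x ∈ V) → V = ⊥ ∨ V = ⊤ := by
  have hK : ∀ (K : Type) [Field K] [Algebra (ZMod 5) K], (ρ₀.baseChange K).IsIrreducible :=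
    fun K _ _ => isIrreducible_baseChange_of_cyclo 5 (by decide) ρ₀ hirr hdet K
  refine ⟨?_, fun K _ _ G hG V hV => ?_⟩
  · intro W hW
    exact stable_transfer ρ₀ ρbar e he ⊤
      (fun K _ _ V₀ hV₀ => hK K V₀ (fun σ x hx => hV₀ σ (Subgroup.mem_top σ) x hx))
      (AlgebraicClosure k) W (fun σ _ x hx => hW σ x hx)
  · exact stable_transfer ρ₀ ρbar e he G
      (fun K' _ _ V₀ hV₀ => hTW_five_core ρ₀ hdet hunip K' (hK K') G hG V₀ hV₀) K V hV

/-- **BIGIMG for `p = 5` and `W[5]`, basis form.** -/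
theorem bigImage_five_of_basis (W : WeierstrassCurve ℤ) (hΔ : W.Δ ≠ 0) (hss : W.IsSemistableModel)
    (hirr : W.ModRepIsIrreducible 5) {k : Type} [Field k] [Algebra (ZMod 5) k] (ρbar : ResidualGaloisRep k)
    (b : Module.Basis (Fin 2) k ρbar.V)
    (hb : ∀ σ : GQ, LinearMap.toMatrix b b (ρbar.ρ σ) = (rhoE W hΔ 5 σ).map (algebraMap (ZMod 5) k)) :
    ρbar.IsAbsolutelyIrreducible ∧
    ∀ (K : Type) [Field K] [Algebra k K] (G : Subgroup GQ), G.index = 2 →
      ∀ V : Submodule K (ρbar.baseChange K).V,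
        (∀ σ ∈ G, ∀ x ∈ V, (ρbar.baseChange K).ρ σ x ∈ V) → V = ⊥ ∨ V = ⊤ :=
  bigImage_five (resRepE W hΔ 5) (wRes_isIrreducible W hΔ 5 hirr) (wRes_det W hΔ 5)
    (fun q hq hq5 A hA σ hσ => wRes_unip W hΔ 5 hss (by decide) q hq hq5 A hA σ hσ) ρbar
    (equivOfBasis (p := 5) ρbar b)
    (fun σ x => equivOfBasis_equivariant (p := 5) ρbar b (rhoE W hΔ 5 σ) (ρbar.ρ σ) (hb σ) x)

/-- **BIGIMG for `p = 5`** for the canonical realisation `(resRepE W hΔ 5).baseChange k`. -/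
theorem bigImage_five_resRepE (W : WeierstrassCurve ℤ) (hΔ : W.Δ ≠ 0) (hss : W.IsSemistableModel)
    (hirr : W.ModRepIsIrreducible 5) (k : Type) [Field k] [Algebra (ZMod 5) k] :
    ((resRepE W hΔ 5).baseChange k).IsAbsolutelyIrreducible ∧
    ∀ (K : Type) [Field K] [Algebra k K] (G : Subgroup GQ), G.index = 2 →
      ∀ V : Submodule K (((resRepE W hΔ 5).baseChange k).baseChange K).V,
        (∀ σ ∈ G, ∀ x ∈ V, (((resRepE W hΔ 5).baseChange k).baseChange K).ρ σ x ∈ V) → V = ⊥ ∨ V = ⊤ :=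
  bigImage_five (resRepE W hΔ 5) (wRes_isIrreducible W hΔ 5 hirr) (wRes_det W hΔ 5)
    (fun q hq hq5 A hA σ hσ => wRes_unip W hΔ 5 hss (by decide) q hq hq5 A hA σ hσ)
    ((resRepE W hΔ 5).baseChange k) (LinearEquiv.refl k _) (fun _ _ => rfl)

/-- **BIGIMG for `p = 5`** for the residual representation of the Tate module `T_5 W ⊗ O` over any complete local
ring `O` with `5 ∈ 𝔪_O`: `habs ∧ hTW` of the frozen S56. -/
theorem bigImage_five_tateRep (W : WeierstrassCurve ℤ) (hΔ : W.Δ ≠ 0) (hss : W.IsSemistableModel)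
    (hirr : W.ModRepIsIrreducible 5) {O : Type} [CommRing O] [IsLocalRing O]
    [IsAdicComplete (maximalIdeal O) O] (h5O : ((5 : ℕ) : O) ∈ maximalIdeal O)
    [Algebra (ZMod 5) (ResidueField O)] :
    ((tateRep (WQ' W) 5 h5O (WQ'_Δ_ne_zero hΔ) : GaloisRepAdic O).residual).IsAbsolutelyIrreducible ∧
    ∀ (K : Type) [Field K] [Algebra (ResidueField O) K] (G : Subgroup GQ), G.index = 2 →
      ∀ V : Submodule K (((tateRep (WQ' W) 5 h5O (WQ'_Δ_ne_zero hΔ) : GaloisRepAdic O).residual).baseChange K).V,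
        (∀ σ ∈ G, ∀ x ∈ V,
          (((tateRep (WQ' W) 5 h5O (WQ'_Δ_ne_zero hΔ) : GaloisRepAdic O).residual).baseChange K).ρ σ x ∈ V) →
        V = ⊥ ∨ V = ⊤ := by
  set ρbar := (tateRep (WQ' W) 5 h5O (WQ'_Δ_ne_zero hΔ) : GaloisRepAdic O).residual with hρbar
  let b : Module.Basis (Fin 2) (ResidueField O) ρbar.V :=
    Algebra.TensorProduct.basis (ResidueField O) (Pi.basisFun O (Fin 2))
  refine bigImage_five_of_basis W hΔ hss hirr ρbar b (fun σ => ?_)
  have h1 : LinearMap.toMatrix b b (ρbar.ρ σ) =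
      (LinearMap.toMatrix (Pi.basisFun O (Fin 2)) (Pi.basisFun O (Fin 2))
        (Matrix.toLin' (tateMat (WQ' W) 5 (maximalIdeal O) h5O (WQ'_Δ_ne_zero hΔ) σ))).map
        (algebraMap O (ResidueField O)) :=
    LinearMap.toMatrix_baseChange _ _ _ _
  rw [h1, LinearMap.toMatrix_eq_toMatrix', LinearMap.toMatrix'_toLin']
  exact tateMat_map_residue (p := 5) h5O W hΔ σ

end Fermat.Agent.S59lib.BigImg
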