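/-
S59lib / BigImg / NonEis (helper4): **strong non-Eisenstein for EVERY absolutely irreducible two-dimensional residual
representation** (no transvection needed, any residue characteristic).

* `exists_commutator_charpoly_ne` : over an algebraically closed field, an irreducible `ρ` has an element `σ` of the
  commutator subgroup of `G_ℚ` with `charpoly(ρ σ)(1) ≠ 0` (otherwise `ρ([G,G])` is unipotent, Kolchin gives a fixed
  vector, irreducibility makes `ρ([G,G])` trivial, and an abelian image is reducible);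
* `exists_commutator_noFixed_of_absIrr` : the same for an absolutely irreducible `ρbar` over any field;
* `commutator_apply_primitiveRoot` : the commutator subgroup fixes the roots of unity;
* **`exists_frobenius_one_mod_of_absIrr`** : for all `m > 0` and all finite `S₀` there are a prime `ℓ ∉ S₀`,
  `ℓ ≡ 1 (mod m)`, and a Frobenius `φ` at a place over `ℓ` with `charpoly(ρbar φ)(1) ≠ 0`,
  i.e. `tr ρbar(φ) ≠ 1 + det ρbar(φ)`.
-/
import Mathlib
import Fermat.Agent.S36lib.Gal.Kolchin
import Fermat.Agent.S43lib.BigImg.StrongNonEis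

set_option autoImplicit false
set_option linter.unusedSectionVars false
set_option linter.style.haveILetI false

open scoped TensorProduct

noncomputable section

namespace Fermat.Agent.S59lib.BigImg

open Polynomial

local notation "Qb" => AlgebraicClosure ℚ
local notation "GQ" => (AlgebraicClosure ℚ ≃ₐ[ℚ] AlgebraicClosure ℚ)

/-- the determinant kills the commutator subgroup -/
theorem det_eq_one_of_mem_commutator {K : Type} [Field K] (ρ : ResidualGaloisRep K) {σ : GQ}
    (hσ : σ ∈ commutator GQ) : LinearMap.det (ρ.ρ σ) = 1 := by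
  have h := Abelianization.commutator_subset_ker ((LinearMap.det.comp ρ.ρ).toHomUnits) hσ
  rw [MonoidHom.mem_ker] at h
  have h2 := congrArg (Units.val) h
  rwa [MonoidHom.coe_toHomUnits, Units.val_one] at h2

/-- over an algebraically closed field, an abelian image is reducible -/
theorem false_of_abelian {K : Type} [Field K] [IsAlgClosed K] (ρ : ResidualGaloisRep K) (hirr : ρ.IsIrreducible)
    (hab : ∀ g h : GQ, ρ.ρ g * ρ.ρ h = ρ.ρ h * ρ.ρ g) : False := by
  haveI : Module.Finite K ρ.V := Module.finite_of_finrank_eq_succ ρ.finrank_eq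
  haveI : Nontrivial ρ.V := Module.nontrivial_of_finrank_pos (R := K) (by rw [ρ.finrank_eq]; norm_num)
  -- every `ρ g` is a scalar
  have hscal : ∀ g : GQ, ∃ μ : K, ∀ x, ρ.ρ g x = μ • x := by
    intro g
    obtain ⟨μ, hμ⟩ := Module.End.exists_eigenvalue (ρ.ρ g)
    refine ⟨μ, ?_⟩
    have hstab : ∀ σ : GQ, ∀ x ∈ Module.End.eigenspace (ρ.ρ g) μ, ρ.ρ σ x ∈ Module.End.eigenspace (ρ.ρ g) μ := by
      intro σ x hx
      rw [Module.End.mem_eigenspace_iff] at hx ⊢
      have := LinearMap.congr_fun (hab g σ) x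
      rw [Module.End.mul_apply, Module.End.mul_apply] at this
      rw [this, hx, map_smul]
    rcases hirr _ hstab with h | h
    · exact absurd h hμ
    · intro x
      have hx : x ∈ Module.End.eigenspace (ρ.ρ g) μ := by rw [h]; exact Submodule.mem_top
      exact Module.End.mem_eigenspace_iff.1 hx
  obtain ⟨x₁, hx₁⟩ := exists_ne (0 : ρ.V)
  have hstab : ∀ σ : GQ, ∀ x ∈ (K ∙ x₁), ρ.ρ σ x ∈ (K ∙ x₁) := by
    intro σ x hx
    obtain ⟨μ, hμ⟩ := hscal σ
    rw [hμ]
    exact Submodule.smul_mem _ _ hx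
  rcases hirr _ hstab with h | h
  · exact hx₁ ((Submodule.span_singleton_eq_bot).1 h)
  · have h1 := finrank_span_singleton (K := K) hx₁
    rw [h, finrank_top, ρ.finrank_eq] at h1
    norm_num at h1

/-- **an element of the commutator subgroup without the eigenvalue `1`** (algebraically closed coefficients) -/
theorem exists_commutator_charpoly_ne {K : Type} [Field K] [IsAlgClosed K] (ρ : ResidualGaloisRep K)
    (hirr : ρ.IsIrreducible) : ∃ σ ∈ commutator GQ, (LinearMap.charpoly (ρ.ρ σ)).eval 1 ≠ 0 := by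
  classical
  by_contra hcon
  push Not at hcon
  haveI : Module.Finite K ρ.V := Module.finite_of_finrank_eq_succ ρ.finrank_eq
  haveI : Module.Free K ρ.V := Module.Free.of_divisionRing K ρ.V
  let b : Module.Basis (Fin 2) K ρ.V := Module.finBasisOfFinrankEq K ρ.V ρ.finrank_eq
  -- the matrices
  let M : GQ →* Matrix (Fin 2) (Fin 2) K :=
    ((LinearMap.toMatrixAlgEquiv b : Module.End K ρ.V ≃ₐ[K] Matrix (Fin 2) (Fin 2) K) :
      Module.End K ρ.V →* Matrix (Fin 2) (Fin 2) K).comp ρ.ρ
  have hM : ∀ σ, M σ = LinearMap.toMatrix b b (ρ.ρ σ) := fun σ => rfl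
  have hH : ∀ σ ∈ (commutator GQ : Set GQ), (M σ).trace = 2 ∧ (M σ).det = 1 := by
    intro σ hσ
    have hdet : (M σ).det = 1 := by
      rw [hM, LinearMap.det_toMatrix]
      exact det_eq_one_of_mem_commutator ρ hσ
    refine ⟨?_, hdet⟩
    have h1 := hcon σ hσ
    rw [← LinearMap.charpoly_toMatrix (ρ.ρ σ) b, ← hM, Matrix.charpoly_fin_two, hdet] at h1
    simp only [eval_add, eval_sub, eval_pow, eval_X, eval_mul, eval_C, one_pow, mul_one] at h1
    linear_combination -h1
  obtain ⟨v, hv0, hv⟩ := Fermat.Agent.S36lib.kolchin_two M (commutator GQ : Set GQ)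
    (fun σ hσ τ hτ => (commutator GQ).mul_mem hσ hτ) hH
  -- the fixed vector
  set x₀ : ρ.V := b.equivFun.symm v with hx₀
  have hx₀0 : x₀ ≠ 0 := by
    intro h
    apply hv0
    have := congrArg b.equivFun h
    rwa [hx₀, LinearEquiv.apply_symm_apply, map_zero] at this
  have hfix₀ : ∀ σ ∈ commutator GQ, ρ.ρ σ x₀ = x₀ := by
    intro σ hσ
    apply b.equivFun.injective
    have h1 := LinearMap.toMatrix_mulVec_repr b b (ρ.ρ σ) x₀
    have h2 : (b.repr x₀ : Fin 2 → K) = v := by
      have := LinearEquiv.apply_symm_apply b.equivFun v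
      rw [← hx₀] at this
      exact this
    rw [h2, ← hM, hv σ hσ] at h1
    show (b.repr (ρ.ρ σ x₀) : Fin 2 → K) = b.repr x₀
    rw [← h1, h2]
  -- the submodule of vectors fixed by the commutator subgroup
  let U : Submodule K ρ.V :=
    { carrier := {x | ∀ σ ∈ commutator GQ, ρ.ρ σ x = x}
      add_mem' := by
        intro x y hx hy σ hσ
        rw [map_add, hx σ hσ, hy σ hσ]
      zero_mem' := by
        intro σ _
        rw [map_zero]
      smul_mem' := by
        intro c x hx σ hσ
        rw [map_smul, hx σ hσ] }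
  have hUmem : ∀ x, x ∈ U ↔ ∀ σ ∈ commutator GQ, ρ.ρ σ x = x := fun x => Iff.rfl
  have hUstab : ∀ g : GQ, ∀ x ∈ U, ρ.ρ g x ∈ U := by
    intro g x hx
    rw [hUmem] at hx ⊢
    intro σ hσ
    have hn : g⁻¹ * σ * g ∈ commutator GQ := by
      have := (inferInstance : (commutator GQ).Normal).conj_mem σ hσ g⁻¹
      rwa [inv_inv] at this
    have e : σ * g = g * (g⁻¹ * σ * g) := by group
    have h1 : ρ.ρ σ (ρ.ρ g x) = ρ.ρ (σ * g) x := by rw [map_mul]; rfl
    rw [h1, e, map_mul, Module.End.mul_apply, hx _ hn]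
  have hUtop : U = ⊤ := by
    rcases hirr U hUstab with h | h
    · exfalso
      apply hx₀0
      have : x₀ ∈ U := (hUmem x₀).2 hfix₀
      rw [h, Submodule.mem_bot] at this
      exact this
    · exact h
  have htriv : ∀ σ ∈ commutator GQ, ρ.ρ σ = 1 := by
    intro σ hσ
    apply LinearMap.ext
    intro x
    have hx : x ∈ U := by rw [hUtop]; exact Submodule.mem_top
    rw [Module.End.one_apply]
    exact (hUmem x).1 hx σ hσ
  -- the image is abelian
  apply false_of_abelian ρ hirr
  intro g h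
  have hc : g * h * g⁻¹ * h⁻¹ ∈ commutator GQ := by
    rw [← commutatorElement_def]
    exact Subgroup.commutator_mem_commutator (Subgroup.mem_top g) (Subgroup.mem_top h)
  have h1 := htriv _ hc
  rw [map_mul, map_mul, map_mul] at h1
  have e : g * h = (g * h * g⁻¹ * h⁻¹) * (h * g) := by group
  rw [← map_mul, e, map_mul, map_mul, map_mul, map_mul, h1, one_mul, map_mul]

/-- **an element of the commutator subgroup without fixed vectors**, for an absolutely irreducible `ρbar` -/
theorem exists_commutator_noFixed_of_absIrr {k : Type} [Field k] (ρbar : ResidualGaloisRep k)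
    (habs : ρbar.IsAbsolutelyIrreducible) :
    ∃ σ ∈ commutator GQ, (LinearMap.charpoly (ρbar.ρ σ)).eval 1 ≠ 0 ∧ ∀ x, ρbar.ρ σ x = x → x = 0 := by
  haveI : Module.Finite k ρbar.V := Module.finite_of_finrank_eq_succ ρbar.finrank_eq
  haveI : Module.Free k ρbar.V := Module.Free.of_divisionRing k ρbar.V
  obtain ⟨σ, hσ, hne⟩ := exists_commutator_charpoly_ne (ρbar.baseChange (AlgebraicClosure k)) habs
  have h1 : (ρbar.baseChange (AlgebraicClosure k)).ρ σ = (ρbar.ρ σ).baseChange (AlgebraicClosure k) := rfl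
  have hne' : (LinearMap.charpoly (ρbar.ρ σ)).eval 1 ≠ 0 := by
    intro h0
    apply hne
    rw [h1, LinearMap.charpoly_baseChange, ← map_one (algebraMap k (AlgebraicClosure k)),
      eval_map_apply, h0, map_zero]
  refine ⟨σ, hσ, hne', fun x hx => ?_⟩
  by_contra hx0
  apply hne'
  have hev : Module.End.HasEigenvalue (ρbar.ρ σ) 1 := by
    apply Module.End.hasEigenvalue_of_hasEigenvector (x := x)
    refine ⟨?_, hx0⟩
    rw [Module.End.mem_eigenspace_iff, one_smul]
    exact hx
  exact (Module.End.hasEigenvalue_iff_isRoot_charpoly (ρbar.ρ σ) 1).1 hev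

/-- the commutator subgroup of `G_ℚ` fixes every root of unity -/
theorem commutator_apply_primitiveRoot {m : ℕ} (hm : 0 < m) {ζ : Qb} (hζ : IsPrimitiveRoot ζ m) {σ : GQ}
    (hσ : σ ∈ commutator GQ) : σ ζ = ζ := by
  have hle : commutator GQ ≤ MulAction.stabilizer GQ ζ := by
    rw [commutator_def, Subgroup.commutator_le]
    intro a _ b _
    rw [MulAction.mem_stabilizer_iff, commutatorElement_def]
    exact Fermat.Agent.S43lib.BigImg.comm_apply_primitiveRoot hm hζ a b
  exact MulAction.mem_stabilizer_iff.1 (hle hσ)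

/-- **Strong non-Eisenstein for an absolutely irreducible residual representation.**  For every modulus `m > 0`
and every finite set `S₀` of primes there are a prime `ℓ ∉ S₀`, `ℓ ≡ 1 (mod m)`, and a Frobenius element `φ` at a
place over `ℓ` such that `ρbar(φ)` does not have the eigenvalue `1`: `charpoly(ρbar φ)(1) ≠ 0`. -/
theorem exists_frobenius_one_mod_of_absIrr {k : Type} [Field k] (ρbar : ResidualGaloisRep k)
    (habs : ρbar.IsAbsolutelyIrreducible) {m : ℕ} (hm : 0 < m) (S₀ : Finset ℕ) :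
    ∃ (ℓ : ℕ) (A : ValuationSubring Qb) (φ : GQ), ℓ.Prime ∧ ℓ ∉ S₀ ∧ m ∣ ℓ - 1 ∧ A.LiesOverPrime ℓ ∧
      A.IsFrobeniusAt φ ℓ ∧ (LinearMap.charpoly (ρbar.ρ φ)).eval 1 ≠ 0 ∧ ∀ x, ρbar.ρ φ x = x → x = 0 := by
  obtain ⟨σ, hσ, -, hno⟩ := exists_commutator_noFixed_of_absIrr ρbar habs
  haveI : NeZero m := ⟨hm.ne'⟩
  obtain ⟨ζ, hζ⟩ := HasEnoughRootsOfUnity.exists_primitiveRoot Qb m
  obtain ⟨ℓ, A, φ, hℓ, hℓS₀, hdvd, hA, hφ, hno'⟩ :=
    Fermat.Agent.S43lib.BigImg.exists_frobenius_one_mod_of_noFixed ρbar σ hno hm hζ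
      (commutator_apply_primitiveRoot hm hζ hσ) S₀
  refine ⟨ℓ, A, φ, hℓ, hℓS₀, hdvd, hA, hφ, fun h0 => ?_, hno'⟩
  haveI : Module.Finite k ρbar.V := Module.finite_of_finrank_eq_succ ρbar.finrank_eq
  have hroot : (LinearMap.charpoly (ρbar.ρ φ)).IsRoot 1 := h0
  rw [← Module.End.hasEigenvalue_iff_isRoot_charpoly] at hroot
  obtain ⟨x, hx⟩ := hroot.exists_hasEigenvector
  apply hx.2
  apply hno' x
  rw [hx.apply_eq_smul, one_smul]

end Fermat.Agent.S59lib.BigImg
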