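/-
S59lib / BigImg / AuxPrime (helper4): **the auxiliary prime `r ≡ -1 (mod 12 p)` without level raising**, `p ∈ {3, 5}`.

* `dvd_add_one_of_frobenius_inverts` : a Frobenius at `ℓ ∤ N` inverting `ζ_N` has `N ∣ ℓ + 1`;
* `exists_frobenius_neg_one_mod` : `ρ₀` mod `p` with cyclotomic determinant, irreducible over `𝔽̄_p` on `G_ℚ` and on every
  subgroup of index `2` (`hTW`); `p ∣ m`, `m > 2`: there are a prime `ℓ ∉ S₀`, `ℓ ≡ -1 (mod m)` and a Frobenius `φ` at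
  `ℓ` with `tr ρ₀(φ) ≠ 0` (the coset `c · G_{ℚ(ζ_m)}` of complex conjugation contains an element of non-zero trace:
  `AuxLin.exists_trace_ne_zero`; weak Chebotarev; `tr = 0 ∧ det = -1 ⇔ square = 1` passes between generators of the
  same cyclic group);
* **`auxPrime`** : for `W` semistable with `W[p]` irreducible, `p ∈ {3, 5}`, and every `B > 0` there is a prime
  `r ∤ B p Δ`, `r ≡ 11 (mod 12)`, with `p ∤ a_r(W)² - (r + 1)²`   (the statement `AuxPrimeStmt` of `LevelQ2/Assembly`).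
-/
import Mathlib
import Fermat.Agent.S59lib.BigImg.AuxLin
import Fermat.Agent.S59lib.BigImg.BigFive
import Fermat.Agent.S59lib.BigImg.NonEis
import Fermat.Agent.S56lib.TWSel.Frob
import Fermat.Agent.S43lib.BigImg.StrongNonEis

set_option autoImplicit false
set_option linter.unusedSectionVars false
set_option linter.unusedVariables false
set_option linter.style.haveILetI false

open scoped TensorProduct

noncomputable section

namespace Fermat.Agent.S59lib.BigImg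

open ExtCitation Fermat.Agent.S56lib.TW Fermat.Agent.S44lib.Q1 Fermat.Agent.S56lib.TWSel Polynomial
open IntermediateField

local notation "Qb" => AlgebraicClosure ℚ
local notation "GQ" => (AlgebraicClosure ℚ ≃ₐ[ℚ] AlgebraicClosure ℚ)

/-! ### `N ∣ ℓ + 1` from a Frobenius inverting `ζ_N` -/

theorem dvd_add_one_of_frobenius_inverts {A : ValuationSubring Qb} {ℓ N : ℕ} (hℓ : ℓ.Prime)
    (hA : A.LiesOverPrime ℓ) (hN : 0 < N) (hcop : Nat.Coprime N ℓ) {ζ : Qb}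
    (hζ : IsPrimitiveRoot ζ N) {φ : GQ} (hφ : A.IsFrobeniusAt φ ℓ) (hinv : φ ζ = ζ⁻¹) :
    N ∣ ℓ + 1 := by
  by_contra hnd
  have hζA : ∀ i : ℕ, ζ ^ i ∈ A := fun i =>
    zbar_mem A ⟨ζ ^ i, (isIntegral_of_isPrimitiveRoot hN hζ).pow i⟩
  have hζ0 : ζ ≠ 0 := hζ.ne_zero hN.ne'
  -- Frobenius congruence
  have h1 : ζ⁻¹ - ζ ^ ℓ ∈ A.nonunits := by
    have := (isFrobeniusAt_iff.1 hφ).2 ζ (by simpa using hζA 1)
    rwa [hinv] at this
  have h2 : 1 - ζ ^ (ℓ + 1) ∈ A.nonunits := by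
    have h3 : ζ * (ζ⁻¹ - ζ ^ ℓ) = 1 - ζ ^ (ℓ + 1) := by
      rw [mul_sub, mul_inv_cancel₀ hζ0, pow_succ']
    rw [← h3]
    exact mul_mem_nonunits_of_mem (by simpa using hζA 1) h1
  -- reduce the exponent mod `N`
  set m := (ℓ + 1) % N with hm
  have hm0 : m ≠ 0 := fun h0 => hnd (Nat.dvd_of_mod_eq_zero h0)
  have hmN : m < N := Nat.mod_lt _ hN
  have hpow : ζ ^ (ℓ + 1) = ζ ^ m := by
    conv_lhs => rw [← Nat.div_add_mod (ℓ + 1) N, pow_add, pow_mul, hζ.pow_eq_one, one_pow, one_mul]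
  rw [hpow] at h2
  obtain ⟨n, rfl⟩ : ∃ n, N = n + 1 := ⟨N - 1, (Nat.sub_add_cancel hN).symm⟩
  have hprod := hζ.prod_one_sub_pow_eq_order
  have hmem : m - 1 ∈ Finset.range n := by
    rw [Finset.mem_range]; omega
  rw [← Finset.mul_prod_erase _ _ hmem, Nat.sub_add_cancel (Nat.pos_of_ne_zero hm0)] at hprod
  have hrest : ∏ x ∈ (Finset.range n).erase (m - 1), (1 - ζ ^ (x + 1)) ∈ A := by
    refine Subring.prod_mem A.toSubring fun i _ => ?_
    exact A.sub_mem A.one_mem (hζA _)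
  have hNmem : ((n + 1 : ℕ) : Qb) ∈ A.nonunits := by
    have : ((n + 1 : ℕ) : Qb) = (∏ x ∈ (Finset.range n).erase (m - 1), (1 - ζ ^ (x + 1)))
        * (1 - ζ ^ m) := by
      push_cast
      rw [← hprod, mul_comm]
    rw [this]
    exact mul_mem_nonunits_of_mem hrest h2
  have hcop' : IsCoprime ((n + 1 : ℕ) : ℤ) (ℓ : ℤ) := Nat.isCoprime_iff_coprime.2 hcop
  obtain ⟨a, b, hab⟩ := hcop'
  have h1mem : (1 : Qb) ∈ A.nonunits := by
    have : (1 : Qb) = (a : Qb) * ((n + 1 : ℕ) : Qb) + (b : Qb) * (ℓ : Qb) := by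
      have := congrArg (fun z : ℤ => (z : Qb)) hab
      push_cast at this ⊢
      rw [this]
    rw [this]
    refine add_mem_nonunits (mul_mem_nonunits_of_mem ?_ hNmem) (mul_mem_nonunits_of_mem ?_ hA)
    · exact intCast_mem A.toSubring a
    · exact intCast_mem A.toSubring b
  rw [ValuationSubring.mem_nonunits_iff] at h1mem
  simp at h1mem

/-! ### the cyclotomic character of an element inverting `μ_p` -/

theorem cycloChar_eq_neg_one (p : ℕ) [hp : Fact p.Prime] (σ : GQ)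
    (h : ∀ μ : Qb, μ ^ p = 1 → σ μ = μ⁻¹) : cycloChar p σ = -1 := by
  haveI : NeZero p := ⟨hp.out.ne_zero⟩
  refine cycloChar_eq_of_spec p σ (-1) fun μ hμ => ?_
  rw [h μ hμ]
  have hval : (((-1 : (ZMod p)ˣ) : ZMod p)).val = p - 1 := by
    rw [Units.val_neg, Units.val_one]
    obtain ⟨n, rfl⟩ : ∃ n, p = n + 1 := ⟨p - 1, (Nat.succ_pred_eq_of_pos hp.out.pos).symm⟩
    rw [ZMod.val_neg_one, Nat.add_sub_cancel]
  rw [hval]
  symm
  apply eq_inv_of_mul_eq_one_left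
  rw [← pow_succ, Nat.sub_add_cancel hp.out.one_le, hμ]

/-- an element inverting `ζ_m` inverts every `p`-th root of unity, `p ∣ m` -/
theorem inverts_of_inverts_primitiveRoot {m p : ℕ} (hm : 0 < m) (hpm : p ∣ m) {ζ : Qb}
    (hζ : IsPrimitiveRoot ζ m) {σ : GQ} (hσ : σ ζ = ζ⁻¹) (μ : Qb) (hμ : μ ^ p = 1) : σ μ = μ⁻¹ := by
  haveI : NeZero m := ⟨hm.ne'⟩
  have hμm : μ ^ m = 1 := by
    obtain ⟨t, rfl⟩ := hpm
    rw [pow_mul, hμ, one_pow]
  obtain ⟨i, -, rfl⟩ := hζ.eq_pow_of_pow_eq_one hμm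
  rw [map_pow, hσ, inv_pow]

/-! ### `2 × 2` Cayley–Hamilton -/

theorem mul_self_eq_two {R : Type*} [CommRing R] (M : Matrix (Fin 2) (Fin 2) R) :
    M * M = M.trace • M - M.det • (1 : Matrix (Fin 2) (Fin 2) R) := by
  ext i j
  fin_cases i <;> fin_cases j <;>
    simp [Matrix.mul_apply, Fin.sum_univ_two, Matrix.trace_fin_two, Matrix.det_fin_two] <;> ring

/-- `tr = 0` for an involution of determinant `-1` -/
theorem trace_eq_zero_of_mul_self {R : Type*} [CommRing R] [IsReduced R]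
    (M : Matrix (Fin 2) (Fin 2) R) (h1 : M * M = 1) (hd : M.det = -1) : M.trace = 0 := by
  have h := mul_self_eq_two M
  rw [h1, hd, neg_smul, one_smul, sub_neg_eq_add] at h
  have h2 : M.trace • M = 0 := by
    have := sub_eq_zero.2 h.symm
    rwa [add_sub_cancel_right] at this
  have h3 := congrArg Matrix.trace h2
  rw [Matrix.trace_smul, Matrix.trace_zero, smul_eq_mul] at h3
  exact IsReduced.eq_zero _ ⟨2, by rw [sq]; exact h3⟩

/-! ### the Chebotarev step -/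

/-- **a Frobenius `≡ -1 (mod m)` with non-zero trace.** -/
theorem exists_frobenius_neg_one_mod (p : ℕ) [hp : Fact p.Prime] (hp2 : p ≠ 2)
    (ρ₀ : ResidualGaloisRep (ZMod p))
    (hdet : ∀ σ : GQ, LinearMap.det (ρ₀.ρ σ) = ((cycloChar p σ : (ZMod p)ˣ) : ZMod p))
    (hirr : (ρ₀.baseChange (AlgebraicClosure (ZMod p))).IsIrreducible)
    (hTW : ∀ G : Subgroup GQ, G.index = 2 →
      ∀ V : Submodule (AlgebraicClosure (ZMod p)) (ρ₀.baseChange (AlgebraicClosure (ZMod p))).V,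
        (∀ σ ∈ G, ∀ x ∈ V, (ρ₀.baseChange (AlgebraicClosure (ZMod p))).ρ σ x ∈ V) → V = ⊥ ∨ V = ⊤)
    {m : ℕ} (hm : 2 < m) (hpm : p ∣ m) (S₀ : Finset ℕ) :
    ∃ (ℓ : ℕ) (A : ValuationSubring Qb) (φ : GQ), ℓ.Prime ∧ ℓ ∉ S₀ ∧ m ∣ ℓ + 1 ∧
      A.LiesOverPrime ℓ ∧ A.IsFrobeniusAt φ ℓ ∧
      LinearMap.trace (ZMod p) ρ₀.V (ρ₀.ρ φ) ≠ 0 := by
  classical
  have hm0 : 0 < m := by omega
  haveI : NeZero m := ⟨hm0.ne'⟩
  haveI : Module.Free (ZMod p) ρ₀.V := Module.Free.of_divisionRing (ZMod p) ρ₀.V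
  set K := AlgebraicClosure (ZMod p) with hK
  set ρK := ρ₀.baseChange K with hρK
  have hρKdef : ∀ σ : GQ, ρK.ρ σ = (ρ₀.ρ σ).baseChange K := fun _ => rfl
  obtain ⟨ζ, hζ⟩ := HasEnoughRootsOfUnity.exists_primitiveRoot Qb m
  -- the subgroup fixing `ζ`
  set H : Subgroup GQ := MulAction.stabilizer GQ ζ with hH
  have hHcomm : commutator GQ ≤ H := by
    intro σ hσ
    rw [hH, MulAction.mem_stabilizer_iff]
    exact commutator_apply_primitiveRoot hm0 hζ hσ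
  -- characteristic
  have h2Z : (2 : ZMod p) ≠ 0 := by
    intro h
    have h1 : ((2 : ℕ) : ZMod p) = 0 := by exact_mod_cast h
    rw [ZMod.natCast_eq_zero_iff] at h1
    exact hp2 ((Nat.prime_dvd_prime_iff_eq hp.out Nat.prime_two).1 h1)
  have h2K : (2 : K) ≠ 0 := by
    intro h
    apply h2Z
    apply (algebraMap (ZMod p) K).injective
    rw [map_ofNat, map_zero]
    exact h
  -- complex conjugation
  have hcc : ρK.ρ complexConjugation * ρK.ρ complexConjugation = 1 := by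
    rw [← map_mul, complexConjugation_mul_self, map_one]
  have hdetc : LinearMap.det (ρK.ρ complexConjugation) = -1 := by
    rw [hρKdef, LinearMap.det_baseChange, hdet,
      Fermat.Agent.S59lib.BigImg.cycloChar_complexConjugation, Units.val_neg, Units.val_one,
      map_neg, map_one]
  have hTW' : ∀ S : Subgroup GQ, (S = ⊤ ∨ S.index = 2) → ∀ U : Submodule K ρK.V,
      (∀ g ∈ S, ∀ x ∈ U, ρK.ρ g x ∈ U) → U = ⊥ ∨ U = ⊤ := by
    rintro S (rfl | hS) U hU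
    · exact hirr U fun σ x hx => hU σ (Subgroup.mem_top σ) x hx
    · exact hTW S hS U hU
  obtain ⟨h, hh, htr⟩ := exists_trace_ne_zero h2K ρK.finrank_eq ρK.ρ complexConjugation hcc hdetc
    H hHcomm hTW'
  set σ : GQ := complexConjugation * h with hσ
  have htr₀ : LinearMap.trace (ZMod p) ρ₀.V (ρ₀.ρ σ) ≠ 0 := by
    intro h0
    apply htr
    rw [hρKdef, LinearMap.trace_baseChange, h0, map_zero]
  -- `σ` inverts `ζ`
  have hσζ : σ ζ = ζ⁻¹ := by
    have hhζ : h ζ = ζ := MulAction.mem_stabilizer_iff.1 hh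
    show complexConjugation (h ζ) = ζ⁻¹
    rw [hhζ]
    exact Fermat.Agent.S58lib.Cmp.complexConjugation_of_pow_eq_one hm0.ne' hζ.pow_eq_one
  -- the field
  obtain ⟨L, hL, hLρ⟩ := ρ₀.factorsThroughFiniteLevel
  haveI := hL
  have hζalg : IsIntegral ℚ ζ := Algebra.IsIntegral.isIntegral ζ
  haveI : FiniteDimensional ℚ ℚ⟮ζ⟯ := IntermediateField.adjoin.finiteDimensional hζalg
  obtain ⟨F₀, hF₀⟩ : ∃ F₀ : IntermediateField ℚ Qb, F₀ = L ⊔ ℚ⟮ζ⟯ := ⟨_, rfl⟩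
  haveI : FiniteDimensional ℚ F₀ := by
    rw [hF₀]
    exact IntermediateField.finiteDimensional_sup L ℚ⟮ζ⟯
  obtain ⟨F, hF⟩ : ∃ F : IntermediateField ℚ Qb, F = IntermediateField.normalClosure ℚ F₀ Qb :=
    ⟨_, rfl⟩
  haveI : Normal ℚ F := by
    rw [hF]
    exact normalClosure.normal _ _ _
  haveI : FiniteDimensional ℚ F := by
    rw [hF]
    exact normalClosure.is_finiteDimensional _ _ _
  haveI : IsGalois ℚ F := ⟨⟩
  have hF₀F : F₀ ≤ F := by
    rw [hF]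
    exact IntermediateField.le_normalClosure F₀
  have hLF : L ≤ F := by
    refine le_trans ?_ hF₀F
    rw [hF₀]
    exact le_sup_left
  have hζF : ζ ∈ F := by
    apply hF₀F
    rw [hF₀]
    exact (le_sup_right : ℚ⟮ζ⟯ ≤ L ⊔ ℚ⟮ζ⟯) (IntermediateField.mem_adjoin_simple_self ℚ ζ)
  have hρF : ∀ s ∈ F.fixingSubgroup, ρ₀.ρ s = 1 := by
    intro s hs
    exact hLρ s fun x hx => (IntermediateField.mem_fixingSubgroup_iff F s).1 hs x (hLF hx)
  obtain ⟨ℓ, A₀, φ₀, j, a, hℓ, hℓS₀, hA₀, hφ₀, hσφ, hφσ⟩ :=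
    exists_frobenius_zpowers_eq F σ (S₀ ∪ m.primeFactors)
  have h1 : (φ₀ ^ j)⁻¹ * σ ∈ F.fixingSubgroup :=
    Fermat.Agent.S56lib.TWSel.mem_fixingSubgroup_of_forall hσφ
  have hσeq : σ = φ₀ ^ j * ((φ₀ ^ j)⁻¹ * σ) := by group
  have hρσ : ρ₀.ρ σ = ρ₀.ρ φ₀ ^ j := by
    conv_lhs => rw [hσeq, map_mul, hρF _ h1, mul_one, map_pow]
  have hcop : Nat.Coprime m ℓ := by
    rw [Nat.coprime_comm, Nat.Prime.coprime_iff_not_dvd hℓ]
    intro hdvd
    exact hℓS₀ (Finset.mem_union_right _ (Nat.mem_primeFactors.2 ⟨hℓ, hdvd, hm0.ne'⟩))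
  -- `φ₀` inverts `ζ`
  have hζ0 : ζ ≠ 0 := hζ.ne_zero hm0.ne'
  have hpowσ : ∀ n : ℕ, (σ ^ n) ζ = ζ ∨ (σ ^ n) ζ = ζ⁻¹ := by
    intro n
    induction n with
    | zero =>
      left
      simp
    | succ n ih =>
      rw [pow_succ', AlgEquiv.mul_apply]
      rcases ih with ih | ih
      · right
        rw [ih, hσζ]
      · left
        rw [ih, map_inv₀, hσζ, inv_inv]
  have hφζ : φ₀ ζ = ζ⁻¹ := by
    rcases hpowσ a with h0 | h0
    · exfalso
      have hfix : φ₀ ζ = ζ := by rw [hφσ ζ hζF, h0]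
      have hfixj : ∀ t : ℕ, (φ₀ ^ t) ζ = ζ := by
        intro t
        induction t with
        | zero => simp
        | succ t ih => rw [pow_succ, AlgEquiv.mul_apply, hfix, ih]
      have h3 : ζ⁻¹ = ζ := by rw [← hσζ, hσφ ζ hζF, hfixj j]
      have h4 : ζ ^ 2 = 1 := by
        rw [sq]
        nth_rewrite 1 [← h3]
        exact inv_mul_cancel₀ hζ0
      have h5 := hζ.dvd_of_pow_eq_one 2 h4
      have := Nat.le_of_dvd (by norm_num) h5
      omega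
    · rw [hφσ ζ hζF, h0]
  have hdvd : m ∣ ℓ + 1 := dvd_add_one_of_frobenius_inverts hℓ hA₀ hm0 hcop hζ hφ₀ hφζ
  refine ⟨ℓ, A₀, φ₀, hℓ, fun h => hℓS₀ (Finset.mem_union_left _ h), hdvd, hA₀, hφ₀, ?_⟩
  -- the trace
  intro htr0
  apply htr₀
  haveI : Module.Finite (ZMod p) ρ₀.V := Module.finite_of_finrank_eq_succ ρ₀.finrank_eq
  let b : Module.Basis (Fin 2) (ZMod p) ρ₀.V :=
    Module.finBasisOfFinrankEq (ZMod p) ρ₀.V ρ₀.finrank_eq
  set Mφ := LinearMap.toMatrix b b (ρ₀.ρ φ₀) with hMφ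
  set Mσ := LinearMap.toMatrix b b (ρ₀.ρ σ) with hMσ
  have hMσφ : Mσ = Mφ ^ j := by
    rw [hMσ, hρσ, hMφ]
    exact map_pow (LinearMap.toMatrixAlgEquiv b) _ j
  have hdφ : Mφ.det = -1 := by
    rw [hMφ, LinearMap.det_toMatrix, hdet,
      cycloChar_eq_neg_one p φ₀ (inverts_of_inverts_primitiveRoot hm0 hpm hζ hφζ),
      Units.val_neg, Units.val_one]
  have hdσ : Mσ.det = -1 := by
    rw [hMσ, LinearMap.det_toMatrix, hdet,
      cycloChar_eq_neg_one p σ (inverts_of_inverts_primitiveRoot hm0 hpm hζ hσζ),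
      Units.val_neg, Units.val_one]
  have htφ : Mφ.trace = 0 := by
    rw [hMφ, ← LinearMap.trace_eq_matrix_trace (ZMod p) b]
    exact htr0
  have hφ2 : Mφ * Mφ = 1 := by
    rw [mul_self_eq_two, htφ, hdφ, zero_smul, neg_smul, one_smul, zero_sub, neg_neg]
  have hσ2 : Mσ * Mσ = 1 := by
    rw [hMσφ, ← (Commute.refl Mφ).mul_pow, hφ2, one_pow]
  rw [LinearMap.trace_eq_matrix_trace (ZMod p) b]
  exact trace_eq_zero_of_mul_self Mσ hσ2 hdσ

/-! ### the auxiliary prime -/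

/-- the arithmetic conclusion from a Frobenius of non-zero trace with `12 p ∣ r + 1` -/
theorem auxPrime_core (p : ℕ) [hp : Fact p.Prime] (hp2 : p ≠ 2) (W : WeierstrassCurve ℤ)
    (hΔ : W.Δ ≠ 0)
    (hirr : ((resRepE W hΔ p).baseChange (AlgebraicClosure (ZMod p))).IsIrreducible)
    (hTW : ∀ G : Subgroup GQ, G.index = 2 →
      ∀ V : Submodule (AlgebraicClosure (ZMod p))
        ((resRepE W hΔ p).baseChange (AlgebraicClosure (ZMod p))).V,
        (∀ σ ∈ G, ∀ x ∈ V, ((resRepE W hΔ p).baseChange (AlgebraicClosure (ZMod p))).ρ σ x ∈ V) →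
          V = ⊥ ∨ V = ⊤)
    (B : ℕ) (hB : 0 < B) :
    ∃ r : ℕ, r.Prime ∧ ¬ r ∣ B ∧ r ≠ p ∧ ¬ (r : ℤ) ∣ W.Δ ∧ r % 12 = 11 ∧
      ¬ (p : ℤ) ∣ W.apOfModel r ^ 2 - ((r : ℤ) + 1) ^ 2 := by
  classical
  have hm : 2 < 12 * p := by have := hp.out.two_le; omega
  obtain ⟨r, A, φ, hr, hrS, hdvd, hA, hφ, htr⟩ :=
    exists_frobenius_neg_one_mod p hp2 (resRepE W hΔ p) (wRes_det W hΔ p) hirr hTW hm
      (Dvd.intro_left 12 rfl) (B.primeFactors ∪ ({p} ∪ W.Δ.natAbs.primeFactors))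
  simp only [Finset.mem_union, Finset.mem_singleton, not_or] at hrS
  obtain ⟨hrB, hrp, hrΔ⟩ := hrS
  have hgood : ¬ (r : ℤ) ∣ W.Δ := by
    intro hd
    apply hrΔ
    rw [Nat.mem_primeFactors]
    exact ⟨hr, Int.natCast_dvd.mp hd, Int.natAbs_ne_zero.mpr hΔ⟩
  have hrB' : ¬ r ∣ B := fun hd => hrB (Nat.mem_primeFactors.2 ⟨hr, hd, hB.ne'⟩)
  obtain ⟨ht, -⟩ := trace_det_rhoE_frob W hΔ p hr hrp hgood hA hφ
  refine ⟨r, hr, hrB', hrp, hgood, ?_, ?_⟩
  · have h12 : 12 ∣ r + 1 := (Dvd.intro p rfl).trans hdvd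
    omega
  · intro hdiv
    apply htr
    refine (Matrix.trace_toLin'_eq (rhoE W hΔ p φ)).trans ?_
    rw [ht]
    -- `p ∣ r + 1`
    have hp1 : (p : ℤ) ∣ (r : ℤ) + 1 := by
      have : p ∣ r + 1 := (Dvd.intro_left 12 rfl).trans hdvd
      exact_mod_cast Int.natCast_dvd_natCast.2 this
    have hp2' : (p : ℤ) ∣ W.apOfModel r ^ 2 := by
      have h1 : (p : ℤ) ∣ ((r : ℤ) + 1) ^ 2 := dvd_pow hp1 (by norm_num)
      have := dvd_add hdiv h1
      rwa [sub_add_cancel] at this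
    have hpa : (p : ℤ) ∣ W.apOfModel r :=
      (Nat.prime_iff_prime_int.1 hp.out).dvd_of_dvd_pow hp2'
    exact (ZMod.intCast_zmod_eq_zero_iff_dvd _ p).2 hpa

/-- **The auxiliary prime** (`AuxPrimeStmt` of `LevelQ2/Assembly`): for `p ∈ {3, 5}`, `W` semistable with `W[p]`
irreducible and every `B > 0` there is a prime `r ∤ B`, `r ≠ p`, of good reduction, `r ≡ 11 (mod 12)`, with
`p ∤ a_r(W)² - (r + 1)²` (in fact `r ≡ -1 (mod 12 p)` and `p ∤ a_r(W)`). -/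
theorem auxPrime : ∀ (p : ℕ), (p = 3 ∨ p = 5) → ∀ W : WeierstrassCurve ℤ, W.Δ ≠ 0 →
    W.IsSemistableModel → W.ModRepIsIrreducible p → ∀ B : ℕ, 0 < B →
      ∃ r : ℕ, r.Prime ∧ ¬ r ∣ B ∧ r ≠ p ∧ ¬ (r : ℤ) ∣ W.Δ ∧ r % 12 = 11 ∧
        ¬ (p : ℤ) ∣ W.apOfModel r ^ 2 - ((r : ℤ) + 1) ^ 2 := by
  intro p hp35 W hΔ hss hirr B hB
  rcases hp35 with rfl | rfl
  · haveI : Fact (Nat.Prime 3) := ⟨Nat.prime_three⟩
    have hK : ∀ (K : Type) [Field K] [Algebra (ZMod 3) K],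
        ((resRepE W hΔ 3).baseChange K).IsIrreducible := fun K _ _ =>
      isIrreducible_baseChange_of_cyclo 3 (by decide) (resRepE W hΔ 3)
        (wRes_isIrreducible W hΔ 3 hirr) (wRes_det W hΔ 3) K
    exact auxPrime_core 3 (by decide) W hΔ (hK _)
      (fun G hG V hV => hTW_three_core (resRepE W hΔ 3) (wRes_det W hΔ 3)
        (fun q hq hq3 A hA σ hσ => wRes_unip W hΔ 3 hss (by decide) q hq hq3 A hA σ hσ)
        _ (hK _) G hG V hV) B hB
  · haveI : Fact (Nat.Prime 5) := ⟨by norm_num⟩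
    have hK : ∀ (K : Type) [Field K] [Algebra (ZMod 5) K],
        ((resRepE W hΔ 5).baseChange K).IsIrreducible := fun K _ _ =>
      isIrreducible_baseChange_of_cyclo 5 (by decide) (resRepE W hΔ 5)
        (wRes_isIrreducible W hΔ 5 hirr) (wRes_det W hΔ 5) K
    exact auxPrime_core 5 (by decide) W hΔ (hK _)
      (fun G hG V hV => hTW_five_core (resRepE W hΔ 5) (wRes_det W hΔ 5)
        (fun q hq hq5 A hA σ hσ => wRes_unip W hΔ 5 hss (by decide) q hq hq5 A hA σ hσ)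
        _ (hK _) G hG V hV) B hB

/-- the auxiliary prime outside a finite set of primes (the shape `HasAuxPrime W p` of `MazurW/Main`) -/
theorem auxPrime_finset (p : ℕ) (hp35 : p = 3 ∨ p = 5) (W : WeierstrassCurve ℤ) (hΔ : W.Δ ≠ 0)
    (hss : W.IsSemistableModel) (hirr : W.ModRepIsIrreducible p) (S : Finset ℕ) :
    ∃ r : ℕ, r.Prime ∧ r ∉ S ∧ r % 12 = 11 ∧ ¬ (r : ℤ) ∣ W.Δ ∧
      ¬ (p : ℤ) ∣ W.apOfModel r ^ 2 - ((r : ℤ) + 1) ^ 2 := by
  classical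
  have hB : 0 < ∏ s ∈ S.filter (fun s => s ≠ 0), s :=
    Finset.prod_pos fun s hs => Nat.pos_of_ne_zero (Finset.mem_filter.mp hs).2
  obtain ⟨r, hr, hrB, -, hgood, h12, ha⟩ := auxPrime p hp35 W hΔ hss hirr _ hB
  refine ⟨r, hr, fun hrS => hrB ?_, h12, hgood, ha⟩
  exact Finset.dvd_prod_of_mem _ (Finset.mem_filter.mpr ⟨hrS, hr.ne_zero⟩)

end Fermat.Agent.S59lib.BigImg
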